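import Fermat.Agent.CFT.S14.Kummer
import Fermat.Agent.Galois.PlaceFiniteLevel
import Fermat.Prelude.Def_ExtCitation_AdmissibleExtension_v2
import Fermat.Prelude.Def_ExtCitation_KummerBridge
import Mathlib.FieldTheory.Galois.Profinite

/-!
# Admissible extensions split

The extension class of an admissible extension is trivial on the Galois group of `ℚ(ζ_p)` by
Kummer descent, hence trivial.
-/

set_option autoImplicit false

namespace FermatLib.CFT.ExtVanish

open NumberField IsDedekindDomain ExtCitation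
open scoped Classical Pointwise

local notation "Qbar" => AlgebraicClosure ℚ
local notation "Γℚ" => (AlgebraicClosure ℚ ≃ₐ[ℚ] AlgebraicClosure ℚ)

local instance admissible_isAlgebraic : Algebra.IsAlgebraic ℚ Qbar :=
  AlgebraicClosure.isAlgebraic ℚ

local instance admissible_isGalois : IsGalois ℚ Qbar :=
  have : IsAlgClosure ℚ Qbar := ⟨inferInstance, inferInstance⟩
  have : Normal ℚ Qbar := IsAlgClosure.normal ℚ Qbar
  { }

variable {p : ℕ} [Fact p.Prime]

lemma apply_eq_pow_cycloChar (σ : Γℚ) {ζ : Qbar} (hζ : ζ ^ p = 1) :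
    σ ζ = ζ ^ ((cycloChar p σ : ZMod p)).val := by
  have : NeZero p := ⟨(Fact.out : p.Prime).ne_zero⟩
  exact modularCyclotomicCharacter.spec Qbar (card_rootsOfUnity_eq_self p) (σ : Qbar ≃+* Qbar)
    (rootsOfUnity.mkOfPowEq ζ hζ).2

lemma exists_prime_mem {L : Type*} [Field L] [NumberField L] (Q : HeightOneSpectrum (𝓞 L)) :
    ∃ ℓ : ℕ, ℓ.Prime ∧ (ℓ : 𝓞 L) ∈ Q.asIdeal := by
  have : Finite (𝓞 L ⧸ Q.asIdeal) := Ideal.finiteQuotientOfFreeOfNeBot _ Q.ne_bot
  obtain ⟨ℓ, hℓ⟩ := CharP.exists (𝓞 L ⧸ Q.asIdeal)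
  have := Q.isPrime
  refine ⟨ℓ, CharP.char_is_prime (𝓞 L ⧸ Q.asIdeal) ℓ, ?_⟩
  rw [← Ideal.Quotient.eq_zero_iff_mem, map_natCast]
  exact CharP.cast_eq_zero _ ℓ

variable {V : Type} [AddCommGroup V] [Module (ZMod p) V]
  [DistribMulAction Γℚ V] [SMulCommClass Γℚ (ZMod p) V] {C : Submodule (ZMod p) V}

variable (V) in
/-- The kernel of the action. -/
def actKer : Subgroup Γℚ where
  carrier := {σ | ∀ v : V, σ • v = v}
  one_mem' := one_smul _
  mul_mem' := fun hs ht v => by rw [mul_smul, ht, hs]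
  inv_mem' := fun {s} hs v => by rw [inv_smul_eq_iff, hs]

omit [SMulCommClass Γℚ (ZMod p) V] in
/-- Coordinates in an admissible extension. -/
lemma exists_basis (h : IsAdmissibleExtension p V C) : ∃ c₀ v₀ : V, c₀ ∈ C ∧ c₀ ≠ 0 ∧
    (∀ x ∈ C, ∃ i : ZMod p, x = i • c₀) ∧ v₀ ∉ C ∧ ∀ w : V, w ∉ C →
      IsCompl C (ZMod p ∙ w) := by
  have hpr : p.Prime := Fact.out
  have : Finite V := Nat.finite_of_card_ne_zero (by
    rw [h.card_total]; exact pow_ne_zero _ hpr.ne_zero)
  have hnt : Nontrivial C := Finite.one_lt_card_iff_nontrivial.mp (by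
    rw [h.card_sub]; exact hpr.one_lt)
  obtain ⟨⟨c₀, hc₀⟩, hne⟩ := exists_ne (0 : C)
  have hc0 : c₀ ≠ 0 := fun e => hne (Subtype.ext e)
  have hgen : ∀ x ∈ C, ∃ i : ZMod p, x = i • c₀ := fun x hx => by
    obtain ⟨n, hn⟩ := AddSubgroup.mem_zmultiples_iff.mp
      (mem_zmultiples_of_prime_card (g' := (⟨x, hx⟩ : C)) h.card_sub hne)
    exact ⟨(n : ZMod p), by rw [Int.cast_smul_eq_zsmul]; exact (congrArg Subtype.val hn).symm⟩
  obtain ⟨v₀, hv₀⟩ : ∃ v, v ∉ C := by
    by_contra! hall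
    have he := Nat.card_congr (Equiv.subtypeUnivEquiv hall)
    rw [show Nat.card {x // x ∈ C} = p from h.card_sub, h.card_total] at he
    have : p < p ^ 2 := lt_self_pow₀ hpr.one_lt one_lt_two
    omega
  refine ⟨c₀, v₀, hc₀, hc0, hgen, hv₀, fun w hw => ⟨?_, ?_⟩⟩
  · rw [Submodule.disjoint_span_singleton' (fun e : w = 0 => hw (e ▸ C.zero_mem))]
    exact hw
  · rw [codisjoint_iff, eq_top_iff]
    intro x _
    let f : ZMod p × ZMod p → V := fun q => q.1 • c₀ + q.2 • w
    have hf : Function.Injective f := by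
      rintro ⟨i, j⟩ ⟨i', j'⟩ e
      have e1 : (j - j') • w = (i' - i) • c₀ := by
        simp only [f] at e
        rw [sub_smul, sub_smul, sub_eq_sub_iff_add_eq_add, add_comm, e, add_comm]
      have hj : j = j' := by
        by_contra hj
        refine hw ?_
        rw [← one_smul (ZMod p) w, ← inv_mul_cancel₀ (sub_ne_zero.mpr hj), mul_smul, e1]
        exact C.smul_mem _ (C.smul_mem _ hc₀)
      rw [hj, sub_self, zero_smul, eq_comm, smul_eq_zero, sub_eq_zero] at e1
      exact Prod.ext (e1.resolve_right hc0).symm hj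
    obtain ⟨⟨i, j⟩, rfl⟩ := ((Nat.bijective_iff_injective_and_card f).mpr
      ⟨hf, by rw [Nat.card_prod, Nat.card_zmod, h.card_total, sq]⟩).2 x
    exact Submodule.add_mem_sup (C.smul_mem _ hc₀)
      (Submodule.smul_mem _ _ (Submodule.mem_span_singleton_self w))

/-- The extension class vanishes, so admissible extensions split. -/
theorem splitsGlobally_of_admissible (hp3 : 3 ≤ p) (h : IsAdmissibleExtensionCts p V C) :
    SplitsGlobally C := by
  have hpr : p.Prime := Fact.out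
  obtain ⟨c₀, v₀, hc₀, hc0, hgen, hv₀, hcompl⟩ := exists_basis h.toIsAdmissibleExtension
  have hq : ∀ (σ : Γℚ) (x : V), σ • x - (cycloChar p σ : ZMod p) • x ∈ C := fun σ x => by
    rw [coe_cycloChar]; exact h.cyclo_quot σ x
  have hχ1 : ∀ σ ∈ actKer V, cycloChar p σ = 1 := fun σ hσ => by
    by_contra hne
    have h1 := hq σ v₀
    rw [hσ v₀] at h1
    nth_rewrite 1 [← one_smul (ZMod p) v₀] at h1
    rw [← sub_smul] at h1
    exact hv₀ ((C.smul_mem_iff (sub_ne_zero.mpr fun e => hne (Units.ext e.symm))).mp h1)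
  choose A hA using fun σ => hgen _ (hq σ v₀)
  have hinj : ∀ i j : ZMod p, i • c₀ = j • c₀ → i = j := fun i j e =>
    smul_left_injective (ZMod p) hc0 e
  have hact : ∀ σ, σ • v₀ = (cycloChar p σ : ZMod p) • v₀ + A σ • c₀ := fun σ =>
    sub_eq_iff_eq_add'.mp (hA σ)
  have hcoc : ∀ σ τ, A (σ * τ) = (cycloChar p τ : ZMod p) * A σ + A τ := fun σ τ => hinj _ _ (by
    have h1 := hact (σ * τ)
    rw [mul_smul, hact τ, smul_add, smul_comm, smul_comm σ (A τ), hact σ, h.fixed_sub σ c₀ hc₀,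
      smul_add, smul_smul, smul_smul, add_assoc, map_mul, Units.val_mul,
      mul_comm (cycloChar p τ : ZMod p) (cycloChar p σ : ZMod p), ← add_smul] at h1
    exact (add_left_cancel h1).symm)
  -- the field cut out by the action
  let H : Subgroup Γℚ := actKer V
  have hopen : IsOpen (H : Set Γℚ) := h.open_kernel
  have hclosed : IsClosed (H : Set Γℚ) := Subgroup.isClosed_of_isOpen H hopen
  let L : IntermediateField ℚ Qbar := IntermediateField.fixedField H
  have hfix : L.fixingSubgroup = H := InfiniteGalois.fixingSubgroup_fixedField ⟨H, hclosed⟩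
  have : IsGalois ℚ L := (InfiniteGalois.normal_iff_isGalois L).mp (by
    rw [hfix]
    exact ⟨fun n hn g v => by rw [mul_smul, mul_smul, hn (g⁻¹ • v), smul_inv_smul]⟩)
  have : FiniteDimensional ℚ L := (InfiniteGalois.isOpen_iff_finite L).mp (by rw [hfix]; exact hopen)
  have : NumberField L := ⟨⟩
  let r : Γℚ →* (L ≃ₐ[ℚ] L) := AlgEquiv.restrictNormalHom L
  have hr : ∀ (σ : Γℚ) (x : L), ((r σ x : L) : Qbar) = σ x := fun σ x =>
    AlgEquiv.restrictNormal_commutes σ L x
  have hr1 : ∀ σ, r σ = 1 → σ ∈ H := fun σ hσ => by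
    rw [← hfix, IntermediateField.mem_fixingSubgroup_iff]
    intro x hx
    rw [← hr σ ⟨x, hx⟩, hσ]
    rfl
  have hsurj : Function.Surjective r := AlgEquiv.restrictNormalHom_surjective Qbar
  have hwell : ∀ σ τ, r σ = r τ → cycloChar p σ = cycloChar p τ ∧ A σ = A τ := fun σ τ e => by
    have hm : σ⁻¹ * τ ∈ H := hr1 _ (by rw [map_mul, map_inv, e, inv_mul_cancel])
    have h1 := hχ1 _ hm
    rw [map_mul, map_inv, inv_mul_eq_one] at h1
    refine ⟨h1, hinj _ _ ?_⟩
    rw [← hA σ, ← hA τ, h1]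
    congr 1
    conv_rhs => rw [← mul_inv_cancel_left σ τ, mul_smul, hm v₀]
  let lift := Function.surjInv hsurj
  have hlift : ∀ s, r (lift s) = s := Function.surjInv_eq hsurj
  let χL : (L ≃ₐ[ℚ] L) →* (ZMod p)ˣ := MonoidHom.mk' (fun s => cycloChar p (lift s)) fun s t => by
    rw [← map_mul]
    exact (hwell _ _ (by rw [map_mul, hlift, hlift, hlift])).1
  let aL : (L ≃ₐ[ℚ] L) → ZMod p := fun s => A (lift s)
  have haL : ∀ s t, aL (s * t) = (χL t : ZMod p) * aL s + aL t := fun s t => by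
    show A _ = _
    rw [(hwell (lift (s * t)) (lift s * lift t) (by rw [map_mul, hlift, hlift, hlift])).2, hcoc]
    rfl
  have : NeZero p := ⟨hpr.ne_zero⟩
  obtain ⟨z, hz⟩ := HasEnoughRootsOfUnity.exists_primitiveRoot Qbar p
  have hzL : z ∈ L := fun σ => by
    show σ.1 z = z
    rw [apply_eq_pow_cycloChar σ.1 hz.pow_eq_one, hχ1 σ.1 σ.2, Units.val_one,
      ZMod.val_one, pow_one]
  let zL : L := ⟨z, hzL⟩
  have hzL' : IsPrimitiveRoot zL p :=
    IsPrimitiveRoot.of_map_of_injective (f := algebraMap L Qbar) hz (algebraMap L Qbar).injective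
  let K : IntermediateField ℚ L := IntermediateField.adjoin ℚ {zL}
  have : IsCyclotomicExtension {p} ℚ K := hzL'.intermediateField_adjoin_isCyclotomicExtension ℚ
  have : NumberField K := ⟨⟩
  let ζ : K := ⟨zL, IntermediateField.mem_adjoin_simple_self ℚ zL⟩
  have hζ : IsPrimitiveRoot ζ p :=
    IsPrimitiveRoot.of_map_of_injective (f := algebraMap K L) hzL' (algebraMap K L).injective
  have hχL : ∀ s : L ≃ₐ[ℚ] L, s (algebraMap K L ζ) = algebraMap K L ζ ^ (χL s : ZMod p).val :=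
    fun s => Subtype.ext (by
      conv_lhs => rw [← hlift s]
      show ((r (lift s) zL : L) : Qbar) = ((zL ^ _ : L) : Qbar)
      rw [hr, SubmonoidClass.coe_pow]
      exact apply_eq_pow_cycloChar _ hz.pow_eq_one)
  have hKfix : ∀ h : L ≃ₐ[K] L, ∀ σ : Γℚ, r σ = h.restrictScalars ℚ → cycloChar p σ = 1 :=
    fun h σ hσ => by
      have h1 := hr σ zL
      rw [hσ, AlgEquiv.restrictScalars_apply, show h zL = zL from h.commutes ζ,
        apply_eq_pow_cycloChar σ (ζ := z) hz.pow_eq_one] at h1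
      conv_lhs at h1 => rw [show (zL : Qbar) = z ^ 1 from (pow_one z).symm]
      have h2 := hz.pow_inj hpr.one_lt (ZMod.val_lt _) h1
      exact Units.ext (ZMod.val_injective p (by rw [Units.val_one, ZMod.val_one, h2]))
  have hone : ∀ (h : L ≃ₐ[K] L) (σ : Γℚ), r σ = h.restrictScalars ℚ → σ ∈ H → h = 1 :=
    fun h σ hσ hm => AlgEquiv.ext fun x => Subtype.ext (by
      rw [← AlgEquiv.restrictScalars_apply ℚ h x, ← hσ, hr]
      exact (IntermediateField.mem_fixingSubgroup_iff L σ).mp (hfix.ge hm) x x.2)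
  have hunr : ∀ Q : HeightOneSpectrum (𝓞 L), (p : 𝓞 L) ∉ Q.asIdeal →
      ∀ g : L ≃ₐ[K] L, (∀ x : 𝓞 L, g • x - x ∈ Q.asIdeal) → g = 1 := fun Q hpQ g hg => by
    obtain ⟨ℓ, hℓ, hℓQ⟩ := exists_prime_mem Q
    obtain ⟨P, hP, hPQ⟩ := FermatLib.Galois.exists_place_placePrime_eq L hℓ Q.asIdeal hℓQ
    obtain ⟨τ, hτ, hτs⟩ := FermatLib.Galois.exists_inertia_restrictNormal_eq L hℓ hP
      (s := g.restrictScalars ℚ) (by rw [hPQ]; exact fun x => hg x)
    exact hone g τ hτs fun v => h.unramified_outside ℓ hℓ (fun e => hpQ (e ▸ hℓQ)) P hP τ hτ v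
  have hsplit : ∀ Q : HeightOneSpectrum (𝓞 L), (p : 𝓞 L) ∈ Q.asIdeal →
      ∀ g : L ≃ₐ[K] L, g • Q.asIdeal = Q.asIdeal → g = 1 := fun Q hpQ g hg => by
    obtain ⟨P, hP, hPQ⟩ := FermatLib.Galois.exists_place_placePrime_eq L hpr Q.asIdeal hpQ
    obtain ⟨σ, hσ⟩ := hsurj (g.restrictScalars ℚ)
    obtain ⟨t, ht, htσ⟩ := FermatLib.Galois.exists_fixing_smul_place_eq L (σ • P) P fun x hx hi => by
      obtain ⟨b, hb⟩ := FermatLib.Galois.exists_levelIntegers_eq L (x := ⟨x, hi⟩) hx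
      have hb' : ((b : L) : Qbar) = x := congrArg Subtype.val hb
      rw [FermatLib.Galois.mem_nonunits_smul_place, ← hb',
        ← FermatLib.Galois.coe_restrictNormal_smul L σ⁻¹ b,
        ← FermatLib.Galois.mem_placePrime_iff L, ← FermatLib.Galois.mem_placePrime_iff L, hPQ]
      have e : σ⁻¹.restrictNormal L • b = (g⁻¹ : L ≃ₐ[K] L) • b := RingOfIntegers.ext (by
        show (r σ⁻¹) (b : L) = g⁻¹ (b : L)
        rw [map_inv, hσ]
        rfl)
      rw [e]
      conv_lhs => rw [← Ideal.smul_mem_pointwise_smul_iff (a := g), hg, smul_inv_smul]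
    have hD : t * σ ∈ P.decompositionSubgroup ℚ := by
      show (t * σ) • P = P
      rw [mul_smul, htσ]
    have hrt : r (t * σ) = g.restrictScalars ℚ := by
      rw [map_mul, hσ, show r t = 1 from AlgEquiv.ext fun x => Subtype.ext (by
        rw [hr]; exact (IntermediateField.mem_fixingSubgroup_iff L t).mp ht x x.2), one_mul]
    have h1 := hKfix g _ hrt
    obtain ⟨C', hC', hcC'⟩ := h.locally_split P hP
    obtain ⟨w, hw, hwC⟩ : ∃ w ∈ C', w ∉ C := by
      by_contra! hall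
      have h2 : C = ⊤ := by
        have := codisjoint_iff.mp hcC'.2
        rwa [sup_eq_left.mpr (fun x hx => hall x hx)] at this
      exact hv₀ (h2 ▸ Submodule.mem_top)
    have hfixw : (t * σ) • w = w := by
      have h2 := hq (t * σ) w
      rw [h1, Units.val_one, one_smul] at h2
      exact sub_eq_zero.mp (Submodule.disjoint_def.mp hcC'.1 _ h2 (C'.sub_mem (hC' _ hD w hw) hw))
    refine hone g _ hrt fun v => ?_
    obtain ⟨c, hc, u, hu, rfl⟩ := Submodule.mem_sup.mp
      ((codisjoint_iff.mp (hcompl w hwC).2).ge (Submodule.mem_top (x := v)))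
    obtain ⟨j, rfl⟩ := Submodule.mem_span_singleton.mp hu
    rw [smul_add, h.fixed_sub _ c hc, smul_comm, hfixw]
  have key := kummer_descent (K := K) hζ (L := L) hp3 χL hχL aL haL hunr hsplit
  have hA0 : ∀ σ, cycloChar p σ = 1 → A σ = 0 := fun σ hσ => by
    have hσK : ∀ x : K, r σ (algebraMap K L x) = algebraMap K L x := fun x => by
      have hle : K ≤ IntermediateField.fixedField (Subgroup.zpowers (r σ)) := by
        rw [IntermediateField.adjoin_le_iff, Set.singleton_subset_iff]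
        intro ⟨m, hm⟩
        obtain ⟨k, rfl⟩ := Subgroup.mem_zpowers_iff.mp hm
        refine MulAction.mem_stabilizer_iff.mp (zpow_mem ?_ k : (r σ) ^ k ∈
          MulAction.stabilizer (L ≃ₐ[ℚ] L) zL)
        refine MulAction.mem_stabilizer_iff.mpr (Subtype.ext ?_)
        show ((r σ zL : L) : Qbar) = z
        rw [hr, apply_eq_pow_cycloChar σ (ζ := z) hz.pow_eq_one, hσ, Units.val_one, ZMod.val_one,
          pow_one]
      exact hle x.2 ⟨r σ, Subgroup.mem_zpowers _⟩
    have h1 := key (AlgEquiv.ofRingEquiv (f := (r σ).toRingEquiv) hσK)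
    rw [show (AlgEquiv.ofRingEquiv (f := (r σ).toRingEquiv) hσK).restrictScalars ℚ = r σ from
      AlgEquiv.ext fun _ => rfl] at h1
    rw [(hwell σ (lift (r σ)) (hlift _).symm).2]
    exact h1
  -- splitting
  obtain ⟨σ₀, hσ₀⟩ : ∃ σ₀ : Γℚ, cycloChar p σ₀ ≠ 1 := by
    by_contra! hall
    have hmin : minpoly ℚ z = Polynomial.cyclotomic p ℚ :=
      (Polynomial.cyclotomic_eq_minpoly_rat hz hpr.pos).symm
    obtain ⟨σ, hσ⟩ : ∃ σ : Γℚ, σ z = z ^ 2 := by
      refine minpoly.exists_algEquiv_of_root' (Algebra.IsAlgebraic.isAlgebraic z) ?_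
      rw [hmin, Polynomial.aeval_def, ← Polynomial.eval_map, Polynomial.map_cyclotomic]
      exact (hz.pow_of_coprime 2 (Nat.coprime_primes Nat.prime_two hpr |>.mpr (by omega))).isRoot_cyclotomic
        hpr.pos
    rw [apply_eq_pow_cycloChar σ hz.pow_eq_one, hall σ, Units.val_one, ZMod.val_one] at hσ
    exact absurd (hz.pow_inj (by omega : 1 < p) (by omega : 2 < p) hσ) (by omega)
  set d : ZMod p := (cycloChar p σ₀ : ZMod p) - 1 with hd
  have hd0 : d ≠ 0 := sub_ne_zero.mpr fun e => hσ₀ (Units.ext e)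
  set w := v₀ + (A σ₀ * d⁻¹) • c₀ with hw
  have hwC : w ∉ C := fun hm => hv₀ (by
    have := C.sub_mem hm (C.smul_mem (A σ₀ * d⁻¹) hc₀)
    rwa [hw, add_sub_cancel_right] at this)
  refine ⟨ZMod p ∙ w, fun σ x hx => ?_, hcompl w hwC⟩
  obtain ⟨j, rfl⟩ := Submodule.mem_span_singleton.mp hx
  refine Submodule.mem_span_singleton.mpr ⟨j * (cycloChar p σ : ZMod p), ?_⟩
  rw [mul_smul, smul_comm σ j]
  congr 1
  have hcomm : A (σ * σ₀) = A (σ₀ * σ) := by
    have hg : A ((σ₀ * σ)⁻¹ * (σ * σ₀)) = 0 := hA0 _ (by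
      simp only [map_mul, map_inv]
      rw [mul_comm (cycloChar p σ₀) (cycloChar p σ), inv_mul_cancel])
    have h1 := hcoc (σ₀ * σ) ((σ₀ * σ)⁻¹ * (σ * σ₀))
    rw [mul_inv_cancel_left, hg, add_zero, map_mul, map_inv, map_mul, map_mul, mul_comm (cycloChar p σ₀),
      inv_mul_cancel, Units.val_one, one_mul] at h1
    exact h1
  rw [hcoc, hcoc] at hcomm
  have hAσ : A σ = A σ₀ * d⁻¹ * ((cycloChar p σ : ZMod p) - 1) := by
    field_simp
    rw [hd]
    linear_combination hcomm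
  rw [hw, smul_add σ, smul_comm σ (A σ₀ * d⁻¹), h.fixed_sub σ c₀ hc₀, hact, hAσ, smul_add, smul_smul,
    add_assoc, ← add_smul]
  congr 2
  ring

end FermatLib.CFT.ExtVanish
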