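import Fermat.Agent.CFT.S14.UnitEigen

/-!
# An `ω²`-eigen unit which is locally a `p`-th power at `λ` is a `p`-th power
-/

set_option autoImplicit false

namespace FermatLib.CFT.ExtVanish

open NumberField NumberField.Units Finset
open scoped Classical

variable {p : ℕ} [Fact p.Prime] {K : Type*} [Field K] [NumberField K]
  [IsCyclotomicExtension {p} ℚ K] {ζ : K} (hζ : IsPrimitiveRoot ζ p)

lemma sig_smul_toInteger (d : (ZMod p)ˣ) :
    sig p K d • hζ.toInteger = hζ.toInteger ^ (d : ZMod p).val :=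
  RingOfIntegers.ext (sig_apply_zeta hζ d)

lemma galUnit_xiUnit_mul (c d : (ZMod p)ˣ) :
    galUnit p K d (xiUnit hζ c) * xiUnit hζ d = xiUnit hζ (d * c) := by
  refine Units.ext (mul_right_cancel₀ (lam_ne_zero hζ) ?_)
  rw [Units.val_mul, mul_assoc, xiUnit_mul_lam, xiUnit_mul_lam, coe_galUnit]
  have h1 : sig p K d • lam hζ = 1 - hζ.toInteger ^ (d : ZMod p).val := by
    rw [lam, smul_sub, smul_one, sig_smul_toInteger]
  rw [← h1, ← smul_mul', xiUnit_mul_lam, smul_sub, smul_one, smul_pow', sig_smul_toInteger,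
    ← pow_mul]
  congr 1
  rw [pow_eq_pow_mod _ hζ.toInteger_isPrimitiveRoot.pow_eq_one, Units.val_mul, ZMod.val_mul]

omit [NumberField K] [IsCyclotomicExtension {p} ℚ K] in
lemma exists_pow_eq_of_natCast_eq (u : (𝓞 K)ˣ) {a b : ℕ} (h : (a : ZMod p) = b) :
    ∃ w : (𝓞 K)ˣ, u ^ a = u ^ b * w ^ p := by
  obtain ⟨k, hk⟩ : (p : ℤ) ∣ (a : ℤ) - b := by
    rw [← ZMod.intCast_zmod_eq_zero_iff_dvd]; push_cast; rw [h, sub_self]
  refine ⟨u ^ k, ?_⟩
  rw [← zpow_natCast, ← zpow_natCast u b, ← zpow_natCast (u ^ k) p, ← zpow_mul, ← zpow_add]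
  congr 1
  linarith

/-- `u` lies in the `ω²`-eigenspace of units modulo `p`-th powers. -/
def IsEigenUnit (u : (𝓞 K)ˣ) : Prop :=
  ∀ c : (ZMod p)ˣ, ∃ w : (𝓞 K)ˣ, galUnit p K c u = u ^ ((c : ZMod p) ^ 2).val * w ^ p

lemma expo_eigen {u : (𝓞 K)ˣ} (hu : IsEigenUnit (p := p) u) (c : (ZMod p)ˣ) :
    ((galMatrix p K c).map (Int.castRingHom (ZMod p))).mulVec (expo u) =
      ((c : ZMod p) ^ 2) • expo u := by
  obtain ⟨w, hw⟩ := hu c
  rw [← expo_galUnit, hw, expo_mul, expo_pow, expo_pow, ZMod.natCast_zmod_val, ZMod.natCast_self,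
    zero_smul, add_zero]

lemma isEigenUnit_etaUnit (hp : 5 ≤ p) : IsEigenUnit (p := p) (etaUnit hζ) := by
  intro d
  obtain ⟨a, ha⟩ : ∃ a : (𝓞 K)ˣ, xiUnit hζ d ^ (∑ c : (ZMod p)ˣ, etaExp c) = a ^ p := by
    obtain ⟨w, hw⟩ := exists_pow_eq_of_natCast_eq (p := p) (xiUnit hζ d)
      (a := ∑ c : (ZMod p)ˣ, etaExp c) (b := 0) (by
        rw [Nat.cast_sum, Nat.cast_zero]
        simp only [etaExp, ZMod.natCast_zmod_val]
        exact sum_inv_pow_eq_zero fun hd => by have := Nat.le_of_dvd two_pos hd; omega)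
    exact ⟨w, by rw [hw, pow_zero, one_mul]⟩
  have hexp : ∀ c : (ZMod p)ˣ, ((etaExp c : ℕ) : ZMod p) =
      ((etaExp (d * c) * ((d : ZMod p) ^ 2).val : ℕ) : ZMod p) := fun c => by
    simp only [Nat.cast_mul, etaExp, ZMod.natCast_zmod_val, mul_inv_rev, Units.val_mul, mul_pow,
      mul_assoc]
    rw [← mul_pow ((d⁻¹ : (ZMod p)ˣ) : ZMod p), ← Units.val_mul, inv_mul_cancel, Units.val_one,
      one_pow, mul_one]
  choose b hb using fun c => exists_pow_eq_of_natCast_eq (p := p) (xiUnit hζ (d * c)) (hexp c)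
  refine ⟨(∏ c : (ZMod p)ˣ, b c) * a⁻¹, ?_⟩
  have key : galUnit p K d (etaUnit hζ) * a ^ p =
      etaUnit hζ ^ ((d : ZMod p) ^ 2).val * (∏ c : (ZMod p)ˣ, b c) ^ p := by
    calc galUnit p K d (etaUnit hζ) * a ^ p
        = ∏ c : (ZMod p)ˣ, xiUnit hζ (d * c) ^ etaExp c := by
          rw [← ha, etaUnit, map_prod, ← Finset.prod_pow_eq_pow_sum, ← Finset.prod_mul_distrib]
          simp only [map_pow, ← mul_pow, galUnit_xiUnit_mul]
      _ = (∏ c : (ZMod p)ˣ, xiUnit hζ (d * c) ^ (etaExp (d * c) * ((d : ZMod p) ^ 2).val)) *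
          (∏ c : (ZMod p)ˣ, b c) ^ p := by
          rw [← Finset.prod_pow, ← Finset.prod_mul_distrib]
          exact Finset.prod_congr rfl fun c _ => hb c
      _ = _ := by
          congr 1
          rw [etaUnit, ← Finset.prod_pow]
          simp only [← pow_mul]
          exact Fintype.prod_equiv (Equiv.mulLeft d) _ _ fun c => rfl
  rw [mul_pow, ← mul_assoc, ← key, inv_pow, mul_inv_cancel_right]

lemma exists_eq_zeta_mul_pow (hp2 : p ≠ 2) {t : (𝓞 K)ˣ} (ht : t ∈ torsion K) :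
    ∃ (i : ℕ) (w : (𝓞 K)ˣ), (t : 𝓞 K) = hζ.toInteger ^ i * (w : 𝓞 K) ^ p := by
  have hodd := (Fact.out : p.Prime).odd_of_ne_two hp2
  have hfin : IsOfFinOrder ((t : 𝓞 K) : K) := by
    obtain ⟨n, hn, h⟩ := isOfFinOrder_iff_pow_eq_one.mp ((CommGroup.mem_torsion t).mp ht)
    refine isOfFinOrder_iff_pow_eq_one.mpr ⟨n, hn, ?_⟩
    rw [← map_pow, ← Units.val_pow_eq_pow_val, h, Units.val_one, map_one]
  obtain ⟨r, -, hr⟩ := hζ.exists_pow_or_neg_mul_pow_of_isOfFinOrder hodd hfin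
  rcases hr with hr | hr
  · exact ⟨r, 1, RingOfIntegers.ext (by rw [hr]; simp)⟩
  · refine ⟨r, -1, RingOfIntegers.ext ?_⟩
    rw [hr, Units.val_neg, Units.val_one, hodd.neg_one_pow, mul_neg_one]
    simp

lemma exists_zeta_mul_pow_of_expo_eq_zero (hp2 : p ≠ 2) {u : (𝓞 K)ˣ}
    (h : (expo u : Fin (rank K) → ZMod p) = 0) :
    ∃ (i : ℕ) (w : (𝓞 K)ˣ), (u : 𝓞 K) = hζ.toInteger ^ i * (w : 𝓞 K) ^ p := by
  obtain ⟨t, ht⟩ := exists_eq_torsion_mul_prod u
  have hdvd : ∀ i, (p : ℤ) ∣ expoZ (Additive.ofMul u) i := fun i =>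
    (ZMod.intCast_zmod_eq_zero_iff_dvd _ _).mp (congrFun h i)
  choose k hk using hdvd
  obtain ⟨i, w, hw⟩ := exists_eq_zeta_mul_pow hζ hp2 t.2
  refine ⟨i, w * ∏ j, fundSystem K j ^ k j, ?_⟩
  have : ∏ j, fundSystem K j ^ expoZ (Additive.ofMul u) j = (∏ j, fundSystem K j ^ k j) ^ p := by
    rw [← Finset.prod_pow]
    refine Finset.prod_congr rfl fun j _ => ?_
    rw [← zpow_natCast, ← zpow_mul, hk, mul_comm]
  rw [ht, this, Units.val_mul, Units.val_pow_eq_pow_val, hw, Units.val_mul, mul_pow, mul_assoc]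

lemma hasLog_zeta : HasLog hζ hζ.toInteger (-1) (-1) := by
  refine ⟨1, -1, 0, by simp, by simp, by simp, ?_⟩
  rw [lam]
  push_cast
  simp

lemma hasLog_unit_pow (hp : 5 ≤ p) (w : (𝓞 K)ˣ) : HasLog hζ ((w : 𝓞 K) ^ p) 0 0 := by
  obtain ⟨n, hn⟩ := exists_int_sub_pow_dvd hζ (w : 𝓞 K)
  refine ⟨n, 0, 0, ?_, by simp, by simp, ?_⟩
  · intro h0
    have hd := (lam_dvd_intCast hζ).mpr ((ZMod.intCast_zmod_eq_zero_iff_dvd _ _).mp h0)
    have h1 : lam hζ ∣ (w : 𝓞 K) ^ p := by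
      have := dvd_add ((dvd_pow_self (lam hζ) (by omega : p - 1 ≠ 0)).trans hn) hd
      rwa [sub_add_cancel] at this
    exact (lam_prime hζ).not_isUnit (isUnit_of_dvd_unit h1 (w.isUnit.pow p))
  · refine (pow_dvd_pow _ (by omega : 3 ≤ p - 1)).trans ?_
    simpa using hn

/-- The independence statement modulo `λ³`. -/
lemma zeta_eta_local (hp : 5 ≤ p) (i j : ℕ) (w : (𝓞 K)ˣ) {z : 𝓞 K}
    (h : lam hζ ^ 3 ∣ hζ.toInteger ^ i * (etaUnit hζ : 𝓞 K) ^ j * (w : 𝓞 K) ^ p - z ^ p) :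
    (p : ℕ) ∣ i ∧ (p : ℕ) ∣ j := by
  have hlog := (((hasLog_zeta hζ).pow hζ i).mul hζ ((hasLog_etaUnit hζ hp).pow hζ j)).mul hζ
    (hasLog_unit_pow hζ hp w)
  obtain ⟨n, hn⟩ := exists_int_sub_pow_dvd hζ z
  have hr := dvd_add h ((pow_dvd_pow _ (by omega : 3 ≤ p - 1)).trans hn)
  rw [sub_add_sub_cancel] at hr
  obtain ⟨hA, hL⟩ := hlog.eq_zero hζ hp hr
  have hi : (i : ZMod p) = 0 := by linear_combination -hA
  refine ⟨(ZMod.natCast_eq_zero_iff _ _).mp hi, (ZMod.natCast_eq_zero_iff _ _).mp ?_⟩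
  have h12 : (12 : ZMod p) ≠ 0 := by
    intro h0
    have h' : ((12 : ℕ) : ZMod p) = 0 := by exact_mod_cast h0
    have := (ZMod.natCast_eq_zero_iff 12 p).mp h'
    have hple := Nat.le_of_dvd (by norm_num) this
    have hpp := (Fact.out : p.Prime)
    interval_cases p <;> first | omega | (norm_num at hpp)
  rw [hi] at hL
  field_simp at hL
  linear_combination -hL

/-- `η` is not a `p`-th power. -/
lemma etaUnit_not_pow (hp : 5 ≤ p) (z : 𝓞 K) : (etaUnit hζ : 𝓞 K) ≠ z ^ p := by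
  intro h
  have := (zeta_eta_local hζ hp 0 1 1 (z := z) (by simp [h])).2
  have := Nat.le_of_dvd one_pos this
  omega

/-- `ζ ^ i` times a unit `p`-th power is a local `p`-th power modulo `λ²` only if `p ∣ i`. -/
lemma zeta_local (hp : 3 ≤ p) (i : ℕ) (w : (𝓞 K)ˣ) {z : 𝓞 K}
    (h : lam hζ ^ 2 ∣ hζ.toInteger ^ i * (w : 𝓞 K) ^ p - z ^ p) : p ∣ i := by
  obtain ⟨m, hm⟩ := exists_int_sub_pow_dvd hζ (w : 𝓞 K)
  obtain ⟨n, hn⟩ := exists_int_sub_pow_dvd hζ z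
  have h2 : 2 ≤ p - 1 := by omega
  replace hm := (pow_dvd_pow (lam hζ) h2).trans hm
  replace hn := (pow_dvd_pow (lam hζ) h2).trans hn
  have hi : lam hζ ^ 2 ∣ hζ.toInteger ^ i - (1 - (i : 𝓞 K) * lam hζ) := by
    clear h
    induction i with
    | zero => simp
    | succ i ih =>
      obtain ⟨u, hu⟩ := ih
      rw [sub_eq_iff_eq_add] at hu
      refine ⟨u * (1 - lam hζ) + i, ?_⟩
      rw [pow_succ, hu, show hζ.toInteger = 1 - lam hζ by rw [lam]; ring]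
      push_cast
      ring
  set l := lam hζ
  have hd : l ^ 2 ∣ ((m - n : ℤ) : 𝓞 K) - (i : 𝓞 K) * m * l := by
    have e : ((m - n : ℤ) : 𝓞 K) - (i : 𝓞 K) * m * l =
        (hζ.toInteger ^ i * (w : 𝓞 K) ^ p - z ^ p) -
          (hζ.toInteger ^ i - (1 - (i : 𝓞 K) * l)) * (w : 𝓞 K) ^ p -
          (1 - (i : 𝓞 K) * l) * ((w : 𝓞 K) ^ p - m) + (z ^ p - n) := by push_cast; ring
    rw [e]
    exact dvd_add (dvd_sub (dvd_sub h (dvd_mul_of_dvd_left hi _)) (dvd_mul_of_dvd_right hm _)) hn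
  have h1 : l ∣ ((m - n : ℤ) : 𝓞 K) := by
    have := (dvd_pow_self l two_ne_zero).trans hd
    rwa [dvd_sub_left (dvd_mul_left _ _)] at this
  rw [dvd_sub_right (pow_lam_dvd_intCast hζ 2 h2 ((lam_dvd_intCast hζ).mp h1)), pow_two,
    mul_dvd_mul_iff_right (lam_ne_zero hζ), show (i : 𝓞 K) * m = ((i * m : ℤ) : 𝓞 K) by push_cast; ring,
    lam_dvd_intCast] at hd
  rcases (Nat.prime_iff_prime_int.mp (Fact.out : p.Prime)).dvd_or_dvd hd with hd | hd
  · exact_mod_cast hd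
  · exfalso
    have h3 := dvd_add ((dvd_pow_self l two_ne_zero).trans hm) ((lam_dvd_intCast hζ).mpr hd)
    rw [sub_add_cancel] at h3
    exact (lam_prime hζ).not_isUnit (isUnit_of_dvd_unit h3 (w.isUnit.pow p))

/-- An `ω²`-eigen unit congruent to a `p`-th power modulo `λ³` is a `p`-th power. -/
theorem exists_pow_eq_of_eigen_local (hp2 : p ≠ 2) {u : (𝓞 K)ˣ} (hu : IsEigenUnit (p := p) u)
    {z : 𝓞 K} (hz : lam hζ ^ 3 ∣ (u : 𝓞 K) - z ^ p) : ∃ w : 𝓞 K, (u : 𝓞 K) = w ^ p := by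
  have hone : hζ.toInteger ^ p = 1 := hζ.toInteger_isPrimitiveRoot.pow_eq_one
  have hp3 : 3 ≤ p := by
    have := (Fact.out : p.Prime).two_le
    omega
  by_cases hp : 5 ≤ p
  · set e := (expo (etaUnit hζ) : Fin (rank K) → ZMod p) with hedef
    have he : e ≠ 0 := by
      intro h0
      obtain ⟨i, w, hw⟩ := exists_zeta_mul_pow_of_expo_eq_zero hζ hp2 h0
      obtain ⟨-, hd⟩ := zeta_eta_local hζ hp i (p - 1) w (z := (etaUnit hζ : 𝓞 K)) (by
        have : (etaUnit hζ : 𝓞 K) ^ p = (etaUnit hζ : 𝓞 K) ^ (p - 1) * etaUnit hζ :=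
          (pow_sub_one_mul (by omega) _).symm
        rw [this]
        nth_rewrite 3 [hw]
        rw [show hζ.toInteger ^ i * (etaUnit hζ : 𝓞 K) ^ (p - 1) * (w : 𝓞 K) ^ p =
          (etaUnit hζ : 𝓞 K) ^ (p - 1) * (hζ.toInteger ^ i * (w : 𝓞 K) ^ p) by ring, sub_self]
        exact dvd_zero _)
      have := Nat.le_of_dvd (by omega) hd
      omega
    obtain ⟨j, hj⟩ := eigen_expo_proportional hp hζ (expo_eigen (isEigenUnit_etaUnit hζ hp))
      (expo_eigen hu) he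
    have h0 : (expo (u * etaUnit hζ ^ (p - j.val)) : Fin (rank K) → ZMod p) = 0 := by
      rw [expo_mul, expo_pow, hj, ← add_smul, Nat.cast_sub (ZMod.val_lt j).le, ZMod.natCast_self,
        ZMod.natCast_zmod_val, zero_sub, add_neg_cancel, zero_smul]
    obtain ⟨i, w, hw⟩ := exists_zeta_mul_pow_of_expo_eq_zero hζ hp2 h0
    rw [Units.val_mul, Units.val_pow_eq_pow_val] at hw
    set η := (etaUnit hζ : 𝓞 K)
    have e : hζ.toInteger ^ i * η ^ j.val * (w : 𝓞 K) ^ p = (u : 𝓞 K) * η ^ p := by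
      have hs : η ^ p = η ^ (p - j.val) * η ^ j.val := by
        rw [← pow_add, Nat.sub_add_cancel (ZMod.val_lt j).le]
      rw [hs, ← mul_assoc, hw]
      ring
    obtain ⟨⟨k, rfl⟩, hd⟩ := zeta_eta_local hζ hp i j.val w (z := z * η) (by
      rw [e, mul_pow, ← sub_mul]
      exact dvd_mul_of_dvd_left hz _)
    have hj0 : j.val = 0 := Nat.eq_zero_of_dvd_of_lt hd (ZMod.val_lt j)
    rw [pow_mul, hone, one_pow, one_mul, hj0, pow_zero, one_mul] at e
    refine ⟨(w : 𝓞 K) * ((etaUnit hζ)⁻¹ : (𝓞 K)ˣ), ?_⟩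
    rw [mul_pow, e, mul_assoc, ← mul_pow, Units.mul_inv, one_pow, mul_one]
  · have hr := two_mul_rank_add_two (p := p) (K := K) (by omega)
    have h0 : (expo u : Fin (rank K) → ZMod p) = 0 := by
      funext i
      have := i.2
      have : p ≠ 4 := fun h => by have := (Fact.out : p.Prime); rw [h] at this; norm_num at this
      omega
    obtain ⟨i, w, hw⟩ := exists_zeta_mul_pow_of_expo_eq_zero hζ hp2 h0
    obtain ⟨k, rfl⟩ := zeta_local hζ hp3 i w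
      (hw ▸ (pow_dvd_pow _ (by omega : 2 ≤ 3)).trans hz)
    exact ⟨w, by rw [hw, pow_mul, hone, one_pow, one_mul]⟩

end FermatLib.CFT.ExtVanish
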