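import Fermat.Agent.CFT.S14.IdealExp
import Fermat.Agent.CFT.S14.UnitLocal
import Mathlib.NumberTheory.NumberField.Cyclotomic.Ideal
import Mathlib.NumberTheory.RamificationInertia.Galois
import Mathlib.RingTheory.Ideal.Norm.RelNorm

/-!
# Ramification in `K(ζ_ℓ) / K`

A prime `v` of `K` of norm `ℓ` with `ℓ ∉ v²` is totally ramified in `F = K(ζ_ℓ)`, which therefore
has degree `ℓ - 1`; primes not over `ℓ` are unramified.
-/

set_option autoImplicit false

namespace FermatLib.CFT.ExtVanish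

open NumberField IsDedekindDomain Ideal Polynomial
open scoped Classical Pointwise

variable {K F : Type*} [Field K] [NumberField K] [Field F] [NumberField F] [Algebra K F]
  {ℓ : ℕ} [hl : Fact ℓ.Prime] [IsCyclotomicExtension {ℓ} K F] {z : F} (hz : IsPrimitiveRoot z ℓ)

/-- `π = 1 - ζ_ℓ`. -/
noncomputable def piEll : 𝓞 F := 1 - hz.toInteger

omit [IsCyclotomicExtension {ℓ} K F] in
lemma associated_piEll_pow : Associated (piEll hz ^ (ℓ - 1)) (ℓ : 𝓞 F) := by
  refine Associated.trans ?_ (IsCyclotomicExtension.Rat.associated_zeta_sub_one_pow_prime ℓ hz)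
  rw [piEll, ← neg_sub, neg_pow]
  exact associated_unit_mul_left _ _ (IsUnit.pow _ isUnit_one.neg)

include hz in
lemma finrank_le_ell : Module.finrank K F ≤ ℓ - 1 := by
  rw [(hz.powerBasis K).finrank, IsPrimitiveRoot.powerBasis_dim,
    ← Nat.totient_prime hl.out, ← natDegree_cyclotomic ℓ K]
  refine natDegree_le_of_dvd (minpoly.dvd _ _ ?_) (cyclotomic_ne_zero ℓ K)
  rw [aeval_def, eval₂_eq_eval_map, map_cyclotomic]
  exact hz.isRoot_cyclotomic hl.out.pos

/-- The data at a totally ramified prime. -/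
structure TotallyRamifiedAt (v : HeightOneSpectrum (𝓞 K)) (Q : HeightOneSpectrum (𝓞 F)) : Prop where
  finrank_eq : Module.finrank K F = ℓ - 1
  map_eq : v.asIdeal.map (algebraMap (𝓞 K) (𝓞 F)) = Q.asIdeal ^ (ℓ - 1)
  eq_sup : Q.asIdeal = v.asIdeal.map (algebraMap (𝓞 K) (𝓞 F)) ⊔ span {piEll hz}
  norm_eq : absNorm Q.asIdeal = ℓ

theorem exists_totallyRamified (v : HeightOneSpectrum (𝓞 K)) (hv : absNorm v.asIdeal = ℓ)
    (hv2 : (ℓ : 𝓞 K) ∉ v.asIdeal ^ 2) : ∃ Q, TotallyRamifiedAt hz v Q := by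
  set V := v.asIdeal.map (algebraMap (𝓞 K) (𝓞 F)) with hV
  set Q := V ⊔ span {piEll hz} with hQ
  have hl2 := hl.out.two_le
  have hlv : (ℓ : 𝓞 K) ∈ v.asIdeal := by rw [← hv]; exact absNorm_mem _
  have hlV : (ℓ : 𝓞 F) ∈ V := by
    rw [← map_natCast (algebraMap (𝓞 K) (𝓞 F))]
    exact mem_map_of_mem _ hlv
  have hpiV : piEll hz ^ (ℓ - 1) ∈ V := by
    obtain ⟨u, hu⟩ := (associated_piEll_pow hz).symm
    rw [← hu]
    exact V.mul_mem_right _ hlV
  -- `v = (ℓ) + v ^ 2`
  have hvsq : v.asIdeal ≤ span {(ℓ : 𝓞 K)} ⊔ v.asIdeal ^ 2 := by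
    intro x hx
    obtain ⟨d, e, he, hde⟩ := exists_mul_add_mem_pow_succ (P := v.asIdeal) v.ne_bot (i := 1)
      (ℓ : 𝓞 K) x (by simpa using hlv) hv2 (by simpa using hx)
    rw [← hde]
    exact Submodule.add_mem_sup (mem_span_singleton.mpr (dvd_mul_right _ _)) he
  have hlQ : span {(ℓ : 𝓞 F)} ≤ Q ^ (ℓ - 1) := by
    rw [span_singleton_le_iff_mem]
    obtain ⟨u, hu⟩ := associated_piEll_pow hz
    rw [← hu]
    exact (Q ^ (ℓ - 1)).mul_mem_right _
      (pow_mem_pow (mem_sup_right (mem_span_singleton_self _)) _)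
  have hVsq : V ≤ Q ^ (ℓ - 1) ⊔ V ^ 2 := by
    have h := map_mono (f := algebraMap (𝓞 K) (𝓞 F)) hvsq
    rw [Ideal.map_sup, Ideal.map_pow, map_span, Set.image_singleton, map_natCast] at h
    exact h.trans (sup_le_sup_right hlQ _)
  have hiter : ∀ n : ℕ, V ≤ Q ^ (ℓ - 1) ⊔ V ^ (n + 1) := by
    intro n
    induction n with
    | zero => rw [zero_add, pow_one]; exact le_sup_right
    | succ n ih =>
      refine ih.trans (sup_le le_sup_left ?_)
      rw [pow_succ' V n]
      refine (mul_mono hVsq le_rfl).trans ?_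
      rw [Ideal.sup_mul, ← pow_add V, add_comm 2 n]
      exact sup_le_sup mul_le_left le_rfl
  have hle : V ≤ Q ^ (ℓ - 1) := by
    obtain ⟨n, hn⟩ : ∃ n, ℓ - 1 = n + 1 := ⟨ℓ - 2, by omega⟩
    refine (hiter n).trans (sup_le le_rfl ?_)
    rw [← hn]
    exact pow_right_mono le_sup_left _
  have hge : Q ^ (ℓ - 1) ≤ V := by
    have key : ∀ n : ℕ, Q ^ n ≤ V ⊔ span {piEll hz ^ n} := by
      intro n
      induction n with
      | zero => rw [pow_zero, pow_zero, span_singleton_one]; exact le_trans le_top le_sup_right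
      | succ n ih =>
        rw [pow_succ]
        refine (mul_mono ih le_rfl).trans ?_
        rw [hQ, Ideal.sup_mul, Ideal.mul_sup (span {piEll hz ^ n})]
        refine sup_le (mul_le_left.trans le_sup_left) (sup_le (mul_le_right.trans le_sup_left) ?_)
        rw [span_singleton_mul_span_singleton, ← pow_succ]
        exact le_sup_right
    exact (key _).trans (sup_le le_rfl ((span_singleton_le_iff_mem _).mpr hpiV))
  have hnorm : absNorm V = ℓ ^ Module.finrank K F := by
    rw [hV, absNorm_algebraMap, hv, IsFractionRing.finrank_eq (𝓞 K) K (𝓞 F) F]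
  have heq : V = Q ^ (ℓ - 1) := le_antisymm hle hge
  have hN : absNorm Q ^ (ℓ - 1) = ℓ ^ Module.finrank K F := by
    rw [← map_pow, ← heq, hnorm]
  obtain ⟨i, hi, hQi⟩ : ∃ i ≤ Module.finrank K F, absNorm Q = ℓ ^ i :=
    (Nat.dvd_prime_pow hl.out).mp (hN ▸ dvd_pow_self _ (by omega))
  rw [hQi, ← pow_mul] at hN
  have hmul := Nat.pow_right_injective hl2 hN
  have hd := finrank_le_ell (K := K) hz
  have hd0 : 0 < Module.finrank K F := Module.finrank_pos
  have hi1 : i = 1 := by
    rcases Nat.lt_trichotomy i 1 with h | h | h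
    · interval_cases i; simp at hmul; omega
    · exact h
    · have : 2 * (ℓ - 1) ≤ i * (ℓ - 1) := Nat.mul_le_mul_right _ h
      omega
  subst hi1
  rw [pow_one] at hQi
  have hprime : Q.IsPrime := isPrime_of_irreducible_absNorm (hQi ▸ hl.out)
  have hbot : Q ≠ ⊥ := fun h => hl.out.ne_zero (by rw [← hQi, h, absNorm_bot])
  exact ⟨⟨Q, hprime, hbot⟩, ⟨by omega, heq, rfl, hQi⟩⟩

include hz in
lemma isGalois_aux : IsGalois K F := IsCyclotomicExtension.isGalois {ℓ} K F

include hz in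
/-- Primes not over `ℓ` are unramified in `K(ζ_ℓ)`. -/
theorem expn_map_eq_one (v : HeightOneSpectrum (𝓞 K)) (hv : (ℓ : 𝓞 K) ∉ v.asIdeal)
    (Q : HeightOneSpectrum (𝓞 F)) (hQ : Q.asIdeal.under (𝓞 K) = v.asIdeal) :
    expn Q (v.asIdeal.map (algebraMap (𝓞 K) (𝓞 F))) = 1 := by
  have : IsGalois K F := isGalois_aux hz
  have : Q.asIdeal.LiesOver v.asIdeal := ⟨hQ.symm⟩
  have : v.asIdeal.IsMaximal := v.isMaximal
  have : Finite (𝓞 K ⧸ v.asIdeal) := Ring.HasFiniteQuotients.finiteQuotient v.ne_bot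
  have : Finite v.asIdeal.ResidueField :=
    Finite.of_surjective _ (bijective_algebraMap_quotient_residueField v.asIdeal).2
  have hlQ : (ℓ : 𝓞 F) ∉ Q.asIdeal := fun h => hv <| by
    rw [← hQ, under, mem_comap, map_natCast]; exact h
  have hbot : inertia Gal(F/K) Q.asIdeal = ⊥ := by
    refine (Subgroup.eq_bot_iff_forall _).mpr fun σ hσ => ?_
    have hz' := hz.pow_eq_one
    obtain ⟨r, hr, hσz⟩ := hz.eq_pow_of_pow_eq_one
      (show (σ z) ^ ℓ = 1 by rw [← map_pow, hz', map_one])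
    suffices r = 1 by
      refine AlgEquiv.coe_toAlgHom_injective ((hz.powerBasis K).algHom_ext ?_)
      show σ (hz.powerBasis K).gen = (1 : Gal(F/K)) (hz.powerBasis K).gen
      rw [IsPrimitiveRoot.powerBasis_gen, ← hσz, this, pow_one, AlgEquiv.one_apply]
    by_contra hr1
    have hne : hz.toInteger ^ r ≠ hz.toInteger := fun h => hr1
      (hz.toInteger_isPrimitiveRoot.pow_inj hr hl.out.one_lt (by rw [h, pow_one]))
    have hmem : hz.toInteger ^ r - hz.toInteger ∈ Q.asIdeal := by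
      have h1 := hσ hz.toInteger
      rwa [show σ • hz.toInteger = hz.toInteger ^ r from RingOfIntegers.ext hσz.symm] at h1
    apply hlQ
    -- `z ^ r - z` divides a power of `1 - z`, which divides `ℓ`
    rcases eq_or_ne r 0 with rfl | hr0
    · rw [pow_zero] at hmem
      obtain ⟨u, hu⟩ := associated_piEll_pow hz
      rw [← hu]
      exact Q.asIdeal.mul_mem_right _
        (Ideal.pow_mem_of_mem _ hmem _ (by have := hl.out.two_le; omega))
    · have hcop : Nat.Coprime (r - 1) ℓ := (hl.out.coprime_iff_not_dvd.mpr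
        (Nat.not_dvd_of_pos_of_lt (by omega) (by omega))).symm
      have hassoc := hz.toInteger_isPrimitiveRoot.associated_sub_one_pow_sub_one_of_coprime hcop
      have hmem' : hz.toInteger ^ (r - 1) - 1 ∈ Q.asIdeal := by
        refine (Q.isPrime.mem_or_mem (x := hz.toInteger) ?_).resolve_left fun h => ?_
        · rwa [mul_sub, mul_one, ← pow_succ', Nat.sub_add_cancel (by omega)]
        · exact Q.isPrime.ne_top (Ideal.eq_top_of_isUnit_mem _ h
            (hz.toInteger_isPrimitiveRoot.isUnit hl.out.ne_zero))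
      obtain ⟨u, hu⟩ := hassoc.symm
      have hpi : piEll hz ∈ Q.asIdeal := by
        rw [piEll, ← neg_sub, Ideal.neg_mem_iff, ← hu]
        exact Q.asIdeal.mul_mem_right _ hmem'
      obtain ⟨u', hu'⟩ := associated_piEll_pow hz
      rw [← hu']
      exact Q.asIdeal.mul_mem_right _
        (Ideal.pow_mem_of_mem _ hpi _ (by have := hl.out.two_le; omega))
  have he : ramificationIdx Q.asIdeal (𝓞 K) = 1 := by
    rw [← ramificationIdxIn_eq_ramificationIdx v.asIdeal Q.asIdeal Gal(F/K),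
      ← card_inertia_eq_ramificationIdxIn (G := Gal(F/K)) v.asIdeal Q.asIdeal, hbot,
      Subgroup.card_bot]
  have hne : v.asIdeal.map (algebraMap (𝓞 K) (𝓞 F)) ≠ ⊥ := map_ne_bot_of_ne_bot v.ne_bot
  rwa [IsDedekindDomain.ramificationIdx_eq_normalizedFactors_count v.asIdeal Q.asIdeal hne]
    at he

end FermatLib.CFT.ExtVanish
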