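import Fermat.Agent.CFT.S14.EulerProduct

/-!
# A density clash

For a class group character `χ` of order `p ≥ 3` and a degree `p` extension, the degree-one
primes with `χ = 1` and those splitting completely cannot cover almost all degree-one primes:
each set has upper density at most `1 / p`.
-/

set_option autoImplicit false

namespace FermatLib.CFT.PartialZeta

open NumberField IsDedekindDomain Filter Topology Finset
open scoped nonZeroDivisors Classical

variable {K : Type*} [Field K] [NumberField K]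

/-- The primes of norm not a prime number carry a bounded sum, down to `s = 1`. -/
lemma exists_bad_bound : ∃ B : ℝ, ∀ s : ℝ, 1 ≤ s → ∀ T : Finset (HeightOneSpectrum (𝓞 K)),
    (∀ v ∈ T, ¬ (Ideal.absNorm v.asIdeal).Prime) → ∑ v ∈ T, idealTerm s (primeOf v) ≤ B := by
  have hsum : Summable fun n : ℕ => ((n : ℝ) ^ 2)⁻¹ :=
    Real.summable_nat_pow_inv.mpr one_lt_two
  refine ⟨(Module.finrank ℚ K : ℝ) * ∑' n : ℕ, ((n : ℝ) ^ 2)⁻¹, fun s hs T hT => ?_⟩
  set q : HeightOneSpectrum (𝓞 K) → ℕ := fun v => (Ideal.absNorm v.asIdeal).minFac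
  have hq : ∀ v ∈ T, idealTerm s (primeOf v) ≤ ((q v : ℝ) ^ 2)⁻¹ := by
    intro v hv
    set N := Ideal.absNorm v.asIdeal with hN
    have hN2 : 2 ≤ N := two_le_absNorm v
    have hsq : q v ^ 2 ≤ N := Nat.minFac_sq_le_self (by omega) (hT v hv)
    have hq0 : 0 < q v := Nat.minFac_pos _
    rw [idealTerm_primeOf, Real.rpow_neg (Nat.cast_nonneg _)]
    refine inv_anti₀ (by positivity) ?_
    calc ((q v : ℝ) ^ 2) ≤ (N : ℝ) := mod_cast hsq
      _ ≤ (N : ℝ) ^ s := Real.self_le_rpow_of_one_le (by exact_mod_cast (by omega : 1 ≤ N)) hs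
  have hcard : ∀ n, (T.filter fun v => q v = n).card ≤ Module.finrank ℚ K := by
    intro n
    set F := T.filter fun v => q v = n
    rcases F.eq_empty_or_nonempty with h | ⟨v₀, hv₀⟩
    · simp [h]
    have hn : n.Prime := by
      rw [← (Finset.mem_filter.mp hv₀).2]
      exact Nat.minFac_prime (by have := two_le_absNorm v₀; omega)
    have hmem : ∀ v ∈ F, v.asIdeal ∣ Ideal.span {(n : 𝓞 K)} := by
      intro v hv
      obtain ⟨P, hP, hPmem⟩ : ∃ P : ℕ, P.Prime ∧ (P : 𝓞 K) ∈ v.asIdeal ∧ P = n := by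
        haveI := v.isPrime
        have hu : Ideal.under ℤ v.asIdeal ≠ ⊥ := Ideal.IsIntegral.comap_ne_bot _ v.ne_bot
        obtain ⟨P, hP⟩ := (IsPrincipalIdealRing.principal (Ideal.under ℤ v.asIdeal)).principal
        have hP0 : P ≠ 0 := fun h => hu (by rw [hP, h]; simp)
        have hPp : Prime P := (Ideal.span_singleton_prime hP0).mp (by
          rw [Ideal.span, ← hP]; exact Ideal.IsPrime.under ℤ v.asIdeal)
        have hmem : (P.natAbs : 𝓞 K) ∈ v.asIdeal := by
          have h1 : P ∈ Ideal.under ℤ v.asIdeal := by rw [hP]; exact Ideal.mem_span_singleton_self P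
          have h2 : (P : 𝓞 K) ∈ v.asIdeal := by simpa using Ideal.mem_comap.mp h1
          rcases Int.natAbs_eq P with h | h
          · rw [h] at h2; simpa using h2
          · rw [h] at h2; simpa using h2
        refine ⟨P.natAbs, Int.prime_iff_natAbs_prime.mp hPp, hmem, ?_⟩
        have hdvd : Ideal.absNorm v.asIdeal ∣ Ideal.absNorm (Ideal.span {(P.natAbs : 𝓞 K)}) :=
          Ideal.absNorm_dvd_absNorm_of_le ((Ideal.span_singleton_le_iff_mem _).mpr hmem)
        rw [show (P.natAbs : 𝓞 K) = algebraMap ℤ (𝓞 K) (P.natAbs : ℤ) by simp,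
          Ideal.absNorm_span_singleton, Algebra.norm_algebraMap, Int.natAbs_pow,
          Int.natAbs_natCast] at hdvd
        rw [← (Finset.mem_filter.mp hv).2]
        exact ((Nat.prime_dvd_prime_iff_eq (Nat.minFac_prime (by have := two_le_absNorm v; omega))
          (Int.prime_iff_natAbs_prime.mp hPp)).mp ((Nat.minFac_prime
            (by have := two_le_absNorm v; omega)).dvd_of_dvd_pow
            ((Nat.minFac_dvd _).trans hdvd))).symm
      obtain ⟨hPm, rfl⟩ := hPmem
      exact Ideal.dvd_span_singleton.mpr hPm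
    have hprod : ∏ v ∈ F, v.asIdeal ∣ Ideal.span {(n : 𝓞 K)} := by
      have h := Finset.prod_primes_dvd (s := F.image fun v => v.asIdeal) (Ideal.span {(n : 𝓞 K)})
        (fun a ha => by
          obtain ⟨v, -, rfl⟩ := Finset.mem_image.mp ha
          exact v.prime)
        (fun a ha => by
          obtain ⟨v, hv, rfl⟩ := Finset.mem_image.mp ha
          exact hmem v hv)
      rwa [Finset.prod_image fun a _ b _ h => HeightOneSpectrum.ext h] at h
    have h2 : n ^ F.card ∣ n ^ Module.finrank ℚ K := by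
      have h3 := map_dvd Ideal.absNorm hprod
      rw [show (n : 𝓞 K) = algebraMap ℤ (𝓞 K) (n : ℤ) by simp, Ideal.absNorm_span_singleton,
        Algebra.norm_algebraMap, Int.natAbs_pow, Int.natAbs_natCast, RingOfIntegers.rank,
        map_prod] at h3
      refine dvd_trans ?_ h3
      rw [← Finset.prod_const]
      refine Finset.prod_dvd_prod_of_dvd _ _ fun v hv => ?_
      rw [← (Finset.mem_filter.mp hv).2]
      exact Nat.minFac_dvd _
    exact (Nat.pow_dvd_pow_iff_le_right hn.one_lt).mp h2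
  refine (Finset.sum_le_sum hq).trans ?_
  rw [Finset.sum_comp (fun n : ℕ => ((n : ℝ) ^ 2)⁻¹) q]
  refine (Finset.sum_le_sum fun n _ => ?_).trans (le_of_eq_of_le (Finset.mul_sum _ _ _).symm
    (mul_le_mul_of_nonneg_left (hsum.sum_le_tsum _ fun n _ => by positivity) (Nat.cast_nonneg _)))
  rw [nsmul_eq_mul]
  exact mul_le_mul_of_nonneg_right (mod_cast hcard n) (by positivity)

omit [NumberField K] in
lemma primeOf_injective : Function.Injective (primeOf (K := K)) := fun _ _ h =>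
  HeightOneSpectrum.ext (congrArg Subtype.val h)

/-- There are degree-independent lower bounds `log (1/(s-1)) - O(1)` on `∑ N v ^ (-s)`. -/
lemma exists_prime_sum_lower : ∃ (B δ : ℝ), 0 < δ ∧ ∀ s : ℝ, 1 < s → s ≤ 1 + δ →
    ∃ S : Finset (HeightOneSpectrum (𝓞 K)),
      Real.log (1 / (s - 1)) - B ≤ ∑ v ∈ S, idealTerm s (primeOf v) := by
  obtain ⟨c, B, hc, -, hlow, -⟩ := exists_zeta_bounds (K := K)
  set Q := ∑' a : (Ideal (𝓞 K))⁰, idealTerm 2 a
  refine ⟨2 * Q - Real.log (c / 4), min 1 (c / (2 * (|B| + 1))), by positivity, fun s hs hs' => ?_⟩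
  have hs2 : s ≤ 2 := by linarith [min_le_left (1 : ℝ) (c / (2 * (|B| + 1)))]
  have hsδ : s - 1 ≤ c / (2 * (|B| + 1)) := by
    linarith [min_le_right (1 : ℝ) (c / (2 * (|B| + 1)))]
  have hs0 : 0 < s - 1 := by linarith
  have h1 : |B| + 1 ≤ c / 2 / (s - 1) := by
    rw [le_div_iff₀ hs0]
    rw [le_div_iff₀ (by positivity)] at hsδ
    nlinarith
  have hy : c / 4 / (s - 1) < ∑' a : (Ideal (𝓞 K))⁰, idealTerm s a := by
    refine lt_of_lt_of_le ?_ (hlow s hs hs2)
    have h2 : c / (s - 1) = c / 2 / (s - 1) + c / 4 / (s - 1) + c / 4 / (s - 1) := by ring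
    have : 0 < c / 4 / (s - 1) := by positivity
    linarith [le_abs_self B]
  obtain ⟨S, hS⟩ := exists_finset_log_le hs hs2 (by positivity) hy
  refine ⟨S, ?_⟩
  have hsq : ∑ v ∈ S, idealTerm s (primeOf v) ^ 2 ≤ Q := by
    refine le_trans (Finset.sum_le_sum fun v _ => ?_)
      ((Finset.sum_image (f := idealTerm 2) primeOf_injective.injOn).symm.le.trans
        ((summable_idealTerm one_lt_two le_rfl).sum_le_tsum (S.image primeOf)
          fun a _ => idealTerm_nonneg 2 a))
    rw [idealTerm_primeOf, idealTerm_primeOf, ← Real.rpow_mul_natCast (Nat.cast_nonneg _)]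
    refine Real.rpow_le_rpow_of_exponent_le (mod_cast (two_le_absNorm v).trans' one_le_two) ?_
    push_cast
    linarith
  have hlog : Real.log (c / 4 / (s - 1)) = Real.log (c / 4) + Real.log (1 / (s - 1)) := by
    rw [← Real.log_mul (by positivity) (by positivity), mul_one_div]
  rw [hlog] at hS
  linarith

/-- The upper bound `ζ_K(s) = O(1/(s-1))` in logarithmic form. -/
lemma exists_prime_sum_upper : ∃ B : ℝ, ∀ s : ℝ, 1 < s → s ≤ 2 →
    ∀ S : Finset (HeightOneSpectrum (𝓞 K)),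
      ∑ v ∈ S, idealTerm s (primeOf v) ≤ Real.log (1 / (s - 1)) + B := by
  obtain ⟨c, B, -, -, -, hup⟩ := exists_zeta_bounds (K := K)
  refine ⟨Real.log B, fun s hs hs2 S => ?_⟩
  have hs0 : 0 < s - 1 := by linarith
  have h := (exp_sum_le_zeta hs hs2 S).trans (hup s hs hs2)
  have hB : 0 < B := (div_pos_iff_of_pos_right hs0).mp ((Real.exp_pos _).trans_le h)
  rw [← Real.log_exp (∑ v ∈ S, idealTerm s (primeOf v))]
  refine (Real.log_le_log (Real.exp_pos _) h).trans (le_of_eq ?_)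
  rw [← Real.log_mul (by positivity) hB.ne', one_div, inv_mul_eq_div]

/-- The `L`-values of a nontrivial class group character are bounded. -/
lemma exists_Lvalue_bound : ∃ B : ℝ, 0 < B ∧ ∀ χ : ClassGroup (𝓞 K) →* ℂ, (∀ C, ‖χ C‖ = 1) →
    (∃ C, χ C ≠ 1) → ∀ s : ℝ, 1 < s → s ≤ 2 →
      ‖∑' a, charTerm (χ.comp (ClassGroup.mk0 (R := 𝓞 K))) s a‖ ≤ B := by
  obtain ⟨c, B, -, hdiff, -, -⟩ := exists_zeta_bounds (K := K)
  refine ⟨(Fintype.card (ClassGroup (𝓞 K)) : ℝ) * |B| + 1, by positivity,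
    fun χ hχ ⟨C₀, hC₀⟩ s hs hs2 => ?_⟩
  have hbd : ∀ a, ‖χ.comp (ClassGroup.mk0 (R := 𝓞 K)) a‖ ≤ 1 := fun a => (hχ _).le
  have hsum0 : ∑ C, χ C = 0 := by
    have h : χ C₀ * ∑ C, χ C = ∑ C, χ C := by
      rw [Finset.mul_sum]
      simp only [← map_mul]
      exact Equiv.sum_comp (Equiv.mulLeft C₀) χ
    by_contra h0
    exact hC₀ (mul_eq_right₀ h0 |>.mp h)
  have hfib : ∑' a, charTerm (χ.comp (ClassGroup.mk0 (R := 𝓞 K))) s a =
      ∑ C : ClassGroup (𝓞 K), χ C * ((classZeta C s : ℝ) : ℂ) := by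
    set e := Equiv.sigmaFiberEquiv (ClassGroup.mk0 (R := 𝓞 K))
    rw [← e.tsum_eq]
    refine (e.summable_iff.mpr (summable_charTerm hbd hs hs2)).tsum_sigma.trans ?_
    rw [tsum_fintype]
    refine Finset.sum_congr rfl fun C _ => ?_
    rw [classZeta, Complex.ofReal_tsum, ← tsum_mul_left]
    refine tsum_congr fun a => ?_
    simp [e, charTerm, Equiv.sigmaFiberEquiv, a.2]
  rw [hfib, show ∑ C : ClassGroup (𝓞 K), χ C * ((classZeta C s : ℝ) : ℂ) =
      ∑ C, χ C * ((classZeta C s - classZeta (1 : ClassGroup (𝓞 K)) s : ℝ) : ℂ) by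
    simp only [Complex.ofReal_sub, mul_sub, Finset.sum_sub_distrib]
    rw [← Finset.sum_mul (s := Finset.univ) (f := fun C => χ C), hsum0, zero_mul, sub_zero]]
  refine (norm_sum_le _ _).trans ?_
  refine le_trans (Finset.sum_le_sum (g := fun _ => |B|) fun C _ => ?_) ?_
  · rw [norm_mul, hχ, one_mul, Complex.norm_real, Real.norm_eq_abs]
    exact (hdiff C (1 : ClassGroup (𝓞 K)) s hs hs2).trans (le_abs_self B)
  · rw [Finset.sum_const, Finset.card_univ, nsmul_eq_mul]
    linarith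

/-- Primes in the kernel of a character of order `p` have upper density at most `1/p`. -/
lemma exists_kernel_sum_upper {p : ℕ} (hp : p.Prime) (χ : ClassGroup (𝓞 K) →* ℂ)
    (hχ : ∀ C, χ C ^ p = 1) (hne : ∃ C, χ C ≠ 1) :
    ∃ B : ℝ, ∀ s : ℝ, 1 < s → s ≤ 2 → ∀ S : Finset (HeightOneSpectrum (𝓞 K)),
      (∀ v ∈ S, χ (ClassGroup.mk0 (primeOf v)) = 1) →
        (p : ℝ) * ∑ v ∈ S, idealTerm s (primeOf v) ≤ Real.log (1 / (s - 1)) + B := by
  obtain ⟨c, A, -, -, -, hup⟩ := exists_zeta_bounds (K := K)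
  obtain ⟨L, hL0, hL⟩ := exists_Lvalue_bound (K := K)
  obtain ⟨C₀, hC₀⟩ := hne
  set ψ : (Ideal (𝓞 K))⁰ →* ℂ := χ.comp (ClassGroup.mk0 (R := 𝓞 K))
  refine ⟨Real.log A + ((p : ℝ) - 1) * Real.log L, fun s hs hs2 S hS => ?_⟩
  have hs0 : 0 < s - 1 := by linarith
  have hge := prod_norm_tsum_ge hp (χ := ψ) (fun a => hχ _) hs hs2 S hS
  have hA : 0 < A := (div_pos_iff_of_pos_right hs0).mp
    ((Real.exp_pos _).trans_le ((exp_sum_le_zeta hs hs2 S).trans (hup s hs hs2)))
  have hle : ∏ j ∈ Finset.range p, ‖∑' a, charTerm (ψ ^ j) s a‖ ≤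
      A / (s - 1) * L ^ (p - 1) := by
    rw [← Finset.mul_prod_erase _ _ (Finset.mem_range.mpr hp.pos)]
    refine mul_le_mul ?_ ?_ (Finset.prod_nonneg fun j _ => norm_nonneg _) (by positivity)
    · refine le_trans (le_of_eq ?_) (hup s hs hs2)
      have : ∀ a, charTerm (ψ ^ 0) s a = (idealTerm s a : ℂ) := fun a => by simp [charTerm]
      rw [tsum_congr this, ← Complex.ofReal_tsum, Complex.norm_real, Real.norm_eq_abs,
        abs_of_nonneg (tsum_nonneg fun a => idealTerm_nonneg s a)]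
    · refine le_trans (Finset.prod_le_prod (fun j _ => norm_nonneg _) fun j hj => ?_)
        (le_of_eq (by rw [Finset.prod_const, Finset.card_erase_of_mem
          (Finset.mem_range.mpr hp.pos), Finset.card_range]))
      have hj0 : j ≠ 0 := (Finset.mem_erase.mp hj).1
      have hjp : j < p := Finset.mem_range.mp (Finset.mem_erase.mp hj).2
      have hcomp : ψ ^ j = (χ ^ j).comp (ClassGroup.mk0 (R := 𝓞 K)) := by
        ext a; rfl
      rw [hcomp]
      refine hL (χ ^ j) (fun C => ?_) ⟨C₀, fun h => hC₀ ?_⟩ s hs hs2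
      · rw [show (χ ^ j) C = χ C ^ j by rfl, norm_pow,
          Complex.norm_eq_one_of_pow_eq_one (hχ C) hp.ne_zero, one_pow]
      · have h' : χ C₀ ^ j = 1 := h
        have hcop : Nat.Coprime j p :=
          (hp.coprime_iff_not_dvd.mpr (Nat.not_dvd_of_pos_of_lt (by omega) hjp)).symm
        simpa [hcop.gcd_eq_one] using (pow_gcd_eq_one (a := χ C₀)).mpr ⟨h', hχ C₀⟩
  have h := Real.log_le_log (Real.exp_pos _) (hge.trans hle)
  rw [Real.log_exp, Real.log_mul (by positivity) (by positivity), Real.log_pow,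
    Nat.cast_sub hp.one_le, Nat.cast_one, div_eq_mul_one_div A,
    Real.log_mul hA.ne' (by positivity)] at h
  linarith

/-- **Density clash**: there is a degree-one prime outside `bad` with `χ ≠ 1` over which the
extension `M` does not split completely. -/
theorem density_clash {M : Type*} [Field M] [NumberField M] {p : ℕ} (hp : p.Prime) (hp3 : 3 ≤ p)
    (χ : ClassGroup (𝓞 K) →* ℂ) (hχ : ∀ C, χ C ^ p = 1) (hne : ∃ C, χ C ≠ 1)
    (bad : Finset (HeightOneSpectrum (𝓞 K)))
    (under : HeightOneSpectrum (𝓞 M) → HeightOneSpectrum (𝓞 K)) :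
    ∃ v : HeightOneSpectrum (𝓞 K), v ∉ bad ∧ (Ideal.absNorm v.asIdeal).Prime ∧
      χ (ClassGroup.mk0 (primeOf v)) ≠ 1 ∧
      ¬ ∃ W : Finset (HeightOneSpectrum (𝓞 M)), W.card = p ∧
        ∀ w ∈ W, under w = v ∧ Ideal.absNorm w.asIdeal = Ideal.absNorm v.asIdeal := by
  by_contra! hcon
  obtain ⟨B₀, δ, hδ, hlow⟩ := exists_prime_sum_lower (K := K)
  obtain ⟨B₁, hbad⟩ := exists_bad_bound (K := K)
  obtain ⟨B₂, hker⟩ := exists_kernel_sum_upper hp χ hχ hne
  obtain ⟨B₃, hspl⟩ := exists_prime_sum_upper (K := M)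
  set C := (p : ℝ) * (B₀ + B₁ + bad.card) + B₂ + B₃
  set t := min (min δ 1) (Real.exp (-(|C| + 1))) with htdef
  have ht0 : 0 < t := by positivity
  obtain ⟨S, hS⟩ := hlow (1 + t) (by linarith)
    (by linarith [(min_le_left _ _).trans (min_le_left δ 1) |>.trans' htdef.le])
  have hs2 : 1 + t ≤ 2 := by
    linarith [(min_le_left _ _).trans (min_le_right δ 1) |>.trans' htdef.le]
  set x := fun v : HeightOneSpectrum (𝓞 K) => idealTerm (1 + t) (primeOf v)
  have hx0 : ∀ v, 0 ≤ x v := fun v => idealTerm_nonneg _ _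
  set Sb := S.filter fun v => ¬ (Ideal.absNorm v.asIdeal).Prime
  set Sk := S.filter fun v => χ (ClassGroup.mk0 (primeOf v)) = 1
  set Ss := S.filter fun v => v ∉ bad ∧ (Ideal.absNorm v.asIdeal).Prime ∧
    χ (ClassGroup.mk0 (primeOf v)) ≠ 1
  have hcover : ∑ v ∈ S, x v ≤
      ∑ v ∈ Sb, x v + ∑ v ∈ Sk, x v + ∑ v ∈ Ss, x v + bad.card := by
    have hle : ∀ v ∈ S, x v ≤ (if ¬ (Ideal.absNorm v.asIdeal).Prime then x v else 0) +
        (if χ (ClassGroup.mk0 (primeOf v)) = 1 then x v else 0) +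
        (if v ∉ bad ∧ (Ideal.absNorm v.asIdeal).Prime ∧
          χ (ClassGroup.mk0 (primeOf v)) ≠ 1 then x v else 0) +
        (if v ∈ bad then 1 else 0) := by
      intro v _
      have h1 : x v ≤ 1 := (idealTerm_primeOf_le_half (by linarith) v).trans (by norm_num)
      have h0 := hx0 v
      by_cases a : (Ideal.absNorm v.asIdeal).Prime <;>
        by_cases b : χ (ClassGroup.mk0 (primeOf v)) = 1 <;> by_cases c : v ∈ bad <;>
        simp [a, b, c] <;> linarith
    refine (Finset.sum_le_sum hle).trans ?_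
    simp only [Finset.sum_add_distrib, ← Finset.sum_filter]
    refine add_le_add le_rfl ?_
    rw [Finset.sum_const, nsmul_eq_mul, mul_one]
    exact mod_cast Finset.card_le_card fun v hv => (Finset.mem_filter.mp hv).2
  have hW : ∀ v ∈ Ss, ∃ W : Finset (HeightOneSpectrum (𝓞 M)), W.card = p ∧
      ∀ w ∈ W, under w = v ∧ Ideal.absNorm w.asIdeal = Ideal.absNorm v.asIdeal := fun v hv =>
    let h := (Finset.mem_filter.mp hv).2
    hcon v h.1 h.2.1 h.2.2
  choose W hWc hWp using hW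
  set U := Ss.attach.biUnion fun v => W v.1 v.2
  have hU : (p : ℝ) * ∑ v ∈ Ss, x v = ∑ w ∈ U, idealTerm (1 + t) (primeOf w) := by
    rw [Finset.sum_biUnion, Finset.mul_sum, ← Finset.sum_attach]
    · refine Finset.sum_congr rfl fun v _ => ?_
      rw [Finset.sum_congr rfl (g := fun _ => x v.1) fun w hw => by
        simp only [x, idealTerm_primeOf, (hWp v.1 v.2 w hw).2]]
      rw [Finset.sum_const, hWc, nsmul_eq_mul]
    · intro a _ b _ hab
      refine Finset.disjoint_left.mpr fun w hwa hwb => hab (Subtype.ext ?_)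
      rw [← (hWp a.1 a.2 w hwa).1, (hWp b.1 b.2 w hwb).1]
  have h1 := hker (1 + t) (by linarith) hs2 Sk fun v hv => (Finset.mem_filter.mp hv).2
  have h2 := hspl (1 + t) (by linarith) hs2 U
  rw [← hU] at h2
  have h3 := hbad (1 + t) (by linarith) Sb fun v hv => (Finset.mem_filter.mp hv).2
  have hp0 : (3 : ℝ) ≤ p := mod_cast hp3
  rw [add_sub_cancel_left] at h1 h2 hS
  set L := Real.log (1 / t)
  have hL : |C| + 1 ≤ L := by
    show _ ≤ Real.log (1 / t)
    rw [one_div, Real.log_inv, le_neg]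
    exact (Real.log_le_log ht0 (min_le_right _ _)).trans_eq (Real.log_exp _)
  have hL0 : 0 ≤ L := by linarith [abs_nonneg C]
  have key : (p : ℝ) * (L - B₀) ≤ (p : ℝ) * B₁ + (L + B₂) + (L + B₃) + (p : ℝ) * bad.card := by
    have := mul_le_mul_of_nonneg_left (hS.trans hcover) (by linarith : (0 : ℝ) ≤ p)
    nlinarith [mul_le_mul_of_nonneg_left h3 (by linarith : (0 : ℝ) ≤ p)]
  nlinarith [le_abs_self C]

end FermatLib.CFT.PartialZeta
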