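import Fermat.Agent.CFT.S14.Thaine
import Fermat.Agent.CFT.S14.Density
import Fermat.Prelude.Def_ClassGroup_GaloisAction
import Mathlib.GroupTheory.FiniteAbelian.Duality
import Mathlib.RingTheory.RootsOfUnity.AlgebraicallyClosed

/-!
# Eigen characters of the class group and Thaine's annihilation

An `ω²`-eigenclass of order `p` yields a character of the class group with the same transformation
rule; Thaine's element shows that it is trivial on every degree one prime where `η` is not a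
`p`-th power residue.
-/

set_option autoImplicit false

namespace FermatLib.CFT.ExtVanish

open NumberField IsDedekindDomain Ideal Finset FermatLib.CFT.PartialZeta
open scoped Classical Pointwise nonZeroDivisors

lemma pow_eq_pow_of_natCast_eq {p : ℕ} {A : Type*} [Monoid A] {C : A} (hC : C ^ p = 1) {a b : ℕ}
    (h : (a : ZMod p) = b) : C ^ a = C ^ b := by
  rw [pow_eq_pow_mod a hC, pow_eq_pow_mod b hC, (ZMod.natCast_eq_natCast_iff' a b p).mp h]

/-- A class in the `ω²`-eigenspace yields a character with the same transformation rule. -/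
theorem exists_eigen_character {p : ℕ} [hp : Fact p.Prime] {A : Type*} [CommGroup A] [Finite A]
    (act : (ZMod p)ˣ → A →* A) (hmul : ∀ c d x, act (c * d) x = act c (act d x))
    {C : A} (hC1 : C ≠ 1) (hCp : C ^ p = 1)
    (hC : ∀ c, act c C = C ^ ((c : ZMod p) ^ 2).val) :
    ∃ χ : A →* ℂ, (∀ x, χ x ^ p = 1) ∧ (∃ x, χ x ≠ 1) ∧
      ∀ c x, χ (act c x) = χ x ^ ((c : ZMod p) ^ 2).val := by
  set e : A →* A :=
    { toFun := fun x => ∏ c, act c x ^ etaExp c
      map_one' := by simp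
      map_mul' := fun x y => by simp only [map_mul, mul_pow, Finset.prod_mul_distrib] } with he
  have heval : ∀ x, e x = ∏ c, act c x ^ etaExp c := fun x => rfl
  have hsum : ((∑ c : (ZMod p)ˣ, ((c : ZMod p) ^ 2).val * etaExp c + 1 : ℕ) : ZMod p) = (0 : ℕ) := by
    simp only [etaExp, Nat.cast_add, Nat.cast_sum, Nat.cast_mul, ZMod.natCast_zmod_val, ← mul_pow,
      Units.mul_inv, one_pow, Finset.sum_const, Finset.card_univ, ZMod.card_units, Nat.cast_one,
      Nat.cast_zero, nsmul_one, Nat.cast_sub hp.out.one_le, ZMod.natCast_self]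
    ring
  have heC : e C * C = 1 := by
    simp only [heval, hC, ← pow_mul, Finset.prod_pow_eq_pow_sum]
    rw [← pow_succ, pow_eq_pow_of_natCast_eq hCp hsum, pow_zero]
  obtain ⟨x₀, hx₀⟩ : ∃ x, ∀ y, e x ≠ y ^ p := by
    by_contra! hall
    have hdeep : ∀ n, ∃ y, C = y ^ p ^ n := by
      intro n
      induction n with
      | zero => exact ⟨C, by simp⟩
      | succ n ih =>
        obtain ⟨y, hy⟩ := ih
        obtain ⟨z, hz⟩ := hall y
        refine ⟨z⁻¹, ?_⟩
        rw [eq_inv_of_mul_eq_one_right heC, hy, map_pow, hz, ← pow_mul, inv_pow, pow_succ']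
    obtain ⟨y, hy⟩ := hdeep (Nat.card A)
    have h1 : orderOf y ∣ p ^ (Nat.card A + 1) :=
      orderOf_dvd_of_pow_eq_one (by rw [pow_succ, pow_mul, ← hy, hCp])
    obtain ⟨j, -, hj⟩ := (Nat.dvd_prime_pow hp.out).mp h1
    have h2 : orderOf y ≤ Nat.card A :=
      Nat.le_of_dvd Nat.card_pos (orderOf_dvd_natCard y)
    have h3 : j < p ^ j := Nat.lt_pow_self hp.out.one_lt
    exact hC1 (by rw [hy, ← orderOf_dvd_iff_pow_eq_one, hj]; exact pow_dvd_pow p (by omega))
  set H : Subgroup A := (powMonoidHom p : A →* A).range with hH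
  have hne : QuotientGroup.mk' H (e x₀) ≠ 1 := by
    rw [ne_eq, QuotientGroup.mk'_apply, QuotientGroup.eq_one_iff]
    rintro ⟨y, hy⟩
    exact hx₀ y hy.symm
  obtain ⟨φ, hφ⟩ := CommGroup.exists_apply_ne_one_of_hasEnoughRootsOfUnity (A ⧸ H) ℂ hne
  have hq : ∀ x : A, QuotientGroup.mk' H x ^ p = 1 := fun x => by
    rw [← map_pow, QuotientGroup.mk'_apply, QuotientGroup.eq_one_iff]
    exact ⟨x, rfl⟩
  refine ⟨(Units.coeHom ℂ).comp (φ.comp ((QuotientGroup.mk' H).comp e)), fun x => ?_,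
    ⟨x₀, fun h => hφ (Units.ext h)⟩, fun d x => ?_⟩
  · simp only [MonoidHom.comp_apply, ← map_pow]
    rw [map_pow e, map_pow (QuotientGroup.mk' H), hq, map_one, map_one]
  · simp only [MonoidHom.comp_apply, ← map_pow]
    congr 2
    rw [heval, heval]
    simp only [map_prod, map_pow, ← pow_mul]
    refine Fintype.prod_equiv (Equiv.mulRight d) _ _ fun c => ?_
    rw [Equiv.coe_mulRight, ← hmul]
    refine pow_eq_pow_of_natCast_eq (hq _) ?_
    simp only [Nat.cast_mul, etaExp, ZMod.natCast_zmod_val, mul_inv_rev, Units.val_mul, mul_pow]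
    rw [← mul_assoc, ← mul_pow, Units.mul_inv, one_pow, one_mul]

variable {p : ℕ} [Fact p.Prime] {K : Type} [Field K] [NumberField K]
  [IsCyclotomicExtension {p} ℚ K] {ζ : K} (hζ : IsPrimitiveRoot ζ p)

variable (p K) in
/-- The Galois action on the ring of integers. -/
noncomputable def galRing (c : (ZMod p)ˣ) : 𝓞 K ≃+* 𝓞 K :=
  MulSemiringAction.toRingEquiv Gal(K/ℚ) (𝓞 K) (sig p K c)

variable (p K) in
/-- The Galois action on primes. -/
noncomputable def galPrime (c : (ZMod p)ˣ) (v : HeightOneSpectrum (𝓞 K)) :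
    HeightOneSpectrum (𝓞 K) :=
  ⟨sig p K c • v.asIdeal, inferInstance, fun h => v.ne_bot (by
    have := congrArg ((sig p K c)⁻¹ • ·) h
    simpa using this)⟩

variable (p K) in
/-- The Galois action on the class group. -/
noncomputable def actClass (c : (ZMod p)ˣ) : ClassGroup (𝓞 K) →* ClassGroup (𝓞 K) :=
  (ClassGroup.mulEquiv (galRing p K c)).toMonoidHom

lemma coe_galPrime (c : (ZMod p)ˣ) (v : HeightOneSpectrum (𝓞 K)) :
    (galPrime p K c v).asIdeal = sig p K c • v.asIdeal := rfl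

lemma actClass_mk0 (c : (ZMod p)ˣ) {I J : (Ideal (𝓞 K))⁰}
    (h : (J : Ideal (𝓞 K)) = sig p K c • (I : Ideal (𝓞 K))) :
    actClass p K c (ClassGroup.mk0 I) = ClassGroup.mk0 J := by
  rw [actClass, MulEquiv.coe_toMonoidHom, ClassGroup.mulEquiv_mk0]
  congr 1
  exact Subtype.ext (by rw [h, Ideal.coe_mapNonZero, Ideal.pointwise_smul_def]; rfl)

lemma smul_ne_bot (c : (ZMod p)ˣ) {I : Ideal (𝓞 K)} (hI : I ≠ ⊥) : sig p K c • I ≠ ⊥ := fun h =>
  hI (by simpa using congrArg ((sig p K c)⁻¹ • ·) h)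

lemma actClass_mul (c d : (ZMod p)ˣ) (x : ClassGroup (𝓞 K)) :
    actClass p K (c * d) x = actClass p K c (actClass p K d x) := by
  obtain ⟨I, rfl⟩ := ClassGroup.mk0_surjective x
  rw [actClass_mk0 (J := ⟨sig p K d • (I : Ideal (𝓞 K)), mem_nonZeroDivisors_of_ne_zero
      (smul_ne_bot d (nonZeroDivisors.coe_ne_zero I))⟩) d rfl,
    actClass_mk0 (J := ⟨sig p K (c * d) • (I : Ideal (𝓞 K)), mem_nonZeroDivisors_of_ne_zero
      (smul_ne_bot (c * d) (nonZeroDivisors.coe_ne_zero I))⟩) (c * d) rfl, actClass_mk0]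
  simp only [sig_mul, mul_smul]

lemma absNorm_galPrime (c : (ZMod p)ˣ) (v : HeightOneSpectrum (𝓞 K)) :
    absNorm (galPrime p K c v).asIdeal = absNorm v.asIdeal := by
  rw [coe_galPrime, absNorm_apply, absNorm_apply, Submodule.cardQuot_apply,
    Submodule.cardQuot_apply]
  exact Nat.card_congr (Ideal.quotientEquiv v.asIdeal (sig p K c • v.asIdeal) (galRing p K c)
    (Ideal.pointwise_smul_def _).symm).toEquiv.symm

/-- The facts about a prime of prime norm different from `p`. -/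
structure DegOne (p : ℕ) (v : HeightOneSpectrum (𝓞 K)) (l : ℕ) : Prop where
  prime : l.Prime
  ne : l ≠ p
  norm : absNorm v.asIdeal = l

namespace DegOne

variable {v : HeightOneSpectrum (𝓞 K)} {l : ℕ}

omit [Fact p.Prime] [IsCyclotomicExtension {p} ℚ K] in
lemma natCast_mem (h : DegOne p v l) : (l : 𝓞 K) ∈ v.asIdeal := h.norm ▸ absNorm_mem _

omit [IsCyclotomicExtension {p} ℚ K] in
lemma natCast_prime_notMem (h : DegOne p v l) : (p : 𝓞 K) ∉ v.asIdeal := fun hp => by
  obtain ⟨a, b, hab⟩ := Int.isCoprime_iff_nat_coprime.mpr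
    (show Nat.Coprime (l : ℤ).natAbs (p : ℤ).natAbs by
      simpa using (Nat.coprime_primes h.prime Fact.out).mpr h.ne)
  refine v.isPrime.ne_top ((eq_top_iff_one _).mpr ?_)
  have := v.asIdeal.add_mem (v.asIdeal.mul_mem_left (a : 𝓞 K) h.natCast_mem)
    (v.asIdeal.mul_mem_left (b : 𝓞 K) hp)
  have hc : ((a * l + b * p : ℤ) : 𝓞 K) = 1 := by rw [hab, Int.cast_one]
  push_cast at hc
  rwa [hc] at this

omit [Fact p.Prime] [IsCyclotomicExtension {p} ℚ K] in
/-- The residue field is the prime field. -/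
lemma exists_zmodEquiv (h : DegOne p v l) : ∃ φ : ZMod l →+* 𝓞 K ⧸ v.asIdeal,
    Function.Bijective φ := by
  have := Fact.mk h.prime
  have := v.isMaximal
  let _ := Ideal.Quotient.field v.asIdeal
  have hcard : Nat.card (𝓞 K ⧸ v.asIdeal) = l := by
    rw [← Submodule.cardQuot_apply, ← absNorm_apply, h.norm]
  have : Finite (𝓞 K ⧸ v.asIdeal) := Nat.finite_of_card_ne_zero (by rw [hcard]; exact h.prime.ne_zero)
  have : CharP (𝓞 K ⧸ v.asIdeal) l := (CharP.charP_iff_prime_eq_zero h.prime).mpr (by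
    rw [← map_natCast (Ideal.Quotient.mk v.asIdeal), Ideal.Quotient.eq_zero_iff_mem]
    exact h.natCast_mem)
  exact ⟨ZMod.castHom dvd_rfl _, (Nat.bijective_iff_injective_and_card _).mpr
    ⟨RingHom.injective _, by rw [hcard, Nat.card_zmod]⟩⟩

include hζ in
lemma zeta_pow_sub_notMem (h : DegOne p v l) {a b : ℕ} (hab : (a : ZMod p) ≠ b) :
    hζ.toInteger ^ a - hζ.toInteger ^ b ∉ v.asIdeal := by
  intro hm
  have := Fact.mk h.prime
  have := v.isMaximal
  let _ := Ideal.Quotient.field v.asIdeal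
  set z := Ideal.Quotient.mk v.asIdeal hζ.toInteger with hz
  have hzp : z ^ p = 1 := by rw [hz, ← map_pow, hζ.toInteger_isPrimitiveRoot.pow_eq_one, map_one]
  have hz1 : z ≠ 1 := by
    rw [hz, ne_eq, ← map_one (Ideal.Quotient.mk v.asIdeal), Ideal.Quotient.eq]
    intro hz'
    obtain ⟨r, hr⟩ : lam hζ ∣ (p : 𝓞 K) :=
      (dvd_pow_self _ (by have := (Fact.out : p.Prime).two_le; omega)).trans
        (associated_lam_pow hζ).dvd
    refine h.natCast_prime_notMem ?_
    rw [hr, lam, ← neg_sub (hζ.toInteger)]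
    exact v.asIdeal.mul_mem_right _ (v.asIdeal.neg_mem hz')
  rw [← Ideal.Quotient.eq, map_pow, map_pow, ← hz,
    IsOfFinOrder.pow_eq_pow_iff_modEq (isOfFinOrder_iff_pow_eq_one.mpr
      ⟨p, (Fact.out : p.Prime).pos, hzp⟩),
    orderOf_eq_prime hzp hz1] at hm
  exact hab ((ZMod.natCast_eq_natCast_iff a b p).mpr hm)

include hζ in
lemma dvd_sub_one (h : DegOne p v l) : p ∣ l - 1 := by
  have := Fact.mk h.prime
  obtain ⟨φ, hφ⟩ := h.exists_zmodEquiv
  obtain ⟨x, hx⟩ := hφ.2 (Ideal.Quotient.mk v.asIdeal hζ.toInteger)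
  have := v.isPrime
  have hxp : x ^ p = 1 := hφ.1 (by
    rw [map_pow, hx, ← map_pow, hζ.toInteger_isPrimitiveRoot.pow_eq_one, map_one, map_one])
  have hx1 : x ≠ 1 := fun e => zeta_pow_sub_notMem hζ h (a := 1) (b := 0) (by simp) (by
    rw [← Ideal.Quotient.eq, pow_one, pow_zero, ← hx, e, map_one, map_one])
  rw [← orderOf_eq_prime hxp hx1]
  exact orderOf_dvd_of_pow_eq_one (ZMod.pow_card_sub_one_eq_one (by
    rintro rfl
    simp [(Fact.out : p.Prime).ne_zero] at hxp))

include hζ in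
lemma galPrime_injective (h : DegOne p v l) :
    Function.Injective fun c => galPrime p K c v := by
  intro c d hcd
  have := Fact.mk h.prime
  obtain ⟨φ, hφ⟩ := h.exists_zmodEquiv
  obtain ⟨x, hx⟩ := hφ.2 (Ideal.Quotient.mk v.asIdeal hζ.toInteger)
  have hn : hζ.toInteger - (x.val : 𝓞 K) ∈ v.asIdeal := by
    rw [← Ideal.Quotient.eq, ← hx, map_natCast]
    conv_lhs => rw [← ZMod.natCast_zmod_val x, map_natCast]
  have key : ∀ e : (ZMod p)ˣ,
      hζ.toInteger ^ (e : ZMod p).val - (x.val : 𝓞 K) ∈ (galPrime p K e v).asIdeal := fun e => by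
    rw [coe_galPrime, ← sig_smul_toInteger hζ e]
    have := Ideal.smul_mem_pointwise_smul_iff (a := sig p K e).mpr hn
    rwa [smul_sub, ← MulSemiringAction.toRingHom_apply _ _ _ (x.val : 𝓞 K), map_natCast] at this
  have hd : DegOne p (galPrime p K d v) l := ⟨h.prime, h.ne, (absNorm_galPrime d v).trans h.norm⟩
  have h1 := key c
  simp only at hcd
  rw [hcd] at h1
  have h2 := (galPrime p K d v).asIdeal.sub_mem h1 (key d)
  rw [sub_sub_sub_cancel_right] at h2
  by_contra hne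
  exact zeta_pow_sub_notMem hζ hd (by simpa using fun e => hne (Units.ext e)) h2

include hζ in
/-- `(ℓ)` is the product of the conjugates of a prime of norm `ℓ`. -/
lemma span_eq_prod (h : DegOne p v l) :
    span {(l : 𝓞 K)} = ∏ c : (ZMod p)ˣ, (galPrime p K c v).asIdeal := by
  have hmem : ∀ c, (l : 𝓞 K) ∈ (galPrime p K c v).asIdeal := fun c =>
    (⟨h.prime, h.ne, (absNorm_galPrime c v).trans h.norm⟩ :
      DegOne p (galPrime p K c v) l).natCast_mem
  obtain ⟨R, hR⟩ : ∏ c : (ZMod p)ˣ, (galPrime p K c v).asIdeal ∣ span {(l : 𝓞 K)} :=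
    Finset.prod_dvd_of_isRelPrime (fun c _ d _ hcd => by
      simp only [Function.onFun]
      rw [Irreducible.isRelPrime_iff_not_dvd (galPrime p K c v).irreducible, dvd_iff_le]
      exact fun hle => hcd (h.galPrime_injective hζ (HeightOneSpectrum.ext
        ((galPrime p K d v).isMaximal.eq_of_le (galPrime p K c v).isPrime.ne_top hle).symm)))
      fun c _ => dvd_iff_le.mpr ((span_singleton_le_iff_mem _).mpr (hmem c))
  have hn := congrArg absNorm hR
  rw [absNorm_span_natCast, RingOfIntegers.rank,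
    IsCyclotomicExtension.finrank (n := p) K (Polynomial.cyclotomic.irreducible_rat
      (Fact.out : p.Prime).pos), Nat.totient_prime Fact.out, map_mul, map_prod] at hn
  simp only [absNorm_galPrime, h.norm, Finset.prod_const, Finset.card_univ, ZMod.card_units] at hn
  have hR1 : absNorm R = 1 :=
    Nat.eq_of_mul_eq_mul_left (pow_pos h.prime.pos _) (by rw [mul_one]; exact hn.symm)
  rw [hR, absNorm_eq_one_iff.mp hR1, ← Ideal.one_eq_top, mul_one]

include hζ in
lemma exists_eq_galPrime (h : DegOne p v l) {w : HeightOneSpectrum (𝓞 K)}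
    (hw : (l : 𝓞 K) ∈ w.asIdeal) : ∃ c, w = galPrime p K c v := by
  have hd : ∏ c : (ZMod p)ˣ, (galPrime p K c v).asIdeal ≤ w.asIdeal :=
    (h.span_eq_prod hζ) ▸ (span_singleton_le_iff_mem _).mpr hw
  obtain ⟨c, -, hc⟩ := (w.isPrime.prod_le).mp hd
  exact ⟨c, HeightOneSpectrum.ext ((galPrime p K c v).isMaximal.eq_of_le w.isPrime.ne_top hc).symm⟩

include hζ in
lemma natCast_notMem_sq (h : DegOne p v l) (c : (ZMod p)ˣ) :
    (l : 𝓞 K) ∉ (galPrime p K c v).asIdeal ^ 2 := by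
  rw [mem_pow_iff_le_expn _ (Nat.cast_ne_zero.mpr h.prime.ne_zero), h.span_eq_prod hζ,
    expn_prod _ _ _ fun d _ => (galPrime p K d v).ne_bot]
  simp [expn_asIdeal, (h.galPrime_injective hζ).eq_iff]

end DegOne

/-- Thaine: the character kills every degree one prime where `η` is not a `p`-th power residue. -/
theorem thaine_kills (hp : 5 ≤ p) (χ : ClassGroup (𝓞 K) →* ℂ) (hχp : ∀ x, χ x ^ p = 1)
    (hχ : ∀ c x, χ (actClass p K c x) = χ x ^ ((c : ZMod p) ^ 2).val)
    {v : HeightOneSpectrum (𝓞 K)} {l : ℕ} (h : DegOne p v l)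
    (hres : ∀ y : 𝓞 K, (etaUnit hζ : 𝓞 K) - y ^ p ∉ v.asIdeal) :
    χ (ClassGroup.mk0 (primeOf v)) = 1 := by
  have := Fact.mk h.prime
  have hv1 : galPrime p K 1 v = v := HeightOneSpectrum.ext (by rw [coe_galPrime, sig_one, one_smul])
  have hl2 : (l : 𝓞 K) ∉ v.asIdeal ^ 2 := hv1 ▸ h.natCast_notMem_sq hζ 1
  obtain ⟨g, hg, N, hN, hN1, hN2⟩ := exists_thaine_element hζ h.prime (h.dvd_sub_one hζ) v h.norm hl2
  set a : (ZMod p)ˣ → ℕ := fun c => expn (galPrime p K c v) (span {N}) with ha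
  obtain ⟨φ, hφ⟩ := h.exists_zmodEquiv
  set η := (etaUnit hζ : 𝓞 K) with hη
  have hmk : ∀ n : ℕ, Ideal.Quotient.mk v.asIdeal ((((g : ZMod l).val ^ n : ℕ)) : 𝓞 K) =
      φ ((g : ZMod l) ^ n) := fun n => by
    rw [map_natCast, map_pow φ, Nat.cast_pow]
    conv_rhs => rw [← ZMod.natCast_zmod_val (g : ZMod l), map_natCast]
  have heta : Ideal.Quotient.mk v.asIdeal η = φ ((g : ZMod l) ^ a 1) := by
    rw [← hmk, Ideal.Quotient.eq, ha]
    simp only [hv1]
    exact hN2 v h.norm hl2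
  have hord : orderOf g = l - 1 := by
    rw [orderOf_eq_card_of_forall_mem_zpowers hg, Nat.card_eq_fintype_card, ZMod.card_units]
  have hnd : ¬ p ∣ a 1 := by
    rintro ⟨t, ht⟩
    refine hres (((g : ZMod l).val ^ t : ℕ) : 𝓞 K) ?_
    rw [← Ideal.Quotient.eq, heta, map_pow (Ideal.Quotient.mk v.asIdeal), hmk, ← map_pow, ← pow_mul,
      ht, mul_comm]
  have hac : ∀ c : (ZMod p)ˣ,
      (a c : ZMod p) = ((c⁻¹ : (ZMod p)ˣ) : ZMod p) ^ 2 * (a 1 : ZMod p) := fun c => by
    have h1 := hN2 (galPrime p K c v) ((absNorm_galPrime c v).trans h.norm)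
      (h.natCast_notMem_sq hζ c)
    rw [coe_galPrime, ← Ideal.smul_mem_pointwise_smul_iff (a := (sig p K c)⁻¹), inv_smul_smul,
      smul_sub, ← MulSemiringAction.toRingHom_apply _ _ _ (Nat.cast _), map_natCast, sig,
      ← map_inv, ← sig, ← coe_galUnit, ← Ideal.Quotient.eq] at h1
    obtain ⟨w, hw⟩ := isEigenUnit_etaUnit hζ hp c⁻¹
    rw [hw, Units.val_mul, Units.val_pow_eq_pow_val, Units.val_pow_eq_pow_val, map_mul, map_pow,
      map_pow, ← hη, heta, hmk] at h1
    obtain ⟨x, hx⟩ := hφ.2 (Ideal.Quotient.mk v.asIdeal (w : 𝓞 K))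
    have hxu : IsUnit x := isUnit_iff_ne_zero.mpr fun e => by
      rw [e, map_zero] at hx
      exact v.isPrime.ne_top (eq_top_of_isUnit_mem _ (Ideal.Quotient.eq_zero_iff_mem.mp hx.symm)
        w.isUnit)
    obtain ⟨k, hk⟩ : hxu.unit ∈ Submonoid.powers g :=
      mem_powers_iff_mem_zpowers.mpr (hg hxu.unit)
    rw [← hx, ← map_pow, ← map_pow, ← map_mul] at h1
    have h2 := hφ.1 h1
    rw [← hxu.unit_spec, ← show g ^ k = hxu.unit from hk, Units.val_pow_eq_pow_val, ← pow_mul,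
      ← pow_mul, ← pow_add, ← Units.val_pow_eq_pow_val, ← Units.val_pow_eq_pow_val] at h2
    have h3 := (pow_eq_pow_iff_modEq.mp (Units.ext h2))
    rw [hord] at h3
    have h4 := (ZMod.natCast_eq_natCast_iff _ _ p).mpr (h3.of_dvd (h.dvd_sub_one hζ))
    simp only [Nat.cast_add, Nat.cast_mul, ZMod.natCast_zmod_val, ZMod.natCast_self, mul_zero,
      add_zero] at h4
    rw [← h4, Units.val_pow_eq_pow_val, mul_comm]
  have hinj := h.galPrime_injective hζ
  set T : (Ideal (𝓞 K))⁰ := ∏ c, primeOf (galPrime p K c v) ^ ((p - 1) * a c) with hT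
  have hTcoe : (T : Ideal (𝓞 K)) = ∏ c, (galPrime p K c v).asIdeal ^ ((p - 1) * a c) := by
    rw [hT, Submonoid.coe_finsetProd]
    exact Finset.prod_congr rfl fun c _ => by rw [SubmonoidClass.coe_pow]; rfl
  set S : (Ideal (𝓞 K))⁰ := ⟨span {N}, mem_nonZeroDivisors_of_ne_zero (by simpa using hN)⟩ with hS
  have hexp : ∀ w, p ∣ expn w ((S * T : (Ideal (𝓞 K))⁰) : Ideal (𝓞 K)) := fun w => by
    rw [Submonoid.coe_mul, expn_mul w (nonZeroDivisors.coe_ne_zero S) (nonZeroDivisors.coe_ne_zero T),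
      hTcoe, expn_prod _ _ _ fun c _ => pow_ne_zero _ (galPrime p K c v).ne_bot]
    simp only [expn_pow, expn_asIdeal, mul_ite, mul_one, mul_zero]
    by_cases hw : (l : 𝓞 K) ∈ w.asIdeal
    · obtain ⟨d, rfl⟩ := h.exists_eq_galPrime hζ hw
      simp only [hinj.eq_iff, Finset.sum_ite_eq, Finset.mem_univ, if_true]
      refine ⟨a d, ?_⟩
      show a d + (p - 1) * a d = p * a d
      rw [← one_add_mul]
      congr 1
      omega
    · rw [Finset.sum_eq_zero fun c _ => if_neg fun (e : w = galPrime p K c v) => hw (by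
        rw [e]
        exact (⟨h.prime, h.ne, (absNorm_galPrime c v).trans h.norm⟩ :
          DegOne p (galPrime p K c v) l).natCast_mem), add_zero]
      exact hN1 w hw
  obtain ⟨J, hJ0, hJ⟩ :=
    exists_eq_pow_of_dvd_expn (nonZeroDivisors.coe_ne_zero _) (Fact.out : p.Prime).ne_zero hexp
  have hJ' : S * T = (⟨J, mem_nonZeroDivisors_of_ne_zero hJ0⟩ : (Ideal (𝓞 K))⁰) ^ p :=
    Subtype.ext hJ
  have hS1 : ClassGroup.mk0 S = 1 := (ClassGroup.mk0_eq_one_iff S.2).mpr ⟨N, rfl⟩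
  have hTv : χ (ClassGroup.mk0 T) = χ (ClassGroup.mk0 (primeOf v)) ^
      (∑ c : (ZMod p)ˣ, ((c : ZMod p) ^ 2).val * ((p - 1) * a c)) := by
    rw [hT, map_prod, map_prod, ← Finset.prod_pow_eq_pow_sum]
    refine Finset.prod_congr rfl fun c _ => ?_
    rw [map_pow, map_pow, ← actClass_mk0 c (I := primeOf v) (J := primeOf (galPrime p K c v)) rfl,
      hχ, ← pow_mul]
  have h1 := congrArg (fun I => χ (ClassGroup.mk0 I)) hJ'
  simp only [map_mul, map_pow, hS1, one_mul, hχp] at h1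
  rw [hTv] at h1
  have hsum : ((∑ c : (ZMod p)ˣ, ((c : ZMod p) ^ 2).val * ((p - 1) * a c) : ℕ) : ZMod p) =
      (a 1 : ZMod p) := by
    have hterm : ∀ c : (ZMod p)ˣ,
        ((((c : ZMod p) ^ 2).val * ((p - 1) * a c) : ℕ) : ZMod p) = -(a 1 : ZMod p) := fun c => by
      rw [Nat.cast_mul, Nat.cast_mul, ZMod.natCast_zmod_val, hac c,
        Nat.cast_sub (Fact.out : p.Prime).one_le, ZMod.natCast_self, Nat.cast_one, zero_sub,
        neg_one_mul, mul_neg, ← mul_assoc, ← mul_pow, Units.mul_inv, one_pow, one_mul]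
    rw [Nat.cast_sum, Finset.sum_congr rfl fun c _ => hterm c, Finset.sum_const, Finset.card_univ,
      ZMod.card_units, nsmul_eq_mul, Nat.cast_sub (Fact.out : p.Prime).one_le, ZMod.natCast_self,
      Nat.cast_one]
    ring
  rw [pow_eq_pow_of_natCast_eq (hχp _) hsum] at h1
  have := pow_gcd_eq_one.mpr ⟨h1, hχp (ClassGroup.mk0 (primeOf v))⟩
  rwa [Nat.coprime_iff_gcd_eq_one.mp
    (((Fact.out : p.Prime).coprime_iff_not_dvd.mpr hnd).symm), pow_one] at this

end FermatLib.CFT.ExtVanish
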