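import Fermat.Agent.CFT.S14.LatticeSum
import Mathlib.NumberTheory.NumberField.ClassNumber

/-!
# Partial zeta functions of ideal classes

For `s ∈ (1, 2]` the partial zeta functions of any two ideal classes differ by a bounded amount
and each is bounded above and below by constant multiples of `1 / (s - 1)`.
-/

set_option autoImplicit false

namespace FermatLib.CFT.PartialZeta

open NumberField NumberField.InfinitePlace NumberField.Units NumberField.mixedEmbedding
  Module Finset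
open scoped nonZeroDivisors Classical

variable {K : Type*} [Field K] [NumberField K]

/-- `N a ^ (-s)` as a function on nonzero ideals. -/
noncomputable def idealTerm (s : ℝ) (a : (Ideal (𝓞 K))⁰) : ℝ :=
  (Ideal.absNorm (a : Ideal (𝓞 K)) : ℝ) ^ (-s)

lemma absNorm_pos_of_nonZero (a : (Ideal (𝓞 K))⁰) : 0 < Ideal.absNorm (a : Ideal (𝓞 K)) :=
  Nat.pos_of_ne_zero fun h => nonZeroDivisors.coe_ne_zero a (Ideal.absNorm_eq_zero_iff.mp h)

lemma idealTerm_nonneg (s : ℝ) (a : (Ideal (𝓞 K))⁰) : 0 ≤ idealTerm s a :=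
  Real.rpow_nonneg (Nat.cast_nonneg _) _

lemma idealTerm_mul (s : ℝ) (a b : (Ideal (𝓞 K))⁰) :
    idealTerm s (a * b) = idealTerm s a * idealTerm s b := by
  rw [idealTerm, idealTerm, idealTerm, Submonoid.coe_mul, map_mul, Nat.cast_mul,
    Real.mul_rpow (Nat.cast_nonneg _) (Nat.cast_nonneg _)]

/-- The partial zeta function of an ideal class. -/
noncomputable def classZeta (C : ClassGroup (𝓞 K)) (s : ℝ) : ℝ :=
  ∑' a : {a : (Ideal (𝓞 K))⁰ // ClassGroup.mk0 a = C}, idealTerm s a.1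

lemma logMap_fundUnits (e : Fin (rank K) → ℤ) (ζ : torsion K) :
    logEmbedding K (Additive.ofMul ((ζ : (𝓞 K)ˣ) * ∏ i, fundSystem K i ^ e i)) =
      ∑ i, (e i : ℝ) • unitBasis K i := by
  rw [ofMul_mul, map_add, dirichletUnitTheorem.logEmbedding_eq_zero_iff.mpr ζ.2, zero_add,
    ofMul_prod, map_sum]
  refine Finset.sum_congr rfl fun i _ => ?_
  rw [ofMul_zpow, map_zsmul, ← unitBasis_apply, Int.cast_smul_eq_zsmul]

lemma repr_logMap_unit_smul {x : mixedSpace K} (hx : mixedEmbedding.norm x ≠ 0)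
    (e : Fin (rank K) → ℤ) (ζ : torsion K) (i : Fin (rank K)) :
    (unitBasis K).repr (logMap ((((ζ : (𝓞 K)ˣ) * ∏ j, fundSystem K j ^ e j)) • x)) i =
      (unitBasis K).repr (logMap x) i + (e i : ℝ) := by
  rw [logMap_unit_smul _ hx, logMap_fundUnits, map_add, map_sum, Finsupp.add_apply, add_comm]
  simp [Finsupp.finsetSum_apply, Finsupp.single_apply]

/-- The weights add up to one over the free part of the unit group. -/
lemma hasSum_phi_units {x : mixedSpace K} (hx : mixedEmbedding.norm x ≠ 0) (ζ : torsion K) :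
    HasSum (fun e : Fin (rank K) → ℤ =>
      phi K (logMap ((((ζ : (𝓞 K)ˣ) * ∏ j, fundSystem K j ^ e j)) • x))) 1 := by
  set y := fun i => (unitBasis K).repr (logMap x) i with hy
  let A : Fin (rank K) → Finset ℤ := fun i => {-⌊y i⌋, -⌊y i⌋ - 1}
  have hval : ∀ e : Fin (rank K) → ℤ,
      phi K (logMap ((((ζ : (𝓞 K)ˣ) * ∏ j, fundSystem K j ^ e j)) • x)) =
        ∏ i, tent (y i + e i) := fun e =>
    Finset.prod_congr rfl fun i _ => by rw [repr_logMap_unit_smul hx]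
  simp only [hval]
  have h : ∑ e ∈ Fintype.piFinset A, ∏ i, tent (y i + (e i : ℝ)) = 1 := by
    rw [← Finset.prod_univ_sum A fun i (n : ℤ) => tent (y i + (n : ℝ))]
    exact Finset.prod_eq_one fun i _ => sum_tent (y i)
  have h2 : ∀ e ∉ Fintype.piFinset A, ∏ i, tent (y i + (e i : ℝ)) = 0 := fun e he => by
    obtain ⟨i, hi⟩ : ∃ i, e i ∉ A i := by
      by_contra! h'
      exact he (Fintype.mem_piFinset.mpr h')
    exact Finset.prod_eq_zero (Finset.mem_univ i) (tent_add_int_eq_zero _ _ hi)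
  rw [← h]
  exact hasSum_sum_of_ne_finset_zero h2

/-- The unit `ζ · ∏ εᵢ ^ eᵢ`. -/
noncomputable def unitOf (ζe : torsion K × (Fin (rank K) → ℤ)) : (𝓞 K)ˣ :=
  (ζe.1 : (𝓞 K)ˣ) * ∏ i, fundSystem K i ^ ζe.2 i

lemma unitOf_bijective : Function.Bijective (unitOf : _ → (𝓞 K)ˣ) := by
  refine ⟨fun a b h => ?_, fun u => ?_⟩
  · exact (exist_unique_eq_mul_prod K (unitOf a)).unique rfl (by simpa [unitOf] using h)
  · obtain ⟨c, hc, -⟩ := exist_unique_eq_mul_prod K u
    exact ⟨c, hc.symm⟩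

lemma classGroup_mk0_eq_one_iff (I : (Ideal (𝓞 K))⁰) :
    ClassGroup.mk0 I = 1 ↔ (I : Ideal (𝓞 K)).IsPrincipal :=
  ClassGroup.mk0_eq_one_iff I.2

omit [NumberField K] in
lemma coe_unit_mul_embed (u : (𝓞 K)ˣ) (g : 𝓞 K) :
    mixedEmbedding K (((u : 𝓞 K) * g : 𝓞 K) : K) = u • mixedEmbedding K (g : K) := by
  rw [unitSMul_smul, ← map_mul]
  exact congrArg _ (map_mul (algebraMap (𝓞 K) K) _ _)

lemma wgt_unit_mul (s : ℝ) (u : (𝓞 K)ˣ) {g : 𝓞 K} (hg : g ≠ 0) :
    wgt s ((u : 𝓞 K) * g) = (Ideal.absNorm (Ideal.span {g}) : ℝ) ^ (-s) *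
      phi K (logMap (u • mixedEmbedding K (g : K))) := by
  have hne : mixedEmbedding.norm (u • mixedEmbedding K (g : K)) ≠ 0 := by
    rw [norm_unit_smul]
    linarith [one_le_mixedNorm hg]
  rw [wgt, coe_unit_mul_embed, weightG, if_neg hne, norm_unit_smul, mixedNorm_coe, mul_comm]

/-- Summing the weight over an orbit of the units. -/
lemma hasSum_orbit {s : ℝ} (hs : 1 < s) (hs2 : s ≤ 2) {g : 𝓞 K} (hg : g ≠ 0) :
    HasSum (fun z : torsion K × (Fin (rank K) → ℤ) => wgt s ((unitOf z : 𝓞 K) * g))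
      ((torsionOrder K : ℝ) * (Ideal.absNorm (Ideal.span {g}) : ℝ) ^ (-s)) := by
  have hinj : Function.Injective
      (fun z : torsion K × (Fin (rank K) → ℤ) => (unitOf z : 𝓞 K) * g) := fun a b h =>
    unitOf_bijective.1 (Units.ext (mul_right_cancel₀ hg h))
  have hsum : Summable fun z : torsion K × (Fin (rank K) → ℤ) => wgt s ((unitOf z : 𝓞 K) * g) :=
    (summable_wgt hs hs2).comp_injective hinj
  have hne : mixedEmbedding.norm (mixedEmbedding K (g : K)) ≠ 0 := by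
    linarith [one_le_mixedNorm hg]
  set c := (Ideal.absNorm (Ideal.span {g}) : ℝ) ^ (-s)
  have hfib : ∀ ζ : torsion K,
      HasSum (fun e : Fin (rank K) → ℤ => wgt s ((unitOf (ζ, e) : 𝓞 K) * g)) c := fun ζ => by
    have h := (hasSum_phi_units hne ζ).mul_left c
    rw [mul_one] at h
    exact h.congr_fun fun e => wgt_unit_mul s _ hg
  have h := hsum.hasSum.prod_fiberwise hfib
  convert hsum.hasSum using 1
  have : Fintype (torsion K) := Fintype.ofFinite _
  rw [← h.tsum_eq, tsum_fintype, Finset.sum_const, Finset.card_univ, nsmul_eq_mul,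
    torsionOrder, ← Nat.card_eq_fintype_card]

lemma exists_generators (J : (Ideal (𝓞 K))⁰) (C : ClassGroup (𝓞 K))
    (hJ : ClassGroup.mk0 J = C⁻¹) :
    ∃ g : {a : (Ideal (𝓞 K))⁰ // ClassGroup.mk0 a = C} → 𝓞 K,
      ∀ a, g a ≠ 0 ∧ (a.1 : Ideal (𝓞 K)) * (J : Ideal (𝓞 K)) = Ideal.span {g a} := by
  suffices ∀ a : {a : (Ideal (𝓞 K))⁰ // ClassGroup.mk0 a = C}, ∃ g : 𝓞 K,
      g ≠ 0 ∧ (a.1 : Ideal (𝓞 K)) * (J : Ideal (𝓞 K)) = Ideal.span {g} by
    choose g hg using this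
    exact ⟨g, hg⟩
  intro a
  have h1 : ClassGroup.mk0 (a.1 * J) = 1 := by rw [map_mul, a.2, hJ, mul_inv_cancel]
  obtain ⟨g, hg⟩ := ((classGroup_mk0_eq_one_iff _).mp h1).principal
  refine ⟨g, fun h0 => nonZeroDivisors.coe_ne_zero (a.1 * J) ?_, hg⟩
  rw [hg, h0]; simp

lemma generators_injective (J : (Ideal (𝓞 K))⁰) (C : ClassGroup (𝓞 K))
    (g : {a : (Ideal (𝓞 K))⁰ // ClassGroup.mk0 a = C} → 𝓞 K)
    (hg : ∀ a, g a ≠ 0 ∧ (a.1 : Ideal (𝓞 K)) * (J : Ideal (𝓞 K)) = Ideal.span {g a}) :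
    Function.Injective fun t : {a : (Ideal (𝓞 K))⁰ // ClassGroup.mk0 a = C} ×
      (torsion K × (Fin (rank K) → ℤ)) => (unitOf t.2 : 𝓞 K) * g t.1 := by
  rintro ⟨a, z⟩ ⟨a', z'⟩ (h : (unitOf z : 𝓞 K) * g a = unitOf z' * g a')
  have ha : a = a' := by
    have h1 : Ideal.span {g a} = Ideal.span {g a'} := by
      rw [← Ideal.span_singleton_mul_left_unit (unitOf z).isUnit (g a), h,
        Ideal.span_singleton_mul_left_unit (unitOf z').isUnit]
    rw [← (hg a).2, ← (hg a').2] at h1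
    exact Subtype.ext (Subtype.ext (mul_right_cancel₀ (nonZeroDivisors.coe_ne_zero J) h1))
  subst ha
  rw [unitOf_bijective.1 (Units.ext (mul_right_cancel₀ (hg a).1 h))]

lemma generators_cover (J : (Ideal (𝓞 K))⁰) (C : ClassGroup (𝓞 K)) (hJ : ClassGroup.mk0 J = C⁻¹)
    (g : {a : (Ideal (𝓞 K))⁰ // ClassGroup.mk0 a = C} → 𝓞 K)
    (hg : ∀ a, g a ≠ 0 ∧ (a.1 : Ideal (𝓞 K)) * (J : Ideal (𝓞 K)) = Ideal.span {g a})
    {x : 𝓞 K} (hx : x ∈ (J : Ideal (𝓞 K))) (hx0 : x ≠ 0) :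
    ∃ (a : {a : (Ideal (𝓞 K))⁰ // ClassGroup.mk0 a = C})
      (z : torsion K × (Fin (rank K) → ℤ)), (unitOf z : 𝓞 K) * g a = x := by
  obtain ⟨a, ha⟩ := Ideal.dvd_span_singleton.mpr hx
  have ha0 : a ∈ (Ideal (𝓞 K))⁰ := mem_nonZeroDivisors_of_ne_zero fun h => hx0 <| by
    rw [h, mul_zero] at ha; exact Ideal.span_singleton_eq_bot.mp ha
  have haC : ClassGroup.mk0 ⟨a, ha0⟩ = C := by
    have : ClassGroup.mk0 (J * ⟨a, ha0⟩) = 1 :=
      (classGroup_mk0_eq_one_iff _).mpr ⟨x, ha.symm⟩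
    rw [map_mul, hJ, inv_mul_eq_one] at this
    exact this.symm
  have hspan : Ideal.span {g ⟨⟨a, ha0⟩, haC⟩} = Ideal.span {x} := by
    rw [← (hg _).2, ha, mul_comm]
  obtain ⟨u, hu⟩ := Ideal.span_singleton_eq_span_singleton.mp hspan
  obtain ⟨z, rfl⟩ := unitOf_bijective.2 u
  exact ⟨⟨⟨a, ha0⟩, haC⟩, z, by rw [← hu, mul_comm]⟩

/-- Regrouping a sum over a set along an injective family whose fibres have known sums. -/
lemma hasSum_regroup {α β R : Type*} (w : R → ℝ) (P : R → Prop)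
    (hsum : Summable fun x : {x // P x} => w x.1) (v : α → β → R) (hmem : ∀ a b, P (v a b))
    (hinj : ∀ a b a' b', v a b = v a' b' → a = a' ∧ b = b')
    (hcover : ∀ x, P x → w x ≠ 0 → ∃ a b, v a b = x) (r : α → ℝ)
    (hr : ∀ a, HasSum (fun b => w (v a b)) (r a)) :
    HasSum r (∑' x : {x // P x}, w x.1) := by
  let f : α × β → {x // P x} := fun t => ⟨v t.1 t.2, hmem t.1 t.2⟩
  have hf : Function.Injective f := fun t t' h => by
    obtain ⟨h1, h2⟩ := hinj _ _ _ _ (congrArg Subtype.val h)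
    exact Prod.ext h1 h2
  refine ((hf.hasSum_iff fun x hx => by_contra fun h => ?_).mpr hsum.hasSum).prod_fiberwise
    fun a => hr a
  obtain ⟨a, b, hab⟩ := hcover x.1 x.2 h
  exact hx ⟨(a, b), Subtype.ext hab⟩

/-- The lattice sum over `J` is `#μ · (N J) ^ (-s)` times the partial zeta function of `[J]⁻¹`. -/
lemma latticeSum_eq_classZeta {s : ℝ} (hs : 1 < s) (hs2 : s ≤ 2) (J : (Ideal (𝓞 K))⁰)
    (C : ClassGroup (𝓞 K)) (hJ : ClassGroup.mk0 J = C⁻¹) :
    (Summable fun a : {a : (Ideal (𝓞 K))⁰ // ClassGroup.mk0 a = C} => idealTerm s a.1) ∧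
      latticeSum s (J : Ideal (𝓞 K)) =
        (torsionOrder K : ℝ) * idealTerm s J * classZeta C s := by
  obtain ⟨g, hg⟩ := exists_generators J C hJ
  have hg' : ∀ a, g a ∈ (J : Ideal (𝓞 K)) := fun a => by
    refine Ideal.mul_le_right (I := (a.1 : Ideal (𝓞 K))) ?_
    rw [(hg a).2]
    exact Ideal.mem_span_singleton_self _
  have hr : ∀ a : {a : (Ideal (𝓞 K))⁰ // ClassGroup.mk0 a = C},
      HasSum (fun z : torsion K × (Fin (rank K) → ℤ) => wgt s ((unitOf z : 𝓞 K) * g a))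
        ((torsionOrder K : ℝ) * idealTerm s J * idealTerm s a.1) := fun a => by
    have e : ((Ideal.absNorm (Ideal.span {g a}) : ℕ) : ℝ) ^ (-s) =
        idealTerm s J * idealTerm s a.1 := by
      rw [← (hg a).2, mul_comm (idealTerm s J), ← idealTerm_mul]; rfl
    rw [mul_assoc, ← e]
    exact hasSum_orbit hs hs2 (hg a).1
  have hout := hasSum_regroup (wgt s) (fun x => x ∈ (J : Ideal (𝓞 K)))
    (summable_wgt_ideal hs hs2 _)
    (fun a (z : torsion K × (Fin (rank K) → ℤ)) => (unitOf z : 𝓞 K) * g a)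
    (fun a z => Ideal.mul_mem_left _ _ (hg' a))
    (fun a b a' b' h => Prod.ext_iff.mp
      (generators_injective J C g hg (a₁ := (a, b)) (a₂ := (a', b')) h))
    (fun x hx hne => generators_cover J C hJ g hg hx fun h => hne (by rw [h, wgt_zero])) _ hr
  have hJ0 : (torsionOrder K : ℝ) * idealTerm s J ≠ 0 :=
    mul_ne_zero (Nat.cast_ne_zero.mpr (torsionOrder_ne_zero K))
      (Real.rpow_pos_of_pos (Nat.cast_pos.mpr (absNorm_pos_of_nonZero J)) _).ne'
  refine ⟨(summable_mul_left_iff hJ0).mp hout.summable, ?_⟩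
  rw [classZeta, ← tsum_mul_left]
  exact hout.tsum_eq.symm

lemma summable_classZeta {s : ℝ} (hs : 1 < s) (hs2 : s ≤ 2) (C : ClassGroup (𝓞 K)) :
    Summable fun a : {a : (Ideal (𝓞 K))⁰ // ClassGroup.mk0 a = C} => idealTerm s a.1 := by
  obtain ⟨J, hJ⟩ := ClassGroup.mk0_surjective (R := 𝓞 K) C⁻¹
  exact (latticeSum_eq_classZeta hs hs2 J C hJ).1

lemma summable_idealTerm {s : ℝ} (hs : 1 < s) (hs2 : s ≤ 2) :
    Summable fun a : (Ideal (𝓞 K))⁰ => idealTerm s a := by
  rw [← (Equiv.sigmaFiberEquiv (ClassGroup.mk0 (R := 𝓞 K))).summable_iff]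
  refine (summable_sigma_of_nonneg fun x => idealTerm_nonneg _ _).mpr ⟨fun C => ?_, ?_⟩
  · exact summable_classZeta hs hs2 C
  · exact Summable.of_finite

/-- The total zeta function is the sum of the partial ones. -/
lemma tsum_idealTerm_eq {s : ℝ} (hs : 1 < s) (hs2 : s ≤ 2) :
    ∑' a : (Ideal (𝓞 K))⁰, idealTerm s a = ∑ C : ClassGroup (𝓞 K), classZeta C s := by
  rw [← (Equiv.sigmaFiberEquiv (ClassGroup.mk0 (R := 𝓞 K))).tsum_eq,
    ← tsum_fintype (L := SummationFilter.unconditional _)]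
  exact ((Equiv.sigmaFiberEquiv _).summable_iff.mpr (summable_idealTerm hs hs2)).tsum_sigma

/-- All partial zeta functions are `T(s) + O(1)` for one and the same `T`. -/
theorem exists_classZeta_estimate : ∃ B : ℝ, ∀ (C : ClassGroup (𝓞 K)) (s : ℝ), 1 < s → s ≤ 2 →
    |(torsionOrder K : ℝ) * classZeta C s - latticeSum s (⊤ : Ideal (𝓞 K))| ≤ B := by
  choose J hJ using fun C : ClassGroup (𝓞 K) => ClassGroup.mk0_surjective (R := 𝓞 K) C⁻¹
  obtain ⟨A, hA⟩ := exists_latticeSum_top_le (K := K)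
  choose B hB using fun C => exists_index_bound (J C : Ideal (𝓞 K)) (nonZeroDivisors.coe_ne_zero _)
  set n := fun C => (Ideal.absNorm (J C : Ideal (𝓞 K)) : ℝ) with hn
  refine ⟨∑ C, n C * (B C + n C * A), fun C s hs hs2 => ?_⟩
  have hn1 : ∀ C, 1 ≤ n C := fun C => Nat.one_le_cast.mpr (absNorm_pos_of_nonZero (J C))
  have hB0 : ∀ C, 0 ≤ B C := fun C => (abs_nonneg _).trans (hB C 2 one_lt_two le_rfl)
  have hA0 : 0 ≤ A := by
    have h0 := latticeSum_nonneg (K := K) (2 : ℝ) ⊤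
    have := hA 2 one_lt_two le_rfl
    norm_num at this
    linarith
  refine le_trans ?_ (Finset.single_le_sum (f := fun C => n C * (B C + n C * A))
    (fun C _ => by have := hn1 C; have := hB0 C; positivity) (Finset.mem_univ C))
  have hk := hB C s hs hs2
  rw [(latticeSum_eq_classZeta hs hs2 (J C) C (hJ C)).2] at hk
  set T := latticeSum s (⊤ : Ideal (𝓞 K))
  set Z := (torsionOrder K : ℝ) * classZeta C s
  set m := n C
  have hm1 : 1 ≤ m := hn1 C
  have hm0 : 0 < m := by linarith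
  have hT0 : 0 ≤ T := latticeSum_nonneg _ _
  have hk' : |m ^ (1 - s) * Z - T| ≤ B C := by
    refine le_trans (le_of_eq (congrArg abs ?_)) hk
    rw [idealTerm, sub_eq_add_neg (1 : ℝ), Real.rpow_add hm0, Real.rpow_one]
    ring
  have hpow1 : m ^ (s - 1) ≤ m := Real.rpow_le_self_of_one_le hm1 (by linarith)
  have hpow2 : m ^ (s - 1) - 1 ≤ (s - 1) * m * m := by
    have h := Real.add_one_le_exp (-((s - 1) * Real.log m))
    have hlog : Real.log m ≤ m := (Real.log_le_sub_one_of_pos hm0).trans (by linarith)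
    rw [Real.exp_neg, show (Real.exp ((s - 1) * Real.log m)) = m ^ (s - 1) by
      rw [Real.rpow_def_of_pos hm0, mul_comm]] at h
    have hpos := Real.rpow_pos_of_pos hm0 (s - 1)
    have h2 : m ^ (s - 1) * (m ^ (s - 1))⁻¹ = 1 := mul_inv_cancel₀ hpos.ne'
    have hlog0 : 0 ≤ Real.log m := Real.log_nonneg hm1
    have h3 : m ^ (s - 1) - 1 ≤ m ^ (s - 1) * ((s - 1) * Real.log m) := by nlinarith
    refine h3.trans ?_
    calc m ^ (s - 1) * ((s - 1) * Real.log m) ≤ m * ((s - 1) * m) :=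
          mul_le_mul hpow1 (mul_le_mul_of_nonneg_left hlog (by linarith))
            (mul_nonneg (by linarith) hlog0) hm0.le
      _ = _ := by ring
  have hge1 : 1 ≤ m ^ (s - 1) := Real.one_le_rpow hm1 (by linarith)
  have hTs : (m ^ (s - 1) - 1) * T ≤ m * m * A := by
    calc (m ^ (s - 1) - 1) * T ≤ (s - 1) * m * m * (A / (s - 1)) :=
          mul_le_mul hpow2 (hA s hs hs2) hT0 (by positivity)
      _ = _ := by
        have : s - 1 ≠ 0 := by linarith
        field_simp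
  have hZ : Z - T = m ^ (s - 1) * (m ^ (1 - s) * Z - T) + (m ^ (s - 1) - 1) * T := by
    have : m ^ (s - 1) * m ^ (1 - s) = 1 := by
      rw [← Real.rpow_add hm0]; simp
    linear_combination (-Z) * this
  rw [hZ]
  refine (abs_add_le _ _).trans ?_
  rw [abs_mul, abs_of_pos (Real.rpow_pos_of_pos hm0 _),
    abs_of_nonneg (mul_nonneg (sub_nonneg.mpr hge1) hT0)]
  calc _ ≤ m * B C + m * m * A :=
        add_le_add (mul_le_mul hpow1 hk' (abs_nonneg _) hm0.le) hTs
    _ = _ := by ring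

/-- Upper and lower bounds for the Dedekind zeta function, and the comparison between classes. -/
theorem exists_zeta_bounds : ∃ c B : ℝ, 0 < c ∧
    (∀ (C C' : ClassGroup (𝓞 K)) (s : ℝ), 1 < s → s ≤ 2 →
      |classZeta C s - classZeta C' s| ≤ B) ∧
    (∀ s : ℝ, 1 < s → s ≤ 2 → c / (s - 1) - B ≤ ∑' a : (Ideal (𝓞 K))⁰, idealTerm s a) ∧
    (∀ s : ℝ, 1 < s → s ≤ 2 → ∑' a : (Ideal (𝓞 K))⁰, idealTerm s a ≤ B / (s - 1)) := by
  obtain ⟨E, hE⟩ := exists_classZeta_estimate (K := K)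
  obtain ⟨A, hA⟩ := exists_latticeSum_top_le (K := K)
  obtain ⟨c, hc, hc'⟩ := exists_le_latticeSum_top (K := K)
  set w := (torsionOrder K : ℝ)
  have hw : 0 < w := Nat.cast_pos.mpr (torsionOrder_pos K)
  set h := (Fintype.card (ClassGroup (𝓞 K)) : ℝ) with hh
  have hh0 : 0 < h := Nat.cast_pos.mpr Fintype.card_pos
  have hE0 : 0 ≤ E := (abs_nonneg _).trans (hE (1 : ClassGroup (𝓞 K)) (2 : ℝ) one_lt_two le_rfl)
  have hA0 : 0 ≤ A := by
    have h0 := latticeSum_nonneg (K := K) (2 : ℝ) ⊤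
    have := hA 2 one_lt_two le_rfl
    norm_num at this
    linarith
  have key : ∀ s : ℝ, 1 < s → s ≤ 2 →
      |∑' a : (Ideal (𝓞 K))⁰, idealTerm s a - h / w * latticeSum s (⊤ : Ideal (𝓞 K))| ≤
        h / w * E := fun s hs hs2 => by
    have e : ∑' a : (Ideal (𝓞 K))⁰, idealTerm s a - h / w * latticeSum s (⊤ : Ideal (𝓞 K)) =
        ∑ C : ClassGroup (𝓞 K), (1 / w) * (w * classZeta C s - latticeSum s (⊤ : Ideal (𝓞 K))) := by
      rw [tsum_idealTerm_eq hs hs2, ← Finset.mul_sum, Finset.sum_sub_distrib, ← Finset.mul_sum,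
        Finset.sum_const, Finset.card_univ, nsmul_eq_mul, ← hh]
      field_simp
    rw [e, ← Finset.mul_sum, abs_mul, abs_of_pos (by positivity)]
    refine (mul_le_mul_of_nonneg_left (Finset.abs_sum_le_sum_abs _ _) (by positivity)).trans ?_
    refine (mul_le_mul_of_nonneg_left (Finset.sum_le_sum fun C _ => hE C s hs hs2)
      (by positivity)).trans (le_of_eq ?_)
    rw [Finset.sum_const, Finset.card_univ, nsmul_eq_mul, ← hh]
    field_simp
  refine ⟨h / w * c, 2 * E / w + h / w * E + h / w * (A + E), by positivity, ?_, ?_, ?_⟩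
  · intro C C' s hs hs2
    refine le_trans ?_ (le_add_of_nonneg_right (by positivity : 0 ≤ h / w * (A + E)))
    refine le_trans ?_ (le_add_of_nonneg_right (by positivity))
    rw [le_div_iff₀ hw]
    conv_lhs => rw [← abs_of_pos hw, ← abs_mul, sub_mul, mul_comm _ w, mul_comm _ w]
    calc |w * classZeta C s - w * classZeta C' s|
        = |(w * classZeta C s - latticeSum s ⊤) - (w * classZeta C' s - latticeSum s ⊤)| := by
          ring_nf
      _ ≤ E + E := (abs_sub _ _).trans (add_le_add (hE C s hs hs2) (hE C' s hs hs2))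
      _ = 2 * E := by ring
  · intro s hs hs2
    have h1 := (abs_le.mp (key s hs hs2)).1
    have h2 : h / w * c / (s - 1) ≤ h / w * latticeSum s (⊤ : Ideal (𝓞 K)) := by
      rw [mul_div_assoc]
      exact mul_le_mul_of_nonneg_left (hc' s hs hs2) (by positivity)
    have : 0 ≤ 2 * E / w + h / w * (A + E) := by positivity
    linarith
  · intro s hs hs2
    have h1 := (abs_le.mp (key s hs hs2)).2
    have h2 := mul_le_mul_of_nonneg_left (hA s hs hs2) (by positivity : 0 ≤ h / w)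
    rw [le_div_iff₀ (by linarith)]
    have h3 : h / w * (A / (s - 1)) * (s - 1) = h / w * A := by
      rw [mul_assoc, div_mul_cancel₀ A (by linarith : s - 1 ≠ 0)]
    have hZ : 0 ≤ ∑' a : (Ideal (𝓞 K))⁰, idealTerm s a := tsum_nonneg fun a => idealTerm_nonneg s a
    have h4 : 0 ≤ h / w * E := by positivity
    have h5 : 0 ≤ 2 * E / w + h / w * E := by positivity
    nlinarith

end FermatLib.CFT.PartialZeta
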