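import Fermat.Agent.CFT.S14.Split
import Mathlib.NumberTheory.NumberField.Cyclotomic.PID

/-!
# A singular `ω²`-eigen element which is locally a `p`-th power is a `p`-th power

The ideal class of the root is killed: otherwise an eigen character of the class group would be
trivial on all degree one primes outside the splitting locus of `K(η ^ (1/p))`.
-/

set_option autoImplicit false

namespace FermatLib.CFT.ExtVanish

open NumberField IsDedekindDomain Ideal Finset FermatLib.CFT.PartialZeta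
open scoped Classical Pointwise nonZeroDivisors

variable {p : ℕ} [Fact p.Prime] {K : Type} [Field K] [NumberField K]
  [IsCyclotomicExtension {p} ℚ K] {ζ : K} (hζ : IsPrimitiveRoot ζ p)

include hζ in
/-- The `ω²`-eigenspace of the `p`-torsion of the class group is trivial. -/
theorem eigen_class_eq_one (hp : 5 ≤ p) {C : ClassGroup (𝓞 K)} (hCp : C ^ p = 1)
    (hC : ∀ c : (ZMod p)ˣ, actClass p K c C = C ^ ((c : ZMod p) ^ 2).val) : C = 1 := by
  by_contra hC1
  obtain ⟨χ, hχp, hne, hχ⟩ := exists_eigen_character (actClass p K) actClass_mul hC1 hCp hC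
  set f : Polynomial K := Polynomial.X ^ p - Polynomial.C ((etaUnit hζ : 𝓞 K) : K) with hf
  have hirr : Irreducible f := by
    refine X_pow_sub_C_irreducible_of_prime Fact.out fun b hb => ?_
    have hbi : IsIntegral ℤ b := IsIntegral.of_pow (Fact.out : p.Prime).pos
      (hb ▸ RingOfIntegers.isIntegral_coe _)
    exact etaUnit_not_pow hζ hp ⟨b, hbi⟩ (RingOfIntegers.ext hb.symm)
  have := Fact.mk hirr
  let M := AdjoinRoot f
  let pb := AdjoinRoot.powerBasis (f := f) hirr.ne_zero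
  have : FiniteDimensional K M := pb.finite
  have : NumberField M := NumberField.of_module_finite K M
  have hM : Module.finrank K M = p := by
    rw [pb.finrank, AdjoinRoot.powerBasis_dim, hf, Polynomial.natDegree_X_pow_sub_C]
  have hθ : AdjoinRoot.root f ^ p = algebraMap K M ((etaUnit hζ : 𝓞 K) : K) := by
    have := AdjoinRoot.eval₂_root f
    simp only [hf, Polynomial.eval₂_sub, Polynomial.eval₂_X_pow, Polynomial.eval₂_C] at this
    exact sub_eq_zero.mp this
  have hgal : ∀ j : ℕ, ∃ σ : M ≃ₐ[K] M,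
      σ (AdjoinRoot.root f) = AdjoinRoot.root f * algebraMap K M (ζ ^ j) := fun j => by
    have hev : f.eval₂ (Algebra.ofId K M).toRingHom
        (AdjoinRoot.root f * algebraMap K M (ζ ^ j)) = 0 := by
      simp only [hf, Polynomial.eval₂_sub, Polynomial.eval₂_X_pow, Polynomial.eval₂_C]
      rw [mul_pow, ← map_pow (algebraMap K M), ← pow_mul, mul_comm j, pow_mul, hζ.pow_eq_one,
        one_pow, map_one, mul_one, hθ]
      exact sub_self _
    let φ : M →ₐ[K] M := AdjoinRoot.liftAlgHom f (Algebra.ofId K M)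
      (AdjoinRoot.root f * algebraMap K M (ζ ^ j)) hev
    refine ⟨AlgEquiv.ofBijective φ (Algebra.IsAlgebraic.algHom_bijective φ), ?_⟩
    rw [AlgEquiv.ofBijective_apply]
    exact AdjoinRoot.lift_root hev
  have hp0 : span {(p : 𝓞 K)} ≠ ⊥ := by simp [(Fact.out : p.Prime).ne_zero]
  obtain ⟨v, hbad, hl, hχv, hsplit⟩ := density_clash (M := M) (K := K) Fact.out (by omega) χ hχp
    hne (Ideal.finite_factors hp0).toFinset (underPrime K)
  have hd : DegOne p v (absNorm v.asIdeal) := ⟨hl, fun heq => hbad (by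
    rw [Set.Finite.mem_toFinset, Set.mem_ofPred_eq, dvd_iff_le, span_singleton_le_iff_mem]
    have hm := absNorm_mem v.asIdeal
    rwa [heq] at hm), rfl⟩
  by_cases hres : ∀ y : 𝓞 K, (etaUnit hζ : 𝓞 K) - y ^ p ∉ v.asIdeal
  · exact hχv (thaine_kills hζ hp χ hχp hχ hd hres)
  · push Not at hres
    obtain ⟨y, hy⟩ := hres
    exact hsplit (split_of_residue hζ hM hθ hgal hd hy)

variable (p) in
/-- The hypotheses on the radicand. -/
structure IsSingularEigen (α : 𝓞 K) : Prop where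
  eigen : ∀ c : (ZMod p)ˣ, ∃ x y : 𝓞 K, y ≠ 0 ∧
    (sig p K c • α) * y ^ p = α ^ ((c : ZMod p) ^ 2).val * x ^ p
  expn_dvd : ∀ v, p ∣ expn v (span {α})

include hζ in
/-- A singular eigen element which is locally a `p`-th power at `λ` is a `p`-th power. -/
theorem exists_pow_of_singular_eigen (hp3 : 3 ≤ p) {α : 𝓞 K} (hα : IsSingularEigen p α)
    (hlam : ¬ lam hζ ∣ α) {z : 𝓞 K} (hz : lam hζ ^ 3 ∣ α - z ^ p) : ∃ w : K, (α : K) = w ^ p := by
  have hp0 : p ≠ 0 := by omega
  have hα0 : α ≠ 0 := fun h => hlam (h ▸ dvd_zero _)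
  obtain ⟨I, hI0, hI⟩ := exists_eq_pow_of_dvd_expn (by simpa using hα0) hp0 hα.expn_dvd
  choose x y hy hxy using hα.eigen
  have hσα : ∀ c, sig p K c • α ≠ 0 := fun c h => hα0 (by
    simpa using congrArg ((sig p K c)⁻¹ • ·) h)
  have hx : ∀ c, x c ≠ 0 := fun c h => by
    have := hxy c
    rw [h, zero_pow hp0, mul_zero] at this
    exact mul_ne_zero (hσα c) (pow_ne_zero p (hy c)) this
  set J : (Ideal (𝓞 K))⁰ := ⟨I, mem_nonZeroDivisors_of_ne_zero hI0⟩ with hJ
  have hCp : ClassGroup.mk0 J ^ p = 1 := by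
    rw [← map_pow]
    refine (ClassGroup.mk0_eq_one_iff (J ^ p).2).mpr ⟨α, ?_⟩
    rw [SubmonoidClass.coe_pow, hJ, ← hI]
  have hCe : ∀ c : (ZMod p)ˣ,
      actClass p K c (ClassGroup.mk0 J) = ClassGroup.mk0 J ^ ((c : ZMod p) ^ 2).val := fun c => by
    have h1 : (sig p K c • I * span {y c}) ^ p =
        (I ^ ((c : ZMod p) ^ 2).val * span {x c}) ^ p := by
      rw [mul_pow, mul_pow, ← smul_pow', ← pow_mul, mul_comm _ p, pow_mul, ← hI,
        span_singleton_pow, span_singleton_pow, span_singleton_pow, span_singleton_mul_span_singleton,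
        pointwise_smul_def, map_span, Set.image_singleton, MulSemiringAction.toRingHom_apply,
        span_singleton_mul_span_singleton, hxy c]
    have h2 : sig p K c • I * span {y c} = I ^ ((c : ZMod p) ^ 2).val * span {x c} :=
      eq_of_expn_eq (mul_ne_zero (smul_ne_bot c hI0) (by simpa using hy c))
        (mul_ne_zero (pow_ne_zero _ hI0) (by simpa using hx c)) fun v => by
        have := congrArg (expn v) h1
        rw [expn_pow, expn_pow] at this
        exact Nat.eq_of_mul_eq_mul_left (Nat.pos_of_ne_zero hp0) this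
    set J' : (Ideal (𝓞 K))⁰ := ⟨sig p K c • I, mem_nonZeroDivisors_of_ne_zero (smul_ne_bot c hI0)⟩
      with hJ'
    have hact : actClass p K c (ClassGroup.mk0 J) = ClassGroup.mk0 J' :=
      actClass_mk0 (I := J) (J := J') c (by rw [hJ', hJ])
    rw [hact, ← map_pow, ClassGroup.mk0_eq_mk0_iff]
    refine ⟨y c, x c, hy c, hx c, ?_⟩
    rw [SubmonoidClass.coe_pow, hJ', hJ]
    simp only []
    rw [mul_comm _ (sig p K c • I), mul_comm _ (I ^ _)]
    exact h2
  have hC : ClassGroup.mk0 J = 1 := by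
    rcases eq_or_ne p 3 with h3 | h3
    · subst h3
      have := IsCyclotomicExtension.Rat.three_pid K
      exact (ClassGroup.mk0_eq_one_iff J.2).mpr (IsPrincipalIdealRing.principal I)
    · refine eigen_class_eq_one hζ ?_ hCp hCe
      have : p ≠ 4 := fun h => absurd (h ▸ (Fact.out : p.Prime)) (by decide)
      omega
  obtain ⟨a, ha⟩ := ((ClassGroup.mk0_eq_one_iff J.2).mp hC)
  obtain ⟨u, hu⟩ : Associated (a ^ p) α := by
    rw [← span_singleton_eq_span_singleton, ← span_singleton_pow, hI]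
    congr 1
    exact ha.symm
  have ha0 : a ≠ 0 := fun h => hα0 (by rw [← hu, h, zero_pow hp0, zero_mul])
  have hue : IsEigenUnit (p := p) u := by
    intro c
    set e := ((c : ZMod p) ^ 2).val
    have hsa : ((sig p K c • a : 𝓞 K) : K) * (y c : K) ≠ 0 := by
      refine mul_ne_zero ?_ (RingOfIntegers.coe_ne_zero_iff.mpr (hy c))
      rw [RingOfIntegers.coe_ne_zero_iff]
      exact fun h => ha0 (by simpa using congrArg ((sig p K c)⁻¹ • ·) h)
    set q : K := (a : K) ^ e * (x c : K) / (((sig p K c • a : 𝓞 K) : K) * (y c : K)) with hq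
    have hu0 : ((u : 𝓞 K) : K) ^ e ≠ 0 := pow_ne_zero _ (RingOfIntegers.coe_ne_zero_iff.mpr u.ne_zero)
    have hkey : ((galUnit p K c u * (u ^ e)⁻¹ : (𝓞 K)ˣ) : K) = q ^ p := by
      have h1 := congrArg (algebraMap (𝓞 K) K) (hxy c)
      rw [← hu, smul_mul', smul_pow'] at h1
      simp only [map_mul, map_pow] at h1
      rw [hq, div_pow, eq_div_iff (pow_ne_zero _ hsa)]
      have h2 : ((galUnit p K c u * (u ^ e)⁻¹ : (𝓞 K)ˣ) : K) * ((u : 𝓞 K) : K) ^ e =
          ((sig p K c • (u : 𝓞 K) : 𝓞 K) : K) := by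
        have h3 : ((galUnit p K c u * (u ^ e)⁻¹ * u ^ e : (𝓞 K)ˣ) : 𝓞 K) = sig p K c • (u : 𝓞 K) := by
          rw [inv_mul_cancel_right, coe_galUnit]
        have h4 := congrArg (algebraMap (𝓞 K) K) h3
        rw [Units.val_mul _ (u ^ e), Units.val_pow_eq_pow_val, map_mul, map_pow] at h4
        exact h4
      refine mul_left_cancel₀ hu0 ?_
      rw [← mul_assoc, mul_comm (((u : 𝓞 K) : K) ^ e), h2]
      linear_combination h1
    have hqi : IsIntegral ℤ q := IsIntegral.of_pow (Nat.pos_of_ne_zero hp0)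
      (hkey ▸ RingOfIntegers.isIntegral_coe _)
    obtain ⟨qi, hqi'⟩ : ∃ qi : 𝓞 K, (qi : K) = q := ⟨⟨q, hqi⟩, rfl⟩
    have hqp : qi ^ p = ((galUnit p K c u * (u ^ e)⁻¹ : (𝓞 K)ˣ) : 𝓞 K) :=
      RingOfIntegers.coe_injective
        ((map_pow (algebraMap (𝓞 K) K) qi p).trans ((congrArg (· ^ p) hqi').trans hkey.symm))
    have hqu : IsUnit qi := (isUnit_pow_iff hp0).mp (hqp ▸ Units.isUnit _)
    refine ⟨hqu.unit, ?_⟩
    have : galUnit p K c u * (u ^ e)⁻¹ = hqu.unit ^ p :=
      Units.ext (by rw [Units.val_pow_eq_pow_val, IsUnit.unit_spec, hqp])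
    rw [← this, mul_comm _ (galUnit p K c u * (u ^ e)⁻¹), inv_mul_cancel_right]
  obtain ⟨n, hn⟩ := exists_int_sub_lam_dvd hζ a
  have hna : ¬ (p : ℤ) ∣ n := fun hd => hlam (by
    rw [← hu]
    refine Dvd.dvd.mul_right (dvd_pow ?_ hp0) _
    simpa using dvd_add hn ((lam_dvd_intCast hζ).mpr hd))
  obtain ⟨r, s, hrs⟩ := (Prime.coprime_iff_not_dvd (Nat.prime_iff_prime_int.mp Fact.out)).mpr hna
  have hb : lam hζ ∣ 1 - a * s := by
    have h1 : lam hζ ∣ ((r * p : ℤ) : 𝓞 K) := (lam_dvd_intCast hζ).mpr (dvd_mul_left _ _)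
    have h2 : (1 : 𝓞 K) - a * s = ((r * p : ℤ) : 𝓞 K) - (a - n) * s := by
      have : ((r * p + s * n : ℤ) : 𝓞 K) = 1 := by rw [hrs, Int.cast_one]
      push_cast at this ⊢
      linear_combination -this
    rw [h2]
    exact dvd_sub h1 (Dvd.dvd.mul_right hn _)
  set t := 1 - a * s with ht
  set b : 𝓞 K := s * (1 + t + t ^ 2) with hb'
  have hab : 1 - a * b = t ^ 3 := by rw [hb', ht]; ring
  clear_value b
  have hub : lam hζ ^ 3 ∣ (u : 𝓞 K) - (z * b) ^ p := by
    have h1 : lam hζ ^ 3 ∣ 1 - (a * b) ^ p := by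
      refine dvd_trans ?_ ((one_pow (M := 𝓞 K) p) ▸ sub_dvd_pow_sub_pow 1 (a * b) p)
      rw [hab]
      exact pow_dvd_pow_of_dvd hb 3
    have h2 : (u : 𝓞 K) - (z * b) ^ p = (u : 𝓞 K) * (1 - (a * b) ^ p) + (α - z ^ p) * b ^ p := by
      rw [← hu]; ring
    rw [h2]
    exact dvd_add (Dvd.dvd.mul_left h1 _) (Dvd.dvd.mul_right hz _)
  obtain ⟨w, hw⟩ := exists_pow_eq_of_eigen_local hζ (by omega) hue hub
  exact ⟨(a * w : 𝓞 K), by rw [← hu, hw, ← map_pow, ← mul_pow]⟩

end FermatLib.CFT.ExtVanish
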