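import Mathlib.NumberTheory.NumberField.Cyclotomic.Galois
import Mathlib.NumberTheory.NumberField.Units.Basic
import Mathlib.RingTheory.RootsOfUnity.CyclotomicUnits
import Mathlib.FieldTheory.Finite.Basic
import Mathlib.Tactic

/-!
# The cyclotomic unit in the `ω²`-eigenspace and its expansion modulo `λ³`
-/

set_option autoImplicit false

namespace FermatLib.CFT.ExtVanish

open NumberField Finset Ideal

variable {p : ℕ} [Fact p.Prime] {K : Type*} [Field K] [NumberField K]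
  [IsCyclotomicExtension {p} ℚ K] {ζ : K} (hζ : IsPrimitiveRoot ζ p)

/-- The uniformiser `λ = 1 - ζ`. -/
noncomputable def lam : 𝓞 K := 1 - hζ.toInteger

lemma span_lam : Ideal.span {lam hζ} = Ideal.span {hζ.toInteger - 1} := by
  rw [lam, ← neg_sub, Ideal.span_singleton_neg]

lemma lam_prime : Prime (lam hζ) := by
  rw [lam, ← neg_sub]
  exact hζ.zeta_sub_one_prime'.neg

lemma lam_ne_zero : lam hζ ≠ 0 := (lam_prime hζ).ne_zero

lemma associated_lam_pow : Associated (lam hζ ^ (p - 1)) (p : 𝓞 K) := by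
  refine Associated.trans ?_ (IsCyclotomicExtension.Rat.associated_zeta_sub_one_pow_prime p hζ)
  rw [lam, ← neg_sub, neg_pow]
  exact (associated_unit_mul_left _ _ (IsUnit.pow _ isUnit_one.neg))

lemma lam_dvd_intCast {n : ℤ} : lam hζ ∣ (n : 𝓞 K) ↔ (p : ℤ) ∣ n := by
  rw [lam, ← neg_sub, neg_dvd]
  exact IsCyclotomicExtension.Rat.zeta_sub_one_dvd_intCast_iff' p hζ

lemma pow_lam_dvd_intCast {n : ℤ} (k : ℕ) (hk : k ≤ p - 1) (h : (p : ℤ) ∣ n) :
    lam hζ ^ k ∣ (n : 𝓞 K) := by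
  obtain ⟨m, rfl⟩ := h
  push_cast
  exact dvd_mul_of_dvd_left ((pow_dvd_pow _ hk).trans (associated_lam_pow hζ).dvd) _

/-- Every integer of `K` is congruent to a rational integer modulo `λ`. -/
lemma exists_int_sub_lam_dvd (z : 𝓞 K) : ∃ n : ℤ, lam hζ ∣ z - n := by
  have hz : z ∈ (⊤ : Submodule ℤ (𝓞 K)) := trivial
  rw [← (hζ.integralPowerBasis).basis.span_eq] at hz
  induction hz using Submodule.span_induction with
  | mem x hx =>
    obtain ⟨i, rfl⟩ := hx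
    refine ⟨1, ?_⟩
    rw [PowerBasis.basis_eq_pow, hζ.integralPowerBasis_gen, Int.cast_one]
    have := sub_dvd_pow_sub_pow (hζ.toInteger) 1 i
    rw [one_pow] at this
    rw [lam, ← neg_sub, neg_dvd]
    exact this
  | zero => exact ⟨0, by simp⟩
  | add x y _ _ hx hy =>
    obtain ⟨a, ha⟩ := hx
    obtain ⟨b, hb⟩ := hy
    refine ⟨a + b, ?_⟩
    push_cast
    rw [show x + y - ((a : 𝓞 K) + b) = (x - a) + (y - b) by ring]
    exact dvd_add ha hb
  | smul c x _ hx =>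
    obtain ⟨a, ha⟩ := hx
    refine ⟨c * a, ?_⟩
    rw [zsmul_eq_mul, Int.cast_mul, ← mul_sub]
    exact dvd_mul_of_dvd_right ha _

/-- A `p`-th power is congruent to a rational integer modulo `λ ^ (p - 1)`. -/
lemma exists_int_sub_pow_dvd (z : 𝓞 K) : ∃ n : ℤ, lam hζ ^ (p - 1) ∣ z ^ p - n := by
  obtain ⟨n, hn⟩ := exists_int_sub_lam_dvd hζ z
  refine ⟨n ^ p, ?_⟩
  obtain ⟨r, hr⟩ := exists_add_pow_prime_eq (Fact.out : p.Prime) (z - (n : 𝓞 K)) (n : 𝓞 K)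
  rw [sub_add_cancel] at hr
  push_cast
  rw [hr, show (z - (n : 𝓞 K)) ^ p + (n : 𝓞 K) ^ p + (p : 𝓞 K) * (z - n) * n * r -
    (n : 𝓞 K) ^ p = (z - n) ^ p + (p : 𝓞 K) * ((z - n) * n * r) by ring]
  refine dvd_add ?_ (dvd_mul_of_dvd_left (associated_lam_pow hζ).dvd _)
  exact (pow_dvd_pow _ (Nat.sub_le p 1)).trans (pow_dvd_pow_of_dvd hn p)

/-- `x ≡ c₀ (1 + A λ + B λ²) mod λ³`, recorded by `A` and `L = 2 B - A²`. -/
def HasLog (x : 𝓞 K) (A L : ZMod p) : Prop :=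
  ∃ c₀ c₁ c₂ : ℤ, (c₀ : ZMod p) ≠ 0 ∧ A * c₀ = c₁ ∧ (L + A ^ 2) * c₀ = 2 * c₂ ∧
    lam hζ ^ 3 ∣ x - (c₀ + c₁ * lam hζ + c₂ * lam hζ ^ 2)

lemma hasLog_one : HasLog hζ 1 0 0 :=
  ⟨1, 0, 0, by simp, by simp, by simp, by simp⟩

lemma HasLog.mul {x y : 𝓞 K} {A L A' L' : ZMod p} (hx : HasLog hζ x A L)
    (hy : HasLog hζ y A' L') : HasLog hζ (x * y) (A + A') (L + L') := by
  obtain ⟨a₀, a₁, a₂, ha, hA, hL, hx⟩ := hx
  obtain ⟨b₀, b₁, b₂, hb, hA', hL', hy⟩ := hy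
  refine ⟨a₀ * b₀, a₀ * b₁ + a₁ * b₀, a₀ * b₂ + a₁ * b₁ + a₂ * b₀, ?_, ?_, ?_, ?_⟩
  · push_cast; exact mul_ne_zero ha hb
  · push_cast
    linear_combination (b₀ : ZMod p) * hA + (a₀ : ZMod p) * hA'
  · push_cast
    linear_combination (b₀ : ZMod p) * hL + (a₀ : ZMod p) * hL' +
      2 * A' * (b₀ : ZMod p) * hA + 2 * (a₁ : ZMod p) * hA'
  · obtain ⟨u, hu⟩ := hx
    obtain ⟨v, hv⟩ := hy
    rw [sub_eq_iff_eq_add] at hu hv
    refine ⟨u * (b₀ + b₁ * lam hζ + b₂ * lam hζ ^ 2) + v * (a₀ + a₁ * lam hζ + a₂ * lam hζ ^ 2) +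
      u * v * lam hζ ^ 3 + (a₁ * b₂ + a₂ * b₁ + a₂ * b₂ * lam hζ), ?_⟩
    rw [hu, hv]
    push_cast
    ring

lemma HasLog.pow {x : 𝓞 K} {A L : ZMod p} (hx : HasLog hζ x A L) (n : ℕ) :
    HasLog hζ (x ^ n) (n * A) (n * L) := by
  induction n with
  | zero => simpa using hasLog_one hζ
  | succ n ih => simpa [pow_succ, add_mul] using ih.mul hζ hx

lemma HasLog.prod {ι : Type*} (s : Finset ι) {x : ι → 𝓞 K} {A L : ι → ZMod p}
    (h : ∀ i ∈ s, HasLog hζ (x i) (A i) (L i)) :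
    HasLog hζ (∏ i ∈ s, x i) (∑ i ∈ s, A i) (∑ i ∈ s, L i) := by
  classical
  induction s using Finset.induction_on with
  | empty => simpa using hasLog_one hζ
  | insert a t ha ih =>
    rw [Finset.prod_insert ha, Finset.sum_insert ha, Finset.sum_insert ha]
    exact (h a (Finset.mem_insert_self a t)).mul hζ
      (ih fun i hi => h i (Finset.mem_insert_of_mem hi))

/-- An element congruent to a rational integer has trivial logarithm. -/
lemma HasLog.eq_zero (hp : 5 ≤ p) {x : 𝓞 K} {A L : ZMod p} (hx : HasLog hζ x A L) {r : ℤ}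
    (hr : lam hζ ^ 3 ∣ x - r) : A = 0 ∧ L = 0 := by
  obtain ⟨c₀, c₁, c₂, h0, hA, hL, hx⟩ := hx
  have hd := dvd_sub hr hx
  set l := lam hζ
  have e : x - (r : 𝓞 K) - (x - ((c₀ : 𝓞 K) + c₁ * l + c₂ * l ^ 2)) =
      ((c₀ - r : ℤ) : 𝓞 K) + c₁ * l + c₂ * l ^ 2 := by push_cast; ring
  rw [e] at hd
  have h1 : l ∣ ((c₀ - r : ℤ) : 𝓞 K) := by
    have h := (dvd_pow_self l three_ne_zero).trans hd
    rwa [add_assoc, dvd_add_left (dvd_add (dvd_mul_left _ _)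
      (dvd_mul_of_dvd_right (dvd_pow_self l two_ne_zero) _))] at h
  have h1' := pow_lam_dvd_intCast hζ 3 (by omega) ((lam_dvd_intCast hζ).mp h1)
  rw [add_assoc, dvd_add_right h1'] at hd
  have h2 : l ∣ ((c₁ : ℤ) : 𝓞 K) := by
    rw [show (c₁ : 𝓞 K) * l + c₂ * l ^ 2 = l * (c₁ + c₂ * l) by ring, pow_succ',
      mul_dvd_mul_iff_left (lam_ne_zero hζ)] at hd
    have h := (dvd_pow_self l two_ne_zero).trans hd
    rwa [dvd_add_left (dvd_mul_left _ _)] at h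
  have hc₁ := (lam_dvd_intCast hζ).mp h2
  have h2' := pow_lam_dvd_intCast hζ 3 (by omega) hc₁
  rw [dvd_add_right (dvd_mul_of_dvd_left h2' _), pow_succ' l 2, mul_comm (c₂ : 𝓞 K),
    mul_comm l (l ^ 2), mul_dvd_mul_iff_left (pow_ne_zero 2 (lam_ne_zero hζ))] at hd
  have hc₂ := (lam_dvd_intCast hζ).mp hd
  rw [(ZMod.intCast_zmod_eq_zero_iff_dvd _ _).mpr hc₁, mul_eq_zero, or_iff_left h0] at hA
  rw [(ZMod.intCast_zmod_eq_zero_iff_dvd _ _).mpr hc₂, mul_zero, mul_eq_zero, or_iff_left h0,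
    hA] at hL
  exact ⟨hA, by simpa using hL⟩

/-- `∑_{i < n} ζ ^ i ≡ n - C(n,2) λ + C(n,3) λ² mod λ³`. -/
lemma geom_sum_expansion (n : ℕ) : lam hζ ^ 3 ∣ (∑ i ∈ Finset.range n, hζ.toInteger ^ i) -
      ((n : 𝓞 K) - (n.choose 2 : 𝓞 K) * lam hζ + (n.choose 3 : 𝓞 K) * lam hζ ^ 2) := by
  have key : ∀ i : ℕ, lam hζ ^ 3 ∣ hζ.toInteger ^ i -
      (1 - (i : 𝓞 K) * lam hζ + (i.choose 2 : 𝓞 K) * lam hζ ^ 2) := by
    intro i
    induction i with
    | zero => simp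
    | succ i ih =>
      obtain ⟨u, hu⟩ := ih
      rw [sub_eq_iff_eq_add] at hu
      refine ⟨u * (1 - lam hζ) - (i.choose 2 : 𝓞 K), ?_⟩
      rw [pow_succ, hu, Nat.choose_succ_succ' i 1, Nat.choose_one_right]
      have hz : hζ.toInteger = 1 - lam hζ := by rw [lam]; ring
      rw [hz]
      push_cast
      ring
  induction n with
  | zero => simp
  | succ n ih =>
    rw [Finset.sum_range_succ]
    have e : (∑ i ∈ Finset.range n, hζ.toInteger ^ i) + hζ.toInteger ^ n -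
        (((n + 1 : ℕ) : 𝓞 K) - ((n + 1).choose 2 : 𝓞 K) * lam hζ +
          ((n + 1).choose 3 : 𝓞 K) * lam hζ ^ 2) =
      ((∑ i ∈ Finset.range n, hζ.toInteger ^ i) - ((n : 𝓞 K) - (n.choose 2 : 𝓞 K) * lam hζ +
          (n.choose 3 : 𝓞 K) * lam hζ ^ 2)) +
      (hζ.toInteger ^ n - (1 - (n : 𝓞 K) * lam hζ + (n.choose 2 : 𝓞 K) * lam hζ ^ 2)) := by
      rw [Nat.choose_succ_succ' n 1, Nat.choose_succ_succ' n 2, Nat.choose_one_right]
      push_cast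
      ring
    rw [e]
    exact dvd_add ih (key n)

lemma hasLog_geom_sum (hp : 5 ≤ p) (c : (ZMod p)ˣ) :
    HasLog hζ (∑ i ∈ Finset.range (c : ZMod p).val, hζ.toInteger ^ i)
      (-((c : ZMod p) - 1) / 2) (((c : ZMod p) - 1) * ((c : ZMod p) - 5) / 12) := by
  set n := (c : ZMod p).val
  have hn : (n : ZMod p) = (c : ZMod p) := ZMod.natCast_zmod_val _
  have h2 : (2 : ZMod p) ≠ 0 := by
    intro h
    have := (ZMod.natCast_eq_zero_iff 2 p).mp (mod_cast h)  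
    have := Nat.le_of_dvd two_pos this; omega
  have h3 : (3 : ZMod p) ≠ 0 := by
    intro h
    have := (ZMod.natCast_eq_zero_iff 3 p).mp (mod_cast h)
    have := Nat.le_of_dvd three_pos this; omega
  have e2 : ((n.choose 2 : ℕ) : ZMod p) = (c : ZMod p) * ((c : ZMod p) - 1) / 2 := by
    have h := congrArg (Nat.cast : ℕ → ZMod p) (Nat.descFactorial_eq_factorial_mul_choose n 2)
    rw [show Nat.factorial 2 = 2 by rfl] at h
    rcases n with _ | m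
    · simp at hn; exact absurd hn.symm c.ne_zero
    · simp [Nat.descFactorial, ← hn] at h ⊢
      rw [eq_div_iff h2]
      linear_combination -h
  have e3 : ((n.choose 3 : ℕ) : ZMod p) =
      (c : ZMod p) * ((c : ZMod p) - 1) * ((c : ZMod p) - 2) / 6 := by
    have h6 : (6 : ZMod p) ≠ 0 := by
      rw [show (6 : ZMod p) = 2 * 3 by norm_num]; exact mul_ne_zero h2 h3
    rcases n with _ | _ | m
    · simp at hn; exact absurd hn.symm c.ne_zero
    · simp at hn; simp [← hn, Nat.choose_eq_zero_of_lt]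
    · have h := congrArg (Nat.cast : ℕ → ZMod p)
        (Nat.descFactorial_eq_factorial_mul_choose (m + 2) 3)
      rw [show Nat.factorial 3 = 6 by rfl] at h
      simp [Nat.descFactorial, ← hn] at h ⊢
      rw [eq_div_iff h6]
      linear_combination -h
  refine ⟨n, -(n.choose 2 : ℤ), n.choose 3, ?_, ?_, ?_, ?_⟩
  · simp [hn]
  · push_cast; rw [hn, e2]; field_simp
  · push_cast
    rw [hn, e3]
    have h12 : (12 : ZMod p) ≠ 0 := by
      rw [show (12 : ZMod p) = 2 * 2 * 3 by norm_num]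
      exact mul_ne_zero (mul_ne_zero h2 h2) h3
    have h6 : (6 : ZMod p) ≠ 0 := by
      rw [show (6 : ZMod p) = 2 * 3 by norm_num]; exact mul_ne_zero h2 h3
    field_simp
    ring
  · push_cast
    simpa [sub_eq_add_neg] using geom_sum_expansion hζ n

/-- The cyclotomic unit `(1 - ζ ^ c) / (1 - ζ)`. -/
noncomputable def xiUnit (c : (ZMod p)ˣ) : (𝓞 K)ˣ :=
  (hζ.toInteger_isPrimitiveRoot.geom_sum_isUnit (Fact.out : p.Prime).two_le
    (ZMod.val_coe_unit_coprime c)).unit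

lemma coe_xiUnit (c : (ZMod p)ˣ) :
    (xiUnit hζ c : 𝓞 K) = ∑ i ∈ Finset.range (c : ZMod p).val, hζ.toInteger ^ i := rfl

lemma xiUnit_mul_lam (c : (ZMod p)ˣ) :
    (xiUnit hζ c : 𝓞 K) * lam hζ = 1 - hζ.toInteger ^ (c : ZMod p).val := by
  rw [coe_xiUnit, lam, geom_sum_mul_neg]

/-- The exponent `(c⁻¹)²` lifted to a natural number. -/
def etaExp (c : (ZMod p)ˣ) : ℕ := (((c⁻¹ : (ZMod p)ˣ) : ZMod p) ^ 2).val

/-- The cyclotomic unit in the `ω²`-eigenspace. -/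
noncomputable def etaUnit : (𝓞 K)ˣ := ∏ c : (ZMod p)ˣ, xiUnit hζ c ^ etaExp c

lemma sum_units_pow_eq_zero {i : ℕ} (hi : ¬ p - 1 ∣ i) :
    ∑ c : (ZMod p)ˣ, (c : ZMod p) ^ i = 0 := by
  have h := FiniteField.sum_pow_units (K := ZMod p) i
  rwa [ZMod.card, if_neg hi] at h

lemma sum_inv_pow_eq_zero {i : ℕ} (hi : ¬ p - 1 ∣ i) :
    ∑ c : (ZMod p)ˣ, ((c⁻¹ : (ZMod p)ˣ) : ZMod p) ^ i = 0 := by
  rw [← sum_units_pow_eq_zero hi]
  exact Equiv.sum_comp (Equiv.inv (ZMod p)ˣ) fun c => (c : ZMod p) ^ i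

/-- The logarithm of `η`: `A = 0`, `L = -1/12`. -/
lemma hasLog_etaUnit (hp : 5 ≤ p) : HasLog hζ (etaUnit hζ : 𝓞 K) 0 (-1 / 12) := by
  have h := HasLog.prod hζ Finset.univ fun (c : (ZMod p)ˣ) _ =>
    (hasLog_geom_sum hζ hp c).pow hζ (etaExp c)
  have hcast : ∀ c : (ZMod p)ˣ,
      (etaExp c : ZMod p) = ((c⁻¹ : (ZMod p)ˣ) : ZMod p) ^ 2 := fun c => ZMod.natCast_zmod_val _
  have hS1 : ∑ c : (ZMod p)ˣ, ((c⁻¹ : (ZMod p)ˣ) : ZMod p) = 0 := by
    have := sum_inv_pow_eq_zero (p := p) (i := 1) (fun hd => by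
      have := Nat.le_of_dvd one_pos hd; omega)
    simp only [pow_one] at this
    exact this
  have hS2 : ∑ c : (ZMod p)ˣ, ((c⁻¹ : (ZMod p)ˣ) : ZMod p) ^ 2 = 0 :=
    sum_inv_pow_eq_zero fun hd => by have := Nat.le_of_dvd two_pos hd; omega
  have hS0 : ∑ _c : (ZMod p)ˣ, (1 : ZMod p) = -1 := by
    rw [Finset.sum_const, Finset.card_univ, ZMod.card_units_eq_totient,
      Nat.totient_prime (Fact.out : p.Prime), nsmul_eq_mul, mul_one,
      Nat.cast_sub (by omega : 1 ≤ p), ZMod.natCast_self, Nat.cast_one, zero_sub]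
  have hA : ∑ c : (ZMod p)ˣ, (etaExp c : ZMod p) * (-((c : ZMod p) - 1) / 2) = 0 := by
    have e : ∀ c : (ZMod p)ˣ, (etaExp c : ZMod p) * (-((c : ZMod p) - 1) / 2) =
        (-1 / 2) * ((c⁻¹ : (ZMod p)ˣ) : ZMod p) + (1 / 2) * ((c⁻¹ : (ZMod p)ˣ) : ZMod p) ^ 2 := by
      intro c
      have hc : ((c⁻¹ : (ZMod p)ˣ) : ZMod p) * (c : ZMod p) = 1 := by
        rw [← Units.val_mul, inv_mul_cancel, Units.val_one]
      rw [hcast]
      linear_combination (-((c⁻¹ : (ZMod p)ˣ) : ZMod p) / 2) * hc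
    simp only [e, Finset.sum_add_distrib, ← Finset.mul_sum, hS1, hS2]
    ring
  have hL : ∑ c : (ZMod p)ˣ,
      (etaExp c : ZMod p) * (((c : ZMod p) - 1) * ((c : ZMod p) - 5) / 12) = -1 / 12 := by
    have e : ∀ c : (ZMod p)ˣ, (etaExp c : ZMod p) * (((c : ZMod p) - 1) * ((c : ZMod p) - 5) / 12) =
        (1 / 12) * 1 + ((-6) / 12) * ((c⁻¹ : (ZMod p)ˣ) : ZMod p) +
          (5 / 12) * ((c⁻¹ : (ZMod p)ˣ) : ZMod p) ^ 2 := by
      intro c
      have hc : ((c⁻¹ : (ZMod p)ˣ) : ZMod p) * (c : ZMod p) = 1 := by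
        rw [← Units.val_mul, inv_mul_cancel, Units.val_one]
      rw [hcast]
      linear_combination ((((c⁻¹ : (ZMod p)ˣ) : ZMod p) * (c : ZMod p) + 1 -
        6 * ((c⁻¹ : (ZMod p)ˣ) : ZMod p)) / 12) * hc
    simp only [e, Finset.sum_add_distrib, ← Finset.mul_sum, hS1, hS2, hS0]
    ring
  rw [hA, hL] at h
  convert h using 1
  simp only [etaUnit, Units.coe_prod, Units.val_pow_eq_pow_val, coe_xiUnit]

end FermatLib.CFT.ExtVanish
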