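import Fermat.Agent.CFT.S14.ClassZeta
import Mathlib.Analysis.Normed.Group.Tannery
import Mathlib.RingTheory.DedekindDomain.Factorization
import Mathlib.RingTheory.RootsOfUnity.Complex

/-!
# Euler products for characters of ideals, in the form needed for density bounds
-/

set_option autoImplicit false

namespace FermatLib.CFT.PartialZeta

open NumberField IsDedekindDomain Filter Topology Finset
open scoped nonZeroDivisors Classical

variable {K : Type*} [Field K] [NumberField K]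

/-- A prime as a nonzero ideal. -/
noncomputable def primeOf (v : HeightOneSpectrum (𝓞 K)) : (Ideal (𝓞 K))⁰ :=
  ⟨v.asIdeal, mem_nonZeroDivisors_of_ne_zero v.ne_bot⟩

@[simp] lemma coe_primeOf (v : HeightOneSpectrum (𝓞 K)) : (primeOf v : Ideal (𝓞 K)) = v.asIdeal :=
  rfl

lemma idealTerm_primeOf (s : ℝ) (v : HeightOneSpectrum (𝓞 K)) :
    idealTerm s (primeOf v) = (Ideal.absNorm v.asIdeal : ℝ) ^ (-s) := rfl

lemma two_le_absNorm (v : HeightOneSpectrum (𝓞 K)) : 2 ≤ Ideal.absNorm v.asIdeal := by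
  have h0 : 0 < Ideal.absNorm v.asIdeal := absNorm_pos_of_nonZero (primeOf v)
  have h1 : Ideal.absNorm v.asIdeal ≠ 1 := fun h =>
    v.isPrime.ne_top (Ideal.absNorm_eq_one_iff.mp h)
  omega

lemma idealTerm_primeOf_le_half {s : ℝ} (hs : 1 ≤ s) (v : HeightOneSpectrum (𝓞 K)) :
    idealTerm s (primeOf v) ≤ 1 / 2 := by
  have h2 : (2 : ℝ) ≤ (Ideal.absNorm v.asIdeal : ℝ) := mod_cast two_le_absNorm v
  rw [idealTerm_primeOf, Real.rpow_neg (Nat.cast_nonneg _), one_div]
  refine inv_anti₀ two_pos (h2.trans ?_)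
  exact Real.self_le_rpow_of_one_le (by linarith) hs

/-- The ideals supported on a finite set of primes. -/
def supportedOn (S : Finset (HeightOneSpectrum (𝓞 K))) : Set (Ideal (𝓞 K))⁰ :=
  {a | ∀ v : HeightOneSpectrum (𝓞 K), v.asIdeal ∣ (a : Ideal (𝓞 K)) → v ∈ S}

lemma supportedOn_empty : supportedOn (∅ : Finset (HeightOneSpectrum (𝓞 K))) = {1} := by
  ext a
  simp only [supportedOn, Finset.notMem_empty, imp_false, Set.mem_ofPred_eq, Set.mem_singleton_iff]
  constructor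
  · intro h
    by_contra ha
    have hne : (a : Ideal (𝓞 K)) ≠ ⊤ := fun ht => ha (Subtype.ext (ht.trans Ideal.one_eq_top.symm))
    obtain ⟨M, hM, haM⟩ := Ideal.exists_le_maximal _ hne
    have hM0 : M ≠ ⊥ := fun h0 => nonZeroDivisors.coe_ne_zero a (le_bot_iff.mp (h0 ▸ haM))
    exact h ⟨M, hM.isPrime, hM0⟩ (Ideal.dvd_iff_le.mpr haM)
  · rintro rfl v hv
    exact v.isPrime.ne_top (Ideal.isUnit_iff.mp (isUnit_of_dvd_one hv))

lemma primeOf_pow_mul_inj {v : HeightOneSpectrum (𝓞 K)} {n m : ℕ} {a b : (Ideal (𝓞 K))⁰}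
    (ha : ¬ v.asIdeal ∣ (a : Ideal (𝓞 K))) (hb : ¬ v.asIdeal ∣ (b : Ideal (𝓞 K)))
    (h : primeOf v ^ n * a = primeOf v ^ m * b) : n = m ∧ a = b := by
  have key : ∀ {n m : ℕ} {a b : (Ideal (𝓞 K))⁰}, ¬ v.asIdeal ∣ (a : Ideal (𝓞 K)) →
      primeOf v ^ n * a = primeOf v ^ m * b → m ≤ n := by
    intro n m a b ha h
    by_contra hlt
    apply ha
    have h' : v.asIdeal ^ n * (a : Ideal (𝓞 K)) = v.asIdeal ^ m * (b : Ideal (𝓞 K)) :=
      congrArg Subtype.val h
    obtain ⟨k, rfl⟩ := Nat.exists_eq_add_of_lt (not_le.mp hlt)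
    rw [add_assoc, pow_add, mul_assoc] at h'
    rw [mul_left_cancel₀ (pow_ne_zero _ v.ne_bot) h']
    exact dvd_mul_of_dvd_left (dvd_pow_self _ k.succ_ne_zero) _
  obtain rfl : n = m := le_antisymm (key hb h.symm) (key ha h)
  exact ⟨rfl, mul_left_cancel h⟩

lemma supportedOn_insert {v : HeightOneSpectrum (𝓞 K)} {S : Finset (HeightOneSpectrum (𝓞 K))}
    (a : (Ideal (𝓞 K))⁰) :
    a ∈ supportedOn (insert v S) →
      ∃ (n : ℕ) (b : (Ideal (𝓞 K))⁰), ¬ v.asIdeal ∣ (b : Ideal (𝓞 K)) ∧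
        b ∈ supportedOn S ∧ primeOf v ^ n * b = a := by
  intro ha
  obtain ⟨n, c, hc, hac⟩ := WfDvdMonoid.max_power_factor (nonZeroDivisors.coe_ne_zero a)
    v.irreducible
  have hc0 : c ≠ 0 := fun h => nonZeroDivisors.coe_ne_zero a (by rw [hac, h, mul_zero])
  refine ⟨n, ⟨c, mem_nonZeroDivisors_of_ne_zero hc0⟩, hc, fun w hw => ?_, Subtype.ext hac.symm⟩
  rcases Finset.mem_insert.mp (ha w (hac ▸ dvd_mul_of_dvd_right hw _)) with rfl | h
  · exact absurd hw hc
  · exact h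

/-- The Dirichlet term of a character. -/
noncomputable def charTerm (χ : (Ideal (𝓞 K))⁰ →* ℂ) (s : ℝ) (a : (Ideal (𝓞 K))⁰) : ℂ :=
  χ a * (idealTerm s a : ℂ)

lemma charTerm_one (χ : (Ideal (𝓞 K))⁰ →* ℂ) (s : ℝ) : charTerm χ s 1 = 1 := by
  simp [charTerm, idealTerm]

lemma charTerm_mul (χ : (Ideal (𝓞 K))⁰ →* ℂ) (s : ℝ) (a b : (Ideal (𝓞 K))⁰) :
    charTerm χ s (a * b) = charTerm χ s a * charTerm χ s b := by
  simp only [charTerm, map_mul, idealTerm_mul, Complex.ofReal_mul]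
  ring

lemma charTerm_pow (χ : (Ideal (𝓞 K))⁰ →* ℂ) (s : ℝ) (a : (Ideal (𝓞 K))⁰) (n : ℕ) :
    charTerm χ s (a ^ n) = charTerm χ s a ^ n := by
  induction n with
  | zero => simp [charTerm_one]
  | succ n ih => rw [pow_succ, pow_succ, charTerm_mul, ih]

lemma norm_charTerm_le {χ : (Ideal (𝓞 K))⁰ →* ℂ} (hχ : ∀ a, ‖χ a‖ ≤ 1) (s : ℝ)
    (a : (Ideal (𝓞 K))⁰) : ‖charTerm χ s a‖ ≤ idealTerm s a := by
  rw [charTerm, norm_mul, Complex.norm_real, Real.norm_eq_abs, abs_of_nonneg (idealTerm_nonneg s a)]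
  exact mul_le_of_le_one_left (idealTerm_nonneg s a) (hχ a)

lemma summable_charTerm {χ : (Ideal (𝓞 K))⁰ →* ℂ} (hχ : ∀ a, ‖χ a‖ ≤ 1) {s : ℝ} (hs : 1 < s)
    (hs2 : s ≤ 2) : Summable (charTerm χ s) :=
  Summable.of_norm_bounded (summable_idealTerm hs hs2) (norm_charTerm_le hχ s)

lemma hasSum_supportedOn {χ : (Ideal (𝓞 K))⁰ →* ℂ} (hχ : ∀ a, ‖χ a‖ ≤ 1) {s : ℝ} (hs : 1 < s)
    (hs2 : s ≤ 2) (S : Finset (HeightOneSpectrum (𝓞 K))) :
    HasSum ((supportedOn S).indicator (charTerm χ s))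
      (∏ v ∈ S, (1 - charTerm χ s (primeOf v))⁻¹) := by
  induction S using Finset.induction_on with
  | empty =>
    rw [supportedOn_empty, Finset.prod_empty]
    have h := hasSum_single (α := ℂ) (f := ({1} : Set (Ideal (𝓞 K))⁰).indicator (charTerm χ s)) 1
      fun a ha => Set.indicator_of_notMem (by simpa using ha) _
    rwa [Set.indicator_of_mem (Set.mem_singleton _), charTerm_one] at h
  | insert v S hv ih =>
    rw [Finset.prod_insert hv, ← hasSum_subtype_iff_indicator]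
    have hsupp : ∀ b : supportedOn S, ¬ v.asIdeal ∣ ((b : (Ideal (𝓞 K))⁰) : Ideal (𝓞 K)) :=
      fun b hb => hv (b.2 v hb)
    have hmem : ∀ (n : ℕ) (b : supportedOn S),
        primeOf v ^ n * (b : (Ideal (𝓞 K))⁰) ∈ supportedOn (insert v S) := fun n b w hw => by
      rw [Submonoid.coe_mul, SubmonoidClass.coe_pow, coe_primeOf] at hw
      rcases w.prime.dvd_or_dvd hw with h | h
      · refine Finset.mem_insert.mpr (Or.inl ?_)
        have h2 := w.prime.dvd_of_dvd_pow h
        exact HeightOneSpectrum.ext (v.isMaximal.eq_of_le w.isPrime.ne_top (Ideal.le_of_dvd h2)).symm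
      · exact Finset.mem_insert_of_mem (b.2 w h)
    let e : ℕ × supportedOn S → supportedOn (insert v S) := fun nb => ⟨_, hmem nb.1 nb.2⟩
    have he : Function.Bijective e := by
      refine ⟨fun x y h => ?_, fun a => ?_⟩
      · obtain ⟨h1, h2⟩ := primeOf_pow_mul_inj (hsupp x.2) (hsupp y.2) (congrArg Subtype.val h)
        exact Prod.ext h1 (Subtype.ext h2)
      · obtain ⟨n, b, -, hbS, hab⟩ := supportedOn_insert (a : (Ideal (𝓞 K))⁰) a.2
        exact ⟨(n, ⟨b, hbS⟩), Subtype.ext hab⟩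
    refine (Equiv.ofBijective e he).hasSum_iff.mp ?_
    have hlt : ‖charTerm χ s (primeOf v)‖ < 1 :=
      ((norm_charTerm_le hχ s _).trans (idealTerm_primeOf_le_half hs.le v)).trans_lt (by norm_num)
    have hgeo := hasSum_geometric_of_norm_lt_one hlt
    have hb := (hasSum_subtype_iff_indicator (s := supportedOn S) (f := charTerm χ s)).mpr ih
    have hprod : Summable fun nb : ℕ × supportedOn S =>
        charTerm χ s (primeOf v) ^ nb.1 * charTerm χ s nb.2 := by
      refine ((summable_charTerm hχ hs hs2).comp_injective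
        (Subtype.val_injective.comp he.1)).congr fun nb => ?_
      simp [e, charTerm_mul, charTerm_pow]
    exact (hgeo.mul hb hprod).congr_fun fun nb => by simp [e, charTerm_mul, charTerm_pow]

/-- The Euler product of a bounded character. -/
theorem tendsto_eulerProduct {χ : (Ideal (𝓞 K))⁰ →* ℂ} (hχ : ∀ a, ‖χ a‖ ≤ 1) {s : ℝ} (hs : 1 < s)
    (hs2 : s ≤ 2) :
    Tendsto (fun S : Finset (HeightOneSpectrum (𝓞 K)) =>
      ∏ v ∈ S, (1 - charTerm χ s (primeOf v))⁻¹) atTop (𝓝 (∑' a, charTerm χ s a)) := by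
  simp only [← (hasSum_supportedOn hχ hs hs2 _).tsum_eq]
  refine tendsto_tsum_of_dominated_convergence (summable_idealTerm hs hs2) (fun a => ?_)
    (Eventually.of_forall fun S a => ?_)
  · have hfin := Ideal.finite_factors (nonZeroDivisors.coe_ne_zero a)
    refine tendsto_const_nhds.congr' ((eventually_ge_atTop hfin.toFinset).mono fun S hS => ?_)
    show _ = (supportedOn S).indicator (charTerm χ s) a
    rw [Set.indicator_of_mem]
    exact fun v hv => hS (hfin.mem_toFinset.mpr hv)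
  · exact (norm_indicator_le_norm_self _ _).trans (norm_charTerm_le hχ s a)

/-- `∏ (1 - ω ^ j x) = 1 - x ^ p` in absolute value for a root of unity `ω ≠ 1` of order `p`. -/
lemma norm_prod_one_sub_le_one {p : ℕ} (hp : p.Prime) {ω : ℂ} (hω : ω ^ p = 1) (hω1 : ω ≠ 1)
    {x : ℝ} (hx0 : 0 ≤ x) (hx1 : x ≤ 1) :
    ‖∏ j ∈ Finset.range p, (1 - ω ^ j * (x : ℂ))‖ ≤ 1 := by
  have hprim : IsPrimitiveRoot ω p := by
    rw [IsPrimitiveRoot.iff_orderOf]
    have := Fact.mk hp
    exact orderOf_eq_prime hω hω1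
  have h : ∏ j ∈ Finset.range p, (1 - ω ^ j * (x : ℂ)) = 1 - (x : ℂ) ^ p := by
    have h1 := hprim.pow_sub_pow_eq_prod_sub_mul 1 (x : ℂ) hp.pos
    rw [one_pow] at h1
    rw [h1]
    have hinj : Set.InjOn (ω ^ ·) (Finset.range p : Set ℕ) := by
      intro i hi j hj hij
      exact hprim.pow_inj (by simpa using hi) (by simpa using hj) hij
    refine Finset.prod_nbij (ω ^ ·) (fun j _ => ?_) hinj (fun b hb => ?_) fun j _ => by rfl
    · rw [Polynomial.mem_nthRootsFinset hp.pos, ← pow_mul, mul_comm, pow_mul, hω, one_pow]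
    · rw [Finset.mem_coe, Polynomial.mem_nthRootsFinset hp.pos] at hb
      have : NeZero p := ⟨hp.ne_zero⟩
      obtain ⟨i, hi, rfl⟩ := hprim.eq_pow_of_pow_eq_one hb
      exact ⟨i, by simpa using hi, rfl⟩
  rw [h, ← Complex.ofReal_pow, ← Complex.ofReal_one, ← Complex.ofReal_sub, Complex.norm_real,
    Real.norm_eq_abs, abs_le]
  have : x ^ p ≤ 1 := pow_le_one₀ hx0 hx1
  constructor <;> linarith [pow_nonneg hx0 p]

/-- Lower bound for the product of the `L`-values of the powers of a character of order `p`. -/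
theorem prod_norm_tsum_ge {p : ℕ} (hp : p.Prime) {χ : (Ideal (𝓞 K))⁰ →* ℂ}
    (hχ : ∀ a, χ a ^ p = 1) {s : ℝ} (hs : 1 < s) (hs2 : s ≤ 2)
    (T : Finset (HeightOneSpectrum (𝓞 K))) (hT : ∀ v ∈ T, χ (primeOf v) = 1) :
    Real.exp ((p : ℝ) * ∑ v ∈ T, idealTerm s (primeOf v)) ≤
      ∏ j ∈ Finset.range p, ‖∑' a, charTerm (χ ^ j) s a‖ := by
  have hn : ∀ (j : ℕ) a, ‖(χ ^ j) a‖ ≤ 1 := fun j a => by
    have h1 : ‖χ a‖ = 1 := Complex.norm_eq_one_of_pow_eq_one (hχ a) hp.ne_zero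
    rw [show (χ ^ j) a = χ a ^ j by rfl, norm_pow, h1, one_pow]
  refine ge_of_tendsto (tendsto_finsetProd _ fun j _ =>
    (tendsto_eulerProduct (hn j) hs hs2).norm) ((eventually_ge_atTop T).mono fun S hS => ?_)
  simp only [norm_prod, norm_inv]
  rw [Finset.prod_comm, Finset.mul_sum, Real.exp_sum]
  have hone : ∀ v ∈ S, v ∉ T →
      1 ≤ ∏ j ∈ Finset.range p, ‖1 - charTerm (χ ^ j) s (primeOf v)‖⁻¹ := by
    intro v _ _
    have hx0 := idealTerm_nonneg s (primeOf v)
    have hx1 : idealTerm s (primeOf v) ≤ 1 :=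
      (idealTerm_primeOf_le_half hs.le v).trans (by norm_num)
    rcases eq_or_ne (χ (primeOf v)) 1 with h | h
    · refine Finset.one_le_prod fun j _ => ?_
      have hlt : idealTerm s (primeOf v) ≤ 1 / 2 := idealTerm_primeOf_le_half hs.le v
      rw [charTerm, show (χ ^ j) (primeOf v) = χ (primeOf v) ^ j by rfl, h, one_pow, one_mul,
        ← Complex.ofReal_one, ← Complex.ofReal_sub, Complex.norm_real, Real.norm_eq_abs,
        abs_of_nonneg (by linarith)]
      exact one_le_inv_iff₀.mpr ⟨by linarith, by linarith⟩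
    · rw [Finset.prod_inv_distrib, one_le_inv_iff₀, ← norm_prod]
      refine ⟨norm_pos_iff.mpr (Finset.prod_ne_zero_iff.mpr fun j _ h0 => ?_), ?_⟩
      · have h1 : ‖charTerm (χ ^ j) s (primeOf v)‖ ≤ 1 / 2 :=
          (norm_charTerm_le (hn j) s _).trans (idealTerm_primeOf_le_half hs.le v)
        rw [← sub_eq_zero.mp h0, norm_one] at h1
        norm_num at h1
      · exact norm_prod_one_sub_le_one hp (hχ _) h hx0 hx1
  refine le_trans ?_ (Finset.prod_le_prod_of_subset_of_one_le hS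
    (fun v _ => Finset.prod_nonneg fun j _ => by positivity) hone)
  refine Finset.prod_le_prod (fun v _ => (Real.exp_pos _).le) fun v hv => ?_
  rw [Real.exp_nat_mul]
  refine (pow_le_pow_left₀ (Real.exp_pos _).le ?_ p).trans
    (le_of_eq (?_ : (1 - idealTerm s (primeOf v))⁻¹ ^ p = _))
  · have h1 := Real.one_sub_le_exp_neg (idealTerm s (primeOf v))
    have h2 : 0 < 1 - idealTerm s (primeOf v) := by
      linarith [idealTerm_primeOf_le_half hs.le v]
    rw [Real.exp_neg] at h1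
    exact (le_inv_comm₀ h2 (Real.exp_pos _)).mp h1
  · conv_lhs => rw [← Finset.card_range p, ← Finset.prod_const]
    refine Finset.prod_congr rfl fun j _ => ?_
    rw [charTerm, show (χ ^ j) (primeOf v) = χ (primeOf v) ^ j by rfl, hT v hv, one_pow, one_mul,
      ← Complex.ofReal_one, ← Complex.ofReal_sub, Complex.norm_real, Real.norm_eq_abs,
      abs_of_nonneg (by linarith [idealTerm_primeOf_le_half hs.le v])]

/-- `exp (∑_T N v ^ (-s)) ≤ ζ_K(s)`. -/
theorem exp_sum_le_zeta {s : ℝ} (hs : 1 < s) (hs2 : s ≤ 2)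
    (T : Finset (HeightOneSpectrum (𝓞 K))) :
    Real.exp (∑ v ∈ T, idealTerm s (primeOf v)) ≤ ∑' a : (Ideal (𝓞 K))⁰, idealTerm s a := by
  have h := tendsto_eulerProduct (K := K) (χ := 1) (fun a => by simp) hs hs2
  have hval : ∀ a : (Ideal (𝓞 K))⁰, charTerm 1 s a = (idealTerm s a : ℂ) := fun a => by
    simp [charTerm]
  simp only [hval, ← Complex.ofReal_one, ← Complex.ofReal_sub, ← Complex.ofReal_inv,
    ← Complex.ofReal_prod, ← Complex.ofReal_tsum] at h
  have h' := (Complex.continuous_re.tendsto _).comp h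
  simp only [Function.comp_def, Complex.ofReal_re] at h'
  refine ge_of_tendsto h' ((eventually_ge_atTop T).mono fun S hS => ?_)
  have hle : ∀ v : HeightOneSpectrum (𝓞 K), 0 < 1 - idealTerm s (primeOf v) := fun v => by
    linarith [idealTerm_primeOf_le_half hs.le v]
  rw [Real.exp_sum]
  refine le_trans (Finset.prod_le_prod (fun v _ => (Real.exp_pos _).le) fun v _ => ?_)
    (Finset.prod_le_prod_of_subset_of_one_le hS (fun v _ => (inv_pos.mpr (hle v)).le)
      fun v _ _ => one_le_inv_iff₀.mpr ⟨hle v, by linarith [idealTerm_nonneg s (primeOf v)]⟩)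
  have h1 := Real.one_sub_le_exp_neg (idealTerm s (primeOf v))
  rw [Real.exp_neg] at h1
  exact (le_inv_comm₀ (hle v) (Real.exp_pos _)).mp h1

/-- Below `ζ_K(s)` there is always a finite set of primes almost realising `log ζ_K(s)`. -/
theorem exists_finset_log_le {s : ℝ} (hs : 1 < s) (hs2 : s ≤ 2) {y : ℝ} (hy : 0 < y)
    (hyz : y < ∑' a : (Ideal (𝓞 K))⁰, idealTerm s a) :
    ∃ S : Finset (HeightOneSpectrum (𝓞 K)), Real.log y ≤
      ∑ v ∈ S, idealTerm s (primeOf v) + 2 * ∑ v ∈ S, idealTerm s (primeOf v) ^ 2 := by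
  have h := tendsto_eulerProduct (K := K) (χ := 1) (fun a => by simp) hs hs2
  have hval : ∀ a : (Ideal (𝓞 K))⁰, charTerm 1 s a = (idealTerm s a : ℂ) := fun a => by
    simp [charTerm]
  simp only [hval, ← Complex.ofReal_one, ← Complex.ofReal_sub, ← Complex.ofReal_inv,
    ← Complex.ofReal_prod, ← Complex.ofReal_tsum] at h
  have h' := (Complex.continuous_re.tendsto _).comp h
  simp only [Function.comp_def, Complex.ofReal_re] at h'
  obtain ⟨S, hS⟩ := (h'.eventually (eventually_gt_nhds hyz)).exists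
  refine ⟨S, ?_⟩
  rw [Finset.mul_sum, ← Finset.sum_add_distrib]
  refine (Real.log_le_log hy hS.le).trans ?_
  have hle : ∀ v : HeightOneSpectrum (𝓞 K), 0 < 1 - idealTerm s (primeOf v) := fun v => by
    linarith [idealTerm_primeOf_le_half hs.le v]
  rw [Real.log_prod fun v _ => (inv_pos.mpr (hle v)).ne']
  refine Finset.sum_le_sum fun v _ => ?_
  set x := idealTerm s (primeOf v)
  have hx := idealTerm_primeOf_le_half hs.le v
  refine (Real.log_le_sub_one_of_pos (inv_pos.mpr (hle v))).trans ?_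
  rw [← one_div, sub_le_iff_le_add, div_le_iff₀ (hle v)]
  nlinarith [mul_nonneg (sq_nonneg x) (sub_nonneg.mpr (hx.trans_eq rfl))]

end FermatLib.CFT.PartialZeta
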