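import Mathlib.RingTheory.DedekindDomain.Ideal.Lemmas
import Mathlib.RingTheory.ClassGroup.Basic
import Mathlib.RingTheory.Ideal.Operations

/-!
# Exponents of primes in ideals of a Dedekind domain
-/

set_option autoImplicit false

namespace FermatLib.CFT.ExtVanish

open IsDedekindDomain UniqueFactorizationMonoid
open scoped nonZeroDivisors Classical

variable {R : Type*} [CommRing R] [IsDedekindDomain R]

/-- The exponent of a prime in an ideal. -/
noncomputable def expn (v : HeightOneSpectrum R) (I : Ideal R) : ℕ :=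
  Multiset.count v.asIdeal (normalizedFactors I)

lemma expn_mul (v : HeightOneSpectrum R) {I J : Ideal R} (hI : I ≠ ⊥) (hJ : J ≠ ⊥) :
    expn v (I * J) = expn v I + expn v J := by
  rw [expn, expn, expn, normalizedFactors_mul hI hJ, Multiset.count_add]

lemma expn_pow (v : HeightOneSpectrum R) (I : Ideal R) (n : ℕ) :
    expn v (I ^ n) = n * expn v I := by
  rw [expn, expn, normalizedFactors_pow, Multiset.count_nsmul]

lemma expn_asIdeal (v w : HeightOneSpectrum R) :
    expn v w.asIdeal = if v = w then 1 else 0 := by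
  rw [expn, normalizedFactors_irreducible w.irreducible, normalize_eq]
  by_cases h : v = w
  · subst h; simp
  · rw [if_neg h, Multiset.count_singleton, if_neg fun h' => h (HeightOneSpectrum.ext h')]

lemma expn_prod {ι : Type*} (v : HeightOneSpectrum R) (s : Finset ι) (f : ι → Ideal R)
    (hf : ∀ i ∈ s, f i ≠ ⊥) : expn v (∏ i ∈ s, f i) = ∑ i ∈ s, expn v (f i) := by
  induction s using Finset.induction_on with
  | empty => rw [Finset.prod_empty, Finset.sum_empty, expn, normalizedFactors_one]; rfl
  | insert a t ha ih =>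
    rw [Finset.prod_insert ha, Finset.sum_insert ha, expn_mul v (hf a (Finset.mem_insert_self a t)),
      ih fun i hi => hf i (Finset.mem_insert_of_mem hi)]
    intro h
    obtain ⟨i, hi, hi0⟩ := Finset.prod_eq_zero_iff.mp (show ∏ i ∈ t, f i = 0 from h)
    exact hf i (Finset.mem_insert_of_mem hi) hi0

lemma pow_dvd_iff_le_expn (v : HeightOneSpectrum R) {I : Ideal R} (hI : I ≠ ⊥) (n : ℕ) :
    v.asIdeal ^ n ∣ I ↔ n ≤ expn v I := by
  rw [dvd_iff_normalizedFactors_le_normalizedFactors (pow_ne_zero n v.ne_bot) hI,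
    normalizedFactors_pow, normalizedFactors_irreducible v.irreducible, normalize_eq,
    Multiset.nsmul_singleton, ← Multiset.le_count_iff_replicate_le]
  rfl

lemma mem_pow_iff_le_expn (v : HeightOneSpectrum R) {x : R} (hx : x ≠ 0) (n : ℕ) :
    x ∈ v.asIdeal ^ n ↔ n ≤ expn v (Ideal.span {x}) := by
  rw [← Ideal.dvd_span_singleton]
  exact pow_dvd_iff_le_expn v (by simpa using hx) n

lemma dvd_iff_expn_pos (v : HeightOneSpectrum R) {I : Ideal R} (hI : I ≠ ⊥) :
    v.asIdeal ∣ I ↔ 0 < expn v I := by
  conv_lhs => rw [← pow_one v.asIdeal, pow_dvd_iff_le_expn v hI]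
  omega

/-- An ideal is determined by its exponents. -/
lemma eq_of_expn_eq {I J : Ideal R} (hI : I ≠ ⊥) (hJ : J ≠ ⊥)
    (h : ∀ v, expn v I = expn v J) : I = J := by
  rw [← associated_iff_eq]
  rw [associated_iff_normalizedFactors_eq_normalizedFactors hI hJ]
  ext P
  by_cases hP : Prime P
  · exact h ⟨P, Ideal.isPrime_of_prime hP, hP.ne_zero⟩
  · rw [Multiset.count_eq_zero.mpr fun hm => hP (prime_of_normalized_factor P hm),
      Multiset.count_eq_zero.mpr fun hm => hP (prime_of_normalized_factor P hm)]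

/-- An ideal all whose exponents are divisible by `p` is a `p`-th power. -/
lemma exists_eq_pow_of_dvd_expn {I : Ideal R} (hI : I ≠ ⊥) {p : ℕ} (hp : p ≠ 0)
    (h : ∀ v, p ∣ expn v I) : ∃ J : Ideal R, J ≠ ⊥ ∧ I = J ^ p := by
  obtain ⟨u, hu⟩ := Multiset.exists_smul_of_dvd_count (normalizedFactors I) (k := p) fun P hP => by
    have hPp := prime_of_normalized_factor P hP
    exact h ⟨P, Ideal.isPrime_of_prime hPp, hPp.ne_zero⟩
  have hpow : I = u.prod ^ p := by
    conv_lhs => rw [← Ideal.prod_normalizedFactors_eq_self hI, hu, Multiset.prod_nsmul]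
  exact ⟨u.prod, fun h0 => hI (by rw [hpow, h0, ← Ideal.zero_eq_bot, zero_pow hp]), hpow⟩

end FermatLib.CFT.ExtVanish
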