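import Fermat.Agent.CFT.S14.Core
import Mathlib.NumberTheory.RamificationInertia.Galois
import Mathlib.RingTheory.RamificationInertia.Ramification
import Mathlib.LinearAlgebra.LinearIndependent.Basic
import Mathlib.Algebra.CharP.Lemmas

/-!
# Kummer descent

An unramified `χ⁻¹`-eigen cyclic extension of `ℚ(ζ_p)` which is split at `p` gives a singular
`ω²`-eigen radicand which is locally a `p`-th power, hence is trivial.
-/

set_option autoImplicit false

namespace FermatLib.CFT.ExtVanish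

open NumberField IsDedekindDomain Ideal Finset
open scoped Classical Pointwise

variable {p : ℕ} [Fact p.Prime] {K : Type} [Field K] [NumberField K]
  [IsCyclotomicExtension {p} ℚ K] {ζ : K} (hζ : IsPrimitiveRoot ζ p)
  {L : Type} [Field L] [NumberField L] [Algebra K L] [IsGalois ℚ L]

/-- A Lagrange resolvent. -/
lemma exists_resolvent (ψ : (L ≃ₐ[K] L) →* K) :
    ∃ θ : 𝓞 L, θ ≠ 0 ∧ ∀ h : L ≃ₐ[K] L, h (θ : L) = algebraMap K L (ψ h) * (θ : L) := by
  have : FiniteDimensional K L := Module.Finite.of_restrictScalars_finite ℚ K L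
  have hne : ∃ x : L, ∑ h : L ≃ₐ[K] L, algebraMap K L (ψ h⁻¹) * h x ≠ 0 := by
    by_contra! hall
    have hli := (linearIndependent_monoidHom L L).comp
      (fun h : L ≃ₐ[K] L => (h : L ≃ₐ[K] L).toAlgHom.toRingHom.toMonoidHom)
      (fun g h e => AlgEquiv.ext fun x => DFunLike.congr_fun e x)
    have h1 := Fintype.linearIndependent_iff.mp hli (fun h => algebraMap K L (ψ h⁻¹)) (funext fun x => by
      simpa [Finset.sum_apply] using hall x) 1
    rw [inv_one, map_one, map_one] at h1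
    exact one_ne_zero h1
  obtain ⟨x, hx⟩ := hne
  set t := ∑ h : L ≃ₐ[K] L, algebraMap K L (ψ h⁻¹) * h x with ht
  obtain ⟨n, hn0, hn⟩ := ((IsFractionRing.isAlgebraic_iff ℤ ℚ L).mpr
    (Algebra.IsAlgebraic.isAlgebraic t)).exists_integral_multiple
  refine ⟨⟨n • t, hn⟩, fun h => ?_, fun g => ?_⟩
  · have := congrArg (fun y : 𝓞 L => (y : L)) h
    simp only [RingOfIntegers.map_mk, map_zero] at this
    exact smul_ne_zero hn0 hx this
  · simp only [RingOfIntegers.map_mk]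
    rw [map_zsmul, ht, map_sum, mul_smul_comm, Finset.mul_sum]
    congr 1
    refine Fintype.sum_equiv (Equiv.mulLeft g) _ _ fun h => ?_
    rw [Equiv.coe_mulLeft, map_mul, AlgEquiv.commutes, AlgEquiv.mul_apply, ← mul_assoc, ← map_mul]
    congr 2
    rw [mul_inv_rev, map_mul ψ, mul_left_comm, ← map_mul ψ g, mul_inv_cancel, map_one, mul_one]

/-- A prime with trivial inertia is unramified. -/
lemma expn_map_eq_one_of_inertia {v : HeightOneSpectrum (𝓞 K)} {Q : HeightOneSpectrum (𝓞 L)}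
    (hQ : Q.asIdeal.under (𝓞 K) = v.asIdeal)
    (hI : ∀ h : L ≃ₐ[K] L, (∀ x : 𝓞 L, h • x - x ∈ Q.asIdeal) → h = 1) :
    expn Q (v.asIdeal.map (algebraMap (𝓞 K) (𝓞 L))) = 1 := by
  have : IsGalois K L := IsGalois.tower_top_of_isGalois ℚ K L
  have : FiniteDimensional K L := Module.Finite.of_restrictScalars_finite ℚ K L
  have : IsGaloisGroup (L ≃ₐ[K] L) (𝓞 K) (𝓞 L) := IsGaloisGroup.of_isFractionRing _ _ _ K L
  have : Q.asIdeal.LiesOver v.asIdeal := ⟨hQ.symm⟩
  have := v.isMaximal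
  have := Q.isMaximal
  have hcard := card_inertia_eq_ramificationIdxIn (G := L ≃ₐ[K] L) v.asIdeal Q.asIdeal
  rw [ramificationIdxIn_eq_ramificationIdx v.asIdeal Q.asIdeal (L ≃ₐ[K] L),
    Ideal.IsDedekindDomain.ramificationIdx_eq_normalizedFactors_count v.asIdeal Q.asIdeal (map_ne_bot_of_ne_bot v.ne_bot),
    show Q.asIdeal.inertia (L ≃ₐ[K] L) = ⊥ from eq_bot_iff.mpr fun h hh =>
      Subgroup.mem_bot.mpr (hI h hh), Subgroup.card_bot] at hcard
  exact hcard.symm

/-- A prime with trivial decomposition group has the same norm as the prime below. -/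
lemma absNorm_eq_of_stabilizer {v : HeightOneSpectrum (𝓞 K)} {Q : HeightOneSpectrum (𝓞 L)}
    (hQ : Q.asIdeal.under (𝓞 K) = v.asIdeal)
    (hD : ∀ h : L ≃ₐ[K] L, h • Q.asIdeal = Q.asIdeal → h = 1) :
    absNorm Q.asIdeal ∣ absNorm v.asIdeal := by
  have : IsGalois K L := IsGalois.tower_top_of_isGalois ℚ K L
  have : FiniteDimensional K L := Module.Finite.of_restrictScalars_finite ℚ K L
  set P : (L ≃ₐ[K] L) → Ideal (𝓞 L) := fun h => h • Q.asIdeal with hP
  have hnorm : ∀ h, absNorm (P h) = absNorm Q.asIdeal := fun h => by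
    rw [absNorm_apply, absNorm_apply, Submodule.cardQuot_apply, Submodule.cardQuot_apply]
    exact Nat.card_congr (Ideal.quotientEquiv Q.asIdeal (h • Q.asIdeal)
      (MulSemiringAction.toRingEquiv _ _ h) (Ideal.pointwise_smul_def _).symm).toEquiv.symm
  have hdvd : ∏ h, P h ∣ v.asIdeal.map (algebraMap (𝓞 K) (𝓞 L)) := by
    refine Finset.prod_dvd_of_isRelPrime (fun a _ b _ hab => ?_) fun h _ => dvd_iff_le.mpr ?_
    · simp only [Function.onFun, hP]
      have ha : Prime (a • Q.asIdeal) := Ideal.prime_of_isPrime (fun h0 => Q.ne_bot (by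
        simpa using congrArg (a⁻¹ • ·) h0)) inferInstance
      rw [Irreducible.isRelPrime_iff_not_dvd ha.irreducible, dvd_iff_le]
      intro hle
      have hmax : (b • Q.asIdeal).IsMaximal := Ideal.IsPrime.isMaximal inferInstance fun h0 =>
        Q.ne_bot (by simpa using congrArg (b⁻¹ • ·) h0)
      have heq := hmax.eq_of_le (Ideal.IsPrime.ne_top inferInstance) hle
      have := hD (a⁻¹ * b) (by rw [mul_smul, heq, inv_smul_smul])
      exact hab (inv_mul_eq_one.mp this)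
    · rw [map_le_iff_le_comap, ← hQ]
      intro x hx
      rw [Ideal.mem_comap, hP]
      have : h • algebraMap (𝓞 K) (𝓞 L) x = algebraMap (𝓞 K) (𝓞 L) x :=
        RingOfIntegers.ext (h.commutes (x : K))
      rw [← this]
      exact Ideal.smul_mem_pointwise_smul _ _ _ hx
  have hn := map_dvd absNorm hdvd
  rw [absNorm_algebraMap, ← IsFractionRing.finrank_eq (𝓞 K) K (𝓞 L) L, map_prod,
    Finset.prod_congr rfl fun h _ => hnorm h, Finset.prod_const, Finset.card_univ,
    ← Nat.card_eq_fintype_card, IsGalois.card_aut_eq_finrank,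
    Nat.pow_dvd_pow_iff (Module.finrank_pos (R := K) (M := L)).ne'] at hn
  exact hn

include hζ in
/-- A power of a Kummer generator gives a singular eigen element. -/
lemma exists_singular (χ : (L ≃ₐ[ℚ] L) →* (ZMod p)ˣ)
    (hχ : ∀ s : L ≃ₐ[ℚ] L, s (algebraMap K L ζ) = algebraMap K L ζ ^ (χ s : ZMod p).val)
    (a : (L ≃ₐ[ℚ] L) → ZMod p) (ha : ∀ s t, a (s * t) = (χ t : ZMod p) * a s + a t)
    (hunr : ∀ (v : HeightOneSpectrum (𝓞 K)) (Q : HeightOneSpectrum (𝓞 L)),
      Q.asIdeal.under (𝓞 K) = v.asIdeal →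
      ∀ h : L ≃ₐ[K] L, (∀ x : 𝓞 L, h • x - x ∈ Q.asIdeal) → h = 1)
    {θ : 𝓞 L} (hθ0 : θ ≠ 0) (hθ : ∀ h : L ≃ₐ[K] L,
      h (θ : L) = algebraMap K L (ζ ^ (a (h.restrictScalars ℚ)).val) * (θ : L)) :
    ∃ α : 𝓞 K, α ≠ 0 ∧ algebraMap (𝓞 K) (𝓞 L) α = θ ^ p ∧ IsSingularEigen p α := by
  have : IsGalois K L := IsGalois.tower_top_of_isGalois ℚ K L
  have : FiniteDimensional K L := Module.Finite.of_restrictScalars_finite ℚ K L
  have hmemK : ∀ y : L, (∀ h : L ≃ₐ[K] L, h y = y) → ∃ k : K, algebraMap K L k = y := fun y hy =>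
    (IsGalois.mem_range_algebraMap_iff_fixed y).mpr hy
  have hθL : (θ : L) ≠ 0 := RingOfIntegers.coe_ne_zero_iff.mpr hθ0
  obtain ⟨k, hk⟩ := hmemK ((θ : L) ^ p) fun h => by
    rw [map_pow, hθ, mul_pow, ← map_pow, ← pow_mul ζ, mul_comm _ p, pow_mul ζ, hζ.pow_eq_one, one_pow,
      map_one, one_mul]
  have hki : IsIntegral ℤ k :=
    (isIntegral_algHom_iff (algebraMap K L).toIntAlgHom (algebraMap K L).injective).mp
      (by show IsIntegral ℤ (algebraMap K L k); rw [hk]; exact (RingOfIntegers.isIntegral_coe θ).pow p)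
  obtain ⟨α, rfl⟩ : ∃ α : 𝓞 K, (α : K) = k := ⟨⟨k, hki⟩, rfl⟩
  have hαθ : algebraMap (𝓞 K) (𝓞 L) α = θ ^ p :=
    RingOfIntegers.coe_injective (hk.trans (map_pow (algebraMap (𝓞 L) L) θ p).symm)
  have hα0 : α ≠ 0 := fun h => by
    rw [h, map_zero] at hαθ
    exact pow_ne_zero p hθ0 hαθ.symm
  refine ⟨α, hα0, hαθ, fun c => ?_, fun v => ?_⟩
  · -- equivariance
    obtain ⟨s, hs⟩ : ∃ s : L ≃ₐ[ℚ] L, ∀ x : K, s (algebraMap K L x) = algebraMap K L (sig p K c x) :=
      ⟨(sig p K c).liftNormal L, fun x => AlgEquiv.liftNormal_commutes _ L x⟩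
    have hχs : χ s = c := by
      have h1 := hs ζ
      rw [hχ, sig_apply_zeta hζ, map_pow] at h1
      exact Units.ext (ZMod.val_injective p
        ((hζ.map_of_injective (algebraMap K L).injective).pow_inj (ZMod.val_lt _) (ZMod.val_lt _) h1))
    set e := ((c : ZMod p) ^ 2).val with he
    obtain ⟨β, hβ⟩ := hmemK (s (θ : L) / (θ : L) ^ e) fun h => by
      set t : L ≃ₐ[ℚ] L := s⁻¹ * h.restrictScalars ℚ * s with ht
      have htK : ∀ x : K, t (algebraMap K L x) = algebraMap K L x := fun x => by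
        rw [ht, AlgEquiv.mul_apply, AlgEquiv.mul_apply, hs]
        show s⁻¹ (h _) = _
        rw [h.commutes, ← hs]
        exact s.symm_apply_apply _
      set t' : L ≃ₐ[K] L := AlgEquiv.ofRingEquiv (f := t.toRingEquiv) htK with ht'
      have ht'' : t'.restrictScalars ℚ = t := AlgEquiv.ext fun _ => rfl
      have hat : a t = (c : ZMod p) * a (h.restrictScalars ℚ) := by
        have h1 := ha s t
        rw [ht, ← mul_assoc, ← mul_assoc, mul_inv_cancel, one_mul, ha, hχs] at h1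
        have hχh : χ (h.restrictScalars ℚ) = 1 := by
          have h2 : h (algebraMap K L ζ) = algebraMap K L ζ := h.commutes ζ
          have h3 := hχ (h.restrictScalars ℚ)
          rw [AlgEquiv.restrictScalars_apply, h2] at h3
          conv_lhs at h3 => rw [← pow_one (algebraMap K L ζ)]
          have h4 := (hζ.map_of_injective (algebraMap K L).injective).pow_inj
            (Fact.out : p.Prime).one_lt (ZMod.val_lt _) h3
          exact Units.ext (ZMod.val_injective p (by rw [Units.val_one, ZMod.val_one, h4]))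
        rw [map_mul, map_mul, hχh, mul_one, ← map_mul, inv_mul_cancel, map_one, Units.val_one,
          one_mul] at h1
        rw [ht]
        linear_combination -h1
      have hst : h (s (θ : L)) = s (t' (θ : L)) := by
        show h (s θ) = s (t θ)
        rw [ht, AlgEquiv.mul_apply, AlgEquiv.mul_apply]
        exact (s.apply_symm_apply _).symm
      rw [map_div₀, map_pow, hst, hθ, hθ, ht'', hat, map_mul, hs, map_pow (sig p K c),
        sig_apply_zeta hζ, ← pow_mul, mul_pow, ← map_pow (algebraMap K L), ← pow_mul]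
      rw [pow_eq_pow_of_natCast_eq hζ.pow_eq_one (b := (a (h.restrictScalars ℚ)).val * e) (by
        simp only [Nat.cast_mul, ZMod.natCast_zmod_val, he]
        ring)]
      exact mul_div_mul_left _ _ (by simp [hζ.ne_zero (Fact.out : p.Prime).ne_zero])
    obtain ⟨x, y, hy, hxy⟩ := IsFractionRing.div_surjective (𝓞 K) β
    refine ⟨x, y, nonZeroDivisors.ne_zero hy, ?_⟩
    apply RingOfIntegers.coe_injective
    apply (algebraMap K L).injective
    have hy0 : algebraMap K L (y : K) ≠ 0 := by simp [nonZeroDivisors.ne_zero hy]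
    rw [← hxy, map_div₀, eq_comm, div_eq_div_iff (pow_ne_zero _ hθL) hy0] at hβ
    have hσ : algebraMap K L ((sig p K c • α : 𝓞 K) : K) = s (θ : L) ^ p := by
      rw [← map_pow, ← hk, hs]
      rfl
    simp only [map_mul, map_pow]
    rw [hσ, hk, ← mul_pow, hβ, mul_pow, ← pow_mul, ← pow_mul, mul_comm p e]
    ring
  · -- valuations
    obtain ⟨Q, hQ⟩ := exists_liesOver (F := L) v
    have h1 := expn_map v Q hQ (I := span {α}) (by simpa using hα0)
    rw [map_span, Set.image_singleton, hαθ, ← span_singleton_pow, expn_pow,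
      expn_map_eq_one_of_inertia hQ (hunr v Q hQ), mul_one] at h1
    exact ⟨_, h1.symm⟩

include hζ in
/-- Kummer descent: the cocycle vanishes on the Galois group of `K`. -/
theorem kummer_descent (hp3 : 3 ≤ p) (χ : (L ≃ₐ[ℚ] L) →* (ZMod p)ˣ)
    (hχ : ∀ s : L ≃ₐ[ℚ] L, s (algebraMap K L ζ) = algebraMap K L ζ ^ (χ s : ZMod p).val)
    (a : (L ≃ₐ[ℚ] L) → ZMod p) (ha : ∀ s t, a (s * t) = (χ t : ZMod p) * a s + a t)
    (hunr : ∀ Q : HeightOneSpectrum (𝓞 L), (p : 𝓞 L) ∉ Q.asIdeal →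
      ∀ h : L ≃ₐ[K] L, (∀ x : 𝓞 L, h • x - x ∈ Q.asIdeal) → h = 1)
    (hsplit : ∀ Q : HeightOneSpectrum (𝓞 L), (p : 𝓞 L) ∈ Q.asIdeal →
      ∀ h : L ≃ₐ[K] L, h • Q.asIdeal = Q.asIdeal → h = 1) :
    ∀ h : L ≃ₐ[K] L, a (h.restrictScalars ℚ) = 0 := by
  have : IsGalois K L := IsGalois.tower_top_of_isGalois ℚ K L
  have : FiniteDimensional K L := Module.Finite.of_restrictScalars_finite ℚ K L
  have hp0 : p ≠ 0 := by omega
  have hunr' : ∀ (v : HeightOneSpectrum (𝓞 K)) (Q : HeightOneSpectrum (𝓞 L)),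
      Q.asIdeal.under (𝓞 K) = v.asIdeal →
      ∀ h : L ≃ₐ[K] L, (∀ x : 𝓞 L, h • x - x ∈ Q.asIdeal) → h = 1 := fun v Q _ h hh => by
    by_cases hpQ : (p : 𝓞 L) ∈ Q.asIdeal
    · refine hsplit Q hpQ h ?_
      have hle : h • Q.asIdeal ≤ Q.asIdeal := by
        rw [Ideal.pointwise_smul_def, map_le_iff_le_comap]
        intro x hx
        rw [Ideal.mem_comap, MulSemiringAction.toRingHom_apply, ← sub_add_cancel (h • x) x]
        exact Q.asIdeal.add_mem (hh x) hx
      have : (h • Q.asIdeal).IsMaximal := Ideal.IsPrime.isMaximal inferInstance fun h0 =>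
        Q.ne_bot (by simpa using congrArg (h⁻¹ • ·) h0)
      exact this.eq_of_le Q.isPrime.ne_top hle
    · exact hunr Q hpQ h hh
  have hχ1 : ∀ h : L ≃ₐ[K] L, χ (h.restrictScalars ℚ) = 1 := fun h => by
    have h3 := hχ (h.restrictScalars ℚ)
    rw [AlgEquiv.restrictScalars_apply, h.commutes] at h3
    conv_lhs at h3 => rw [← pow_one (algebraMap K L ζ)]
    have h4 := (hζ.map_of_injective (algebraMap K L).injective).pow_inj
      (Fact.out : p.Prime).one_lt (ZMod.val_lt _) h3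
    exact Units.ext (ZMod.val_injective p (by rw [Units.val_one, ZMod.val_one, h4]))
  have hamul : ∀ g h : L ≃ₐ[K] L, a ((g * h).restrictScalars ℚ) =
      a (g.restrictScalars ℚ) + a (h.restrictScalars ℚ) := fun g h => by
    rw [show (g * h).restrictScalars ℚ = g.restrictScalars ℚ * h.restrictScalars ℚ from
      AlgEquiv.ext fun _ => rfl, ha, hχ1, Units.val_one, one_mul]
  have ha1 : a ((1 : L ≃ₐ[K] L).restrictScalars ℚ) = 0 := by
    have := hamul 1 1
    rwa [mul_one, left_eq_add] at this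
  let ψ : (L ≃ₐ[K] L) →* K :=
    { toFun := fun h => ζ ^ (a (h.restrictScalars ℚ)).val
      map_one' := by rw [ha1, ZMod.val_zero, pow_zero]
      map_mul' := fun g h => by
        rw [← pow_add]
        exact pow_eq_pow_of_natCast_eq hζ.pow_eq_one (by
          simp only [hamul, ZMod.natCast_zmod_val, Nat.cast_add]) }
  obtain ⟨θ, hθ0, hθ⟩ := exists_resolvent ψ
  obtain ⟨α, hα0, hαθ, hα⟩ := exists_singular hζ χ hχ a ha hunr' hθ0 hθ
  -- the prime above `p`
  let v : HeightOneSpectrum (𝓞 K) := ⟨span {lam hζ},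
    (span_singleton_prime (lam_ne_zero hζ)).mpr (lam_prime hζ), by simp [lam_ne_zero hζ]⟩
  have hpv : (p : 𝓞 K) ∈ v.asIdeal := mem_span_singleton.mpr
    ((dvd_pow_self _ (by omega)).trans (associated_lam_pow hζ).dvd)
  obtain ⟨m, hm⟩ := hα.expn_dvd v
  obtain ⟨α₁, hα₁⟩ : lam hζ ^ (p * m) ∣ α := by
    rw [← mem_span_singleton, ← span_singleton_pow]
    exact (mem_pow_iff_le_expn v hα0 _).mpr hm.ge
  have hlL : algebraMap (𝓞 K) (𝓞 L) (lam hζ) ≠ 0 :=
    (map_ne_zero_iff _ (FaithfulSMul.algebraMap_injective _ _)).mpr (lam_ne_zero hζ)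
  obtain ⟨θ₁, hθ₁⟩ : algebraMap (𝓞 K) (𝓞 L) (lam hζ) ^ m ∣ θ :=
    (IsIntegrallyClosed.pow_dvd_pow_iff hp0).mp ⟨algebraMap (𝓞 K) (𝓞 L) α₁, by
      rw [← hαθ, hα₁, map_mul, map_pow, ← pow_mul, mul_comm p m]⟩
  have hθ₁0 : θ₁ ≠ 0 := fun h => hθ0 (by rw [hθ₁, h, mul_zero])
  have hcoe : (θ : L) = algebraMap K L ((lam hζ : K) ^ m) * (θ₁ : L) := by
    show algebraMap (𝓞 L) L θ = _
    rw [hθ₁, map_mul, map_pow, map_pow]
    rfl
  have hψ : ∀ h : L ≃ₐ[K] L,
      h (θ₁ : L) = algebraMap K L (ζ ^ (a (h.restrictScalars ℚ)).val) * (θ₁ : L) := fun h => by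
    have h1 := hθ h
    rw [hcoe, map_mul, h.commutes] at h1
    refine mul_left_cancel₀ (a := algebraMap K L ((lam hζ : K) ^ m)) ?_ (h1.trans (mul_left_comm _ _ _))
    simp [lam_ne_zero hζ]
  obtain ⟨α', hα'0, hα'θ, hα'⟩ := exists_singular hζ χ hχ a ha hunr' hθ₁0 hψ
  have hα'1 : α' = α₁ := by
    apply FaithfulSMul.algebraMap_injective (𝓞 K) (𝓞 L)
    rw [hα'θ]
    refine mul_left_cancel₀ (pow_ne_zero (p * m) hlL) ?_
    rw [← map_pow, ← map_mul, ← hα₁, hαθ, hθ₁, mul_pow, ← pow_mul, map_pow, mul_comm m p]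
  subst hα'1
  have hlam : ¬ lam hζ ∣ α' := fun ⟨r, hr⟩ => by
    have : lam hζ ^ (p * m + 1) ∣ α := ⟨r, by rw [hα₁, hr, pow_succ, mul_assoc]⟩
    rw [← mem_span_singleton, ← span_singleton_pow] at this
    have := (mem_pow_iff_le_expn v hα0 _).mp this
    omega
  obtain ⟨Q, hQ⟩ := exists_liesOver (F := L) v
  have hpQ : (p : 𝓞 L) ∈ Q.asIdeal := by
    have : algebraMap (𝓞 K) (𝓞 L) (p : 𝓞 K) ∈ Q.asIdeal := by
      rw [← Ideal.mem_comap]
      exact hQ.ge hpv
    rwa [map_natCast] at this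
  have he1 : expn Q (v.asIdeal.map (algebraMap (𝓞 K) (𝓞 L))) = 1 :=
    expn_map_eq_one_of_inertia hQ (hunr' v Q hQ)
  have hNv : absNorm v.asIdeal = p := by
    show absNorm (span {lam hζ}) = p
    rw [span_lam, absNorm_span_singleton]
    have h := hζ.norm_toInteger_sub_one_of_prime_ne_two' (by omega)
    simp [h]
  obtain ⟨n, hn⟩ : ∃ n : ℤ, θ₁ - (n : 𝓞 L) ∈ Q.asIdeal := by
    have hQp : absNorm Q.asIdeal = p := by
      rcases (Nat.dvd_prime (Fact.out : p.Prime)).mp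
        (hNv ▸ absNorm_eq_of_stabilizer hQ (hsplit Q hpQ)) with h | h
      · exact absurd (absNorm_eq_one_iff.mp h) Q.isPrime.ne_top
      · exact h
    have hcard : Nat.card (𝓞 L ⧸ Q.asIdeal) = p := by
      rw [← Submodule.cardQuot_apply, ← absNorm_apply, hQp]
    have := Q.isMaximal
    let _ := Ideal.Quotient.field Q.asIdeal
    have : Finite (𝓞 L ⧸ Q.asIdeal) := Nat.finite_of_card_ne_zero (by omega)
    have : CharP (𝓞 L ⧸ Q.asIdeal) p := (CharP.charP_iff_prime_eq_zero Fact.out).mpr (by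
      rw [← map_natCast (Ideal.Quotient.mk Q.asIdeal), Ideal.Quotient.eq_zero_iff_mem]
      exact hpQ)
    obtain ⟨x, hx⟩ := ((Nat.bijective_iff_injective_and_card (ZMod.castHom dvd_rfl _)).mpr
      ⟨RingHom.injective _, by rw [hcard, Nat.card_zmod]⟩).2 (Ideal.Quotient.mk Q.asIdeal θ₁)
    refine ⟨(x.val : ℤ), ?_⟩
    rw [← Ideal.Quotient.eq, Int.cast_natCast, map_natCast, ← hx]
    conv_lhs => rw [← ZMod.natCast_zmod_val x, map_natCast]
  have hz : lam hζ ^ 3 ∣ α' - (n : 𝓞 K) ^ p := by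
    rcases eq_or_ne (α' - (n : 𝓞 K) ^ p) 0 with h0 | h0
    · rw [h0]; exact dvd_zero _
    rw [← mem_span_singleton, ← span_singleton_pow, mem_pow_iff_le_expn v h0]
    have h1 := expn_map v Q hQ (I := span {α' - (n : 𝓞 K) ^ p}) (by simpa using h0)
    rw [map_span, Set.image_singleton, he1, mul_one, map_sub, map_pow, map_intCast, hα'θ] at h1
    rw [← h1, ← mem_pow_iff_le_expn Q]
    · obtain ⟨r, hr⟩ := exists_add_pow_prime_eq (Fact.out : p.Prime) (n : 𝓞 L) (θ₁ - n)
      rw [add_sub_cancel] at hr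
      rw [show θ₁ ^ p - (n : 𝓞 L) ^ p =
        (θ₁ - n) ^ p + (p : 𝓞 L) * n * (θ₁ - n) * r by rw [hr]; ring]
      refine Ideal.pow_le_pow_right (I := Q.asIdeal) hp3 ?_
      refine Ideal.add_mem _ (Ideal.pow_mem_pow hn p) ?_
      have hpp : (p : 𝓞 L) * (θ₁ - n) ∈ Q.asIdeal ^ p := by
        rw [show p = (p - 1) + 1 by omega, pow_succ, show (p - 1) + 1 = p by omega]
        refine Ideal.mul_mem_mul ?_ hn
        rw [← map_natCast (algebraMap (𝓞 K) (𝓞 L))]
        have hlQ : algebraMap (𝓞 K) (𝓞 L) (lam hζ) ∈ Q.asIdeal :=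
          Ideal.mem_comap.mp (hQ.ge (mem_span_singleton_self _))
        obtain ⟨r', hr'⟩ := (associated_lam_pow hζ).dvd
        rw [hr', map_mul, map_pow]
        exact Ideal.mul_mem_right _ _ (Ideal.pow_mem_pow hlQ _)
      rw [show (p : 𝓞 L) * (n : 𝓞 L) * (θ₁ - n) * r = (p : 𝓞 L) * (θ₁ - n) * ((n : 𝓞 L) * r) by ring]
      exact Ideal.mul_mem_right _ _ hpp
    · rw [← map_intCast (algebraMap (𝓞 K) (𝓞 L)), ← hα'θ, ← map_pow, ← map_sub]
      exact (map_ne_zero_iff _ (FaithfulSMul.algebraMap_injective _ _)).mpr h0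
  obtain ⟨w, hw⟩ := exists_pow_of_singular_eigen hζ hp3 hα' hlam hz
  intro h
  have hθw : (θ₁ : L) ^ p = algebraMap K L w ^ p := by
    rw [← map_pow, ← map_pow, ← hα'θ, ← hw]
    rfl
  obtain ⟨i, -, hi⟩ := (hζ.map_of_injective (algebraMap K L).injective).eq_pow_of_pow_eq_one
    (ξ := (θ₁ : L) / algebraMap K L w) (by
      rw [div_pow, hθw, div_self]
      rw [← hθw]
      exact pow_ne_zero _ (RingOfIntegers.coe_ne_zero_iff.mpr hθ₁0))
  have hfix : h (θ₁ : L) = θ₁ := by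
    have hw0 : algebraMap K L w ≠ 0 := fun h0 => by
      rw [h0, zero_pow hp0] at hθw
      exact pow_ne_zero _ (RingOfIntegers.coe_ne_zero_iff.mpr hθ₁0) hθw
    rw [eq_div_iff hw0] at hi
    rw [← hi, map_mul, map_pow, h.commutes, h.commutes]
  rw [hψ, mul_eq_right₀ (RingOfIntegers.coe_ne_zero_iff.mpr hθ₁0), ← map_one (algebraMap K L),
    (algebraMap K L).injective.eq_iff, hζ.pow_eq_one_iff_dvd, ← ZMod.natCast_eq_zero_iff,
    ZMod.natCast_zmod_val] at hfix
  exact hfix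

end FermatLib.CFT.ExtVanish
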