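import Fermat.Agent.CFT.S14.Weight
import Mathlib.RingTheory.Ideal.Norm.AbsNorm
import Mathlib.RingTheory.Ideal.Quotient.HasFiniteQuotients

/-!
# Weighted lattice sums over ideals of a number field

`latticeSum K s J = ∑_{x ∈ J} g_s(x)`.  Sums over `J` and over `𝓞 K` differ, after scaling by
the index, by a bounded amount, uniformly for `s ∈ (1, 2]`; comparing `2 𝓞 K` with `𝓞 K` gives
`latticeSum ≍ 1 / (s - 1)`.
-/

set_option autoImplicit false

namespace FermatLib.CFT.PartialZeta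

open NumberField NumberField.InfinitePlace NumberField.Units NumberField.mixedEmbedding
  Module Finset

open scoped Classical

variable {K : Type*} [Field K] [NumberField K]

local notation "dK" => (Module.finrank ℚ K)

/-- The weight of an algebraic integer. -/
noncomputable def wgt (s : ℝ) (x : 𝓞 K) : ℝ := weightG K s (mixedEmbedding K (x : K))

/-- The weighted sum over an ideal. -/
noncomputable def latticeSum (s : ℝ) (J : Ideal (𝓞 K)) : ℝ := ∑' x : J, wgt s (x : 𝓞 K)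

lemma wgt_nonneg (s : ℝ) (x : 𝓞 K) : 0 ≤ wgt s x := weightG_nonneg _ _

@[simp] lemma wgt_zero (s : ℝ) : wgt s (0 : 𝓞 K) = 0 := by
  simp [wgt, weightG, mixedEmbedding.norm]

lemma embed_ne_zero {x : 𝓞 K} (hx : x ≠ 0) : mixedEmbedding K (x : K) ≠ 0 :=
  (map_ne_zero _).mpr (RingOfIntegers.coe_ne_zero_iff.mpr hx)

lemma mixedNorm_coe (x : 𝓞 K) :
    mixedEmbedding.norm (mixedEmbedding K (x : K)) =
      (Ideal.absNorm (Ideal.span {x}) : ℝ) := by
  rw [norm_eq_norm, Ideal.absNorm_span_singleton, Nat.cast_natAbs, ← Rat.cast_intCast,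
    Int.cast_abs, Algebra.coe_norm_int]

lemma one_le_mixedNorm {x : 𝓞 K} (hx : x ≠ 0) :
    1 ≤ mixedEmbedding.norm (mixedEmbedding K (x : K)) := by
  rw [mixedNorm_coe, Nat.one_le_cast, Nat.one_le_iff_ne_zero, Ne, Ideal.absNorm_eq_zero_iff,
    Ideal.span_singleton_eq_bot]
  exact hx

lemma one_le_norm_embed {x : 𝓞 K} (hx : x ≠ 0) : 1 ≤ ‖mixedEmbedding K (x : K)‖ := by
  by_contra h
  have h1 : mixedEmbedding.norm (mixedEmbedding K (x : K)) < 1 := by
    rw [mixedEmbedding.norm_apply]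
    obtain ⟨w⟩ := (inferInstance : Nonempty (InfinitePlace K))
    refine lt_of_le_of_lt (Finset.prod_le_prod (g := fun w => ‖mixedEmbedding K (x : K)‖ ^ mult w)
      (fun w _ => pow_nonneg (normAtPlace_nonneg _ _) _) fun w _ =>
        pow_le_pow_left₀ (normAtPlace_nonneg _ _) (normAtPlace_le_norm _ _) _) ?_
    rw [Finset.prod_pow_eq_pow_sum, sum_mult_eq]
    exact pow_lt_one₀ (norm_nonneg _) (not_le.mp h) finrank_pos.ne'
  linarith [one_le_mixedNorm hx]

lemma exists_wgt_le : ∃ C, 0 ≤ C ∧ ∀ s : ℝ, 1 ≤ s → s ≤ 2 → ∀ x : 𝓞 K,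
    wgt s x ≤ C * ‖mixedEmbedding K (x : K)‖ ^ (-((dK : ℝ) * s)) ∧ wgt s x ≤ C := by
  obtain ⟨C, hC0, hC⟩ := exists_weightG_le (K := K)
  refine ⟨C, hC0, fun s hs1 hs2 x => ?_⟩
  rcases eq_or_ne x 0 with rfl | hx
  · rw [wgt_zero]
    exact ⟨by positivity, hC0⟩
  · refine ⟨hC s hs1 hs2 _ (embed_ne_zero hx), (hC s hs1 hs2 _ (embed_ne_zero hx)).trans ?_⟩
    refine mul_le_of_le_one_right hC0 (Real.rpow_le_one_of_one_le_of_nonpos (one_le_norm_embed hx) ?_)
    have : (0 : ℝ) ≤ dK := Nat.cast_nonneg _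
    nlinarith

lemma summable_norm_embed {r : ℝ} (hr : r < -(dK : ℝ)) :
    Summable fun x : 𝓞 K => ‖mixedEmbedding K (x : K)‖ ^ r := by
  have hrank : Module.finrank ℤ (mixedEmbedding.integerLattice K) = dK := by
    rw [ZLattice.rank ℝ, mixedEmbedding.finrank]
  have h : Summable fun z : mixedEmbedding.integerLattice K => ‖z‖ ^ r :=
    ZLattice.summable_norm_rpow _ r (by rw [hrank]; exact hr)
  have hmem : ∀ x : 𝓞 K, mixedEmbedding K (x : K) ∈ mixedEmbedding.integerLattice K :=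
    fun x => LinearMap.mem_range.mpr ⟨x, rfl⟩
  refine (h.comp_injective (i := fun x : 𝓞 K => (⟨_, hmem x⟩ : mixedEmbedding.integerLattice K))
    fun a b hab => ?_).congr fun x => rfl
  exact RingOfIntegers.coe_injective ((mixedEmbedding_injective K) (congrArg Subtype.val hab))

lemma summable_wgt {s : ℝ} (hs : 1 < s) (hs2 : s ≤ 2) : Summable fun x : 𝓞 K => wgt s x := by
  obtain ⟨C, -, hC⟩ := exists_wgt_le (K := K)
  have hd : (1 : ℝ) ≤ dK := Nat.one_le_cast.mpr finrank_pos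
  exact Summable.of_nonneg_of_le (fun x => wgt_nonneg s x) (fun x => (hC s hs.le hs2 x).1)
    ((summable_norm_embed (by nlinarith)).mul_left C)

lemma rpow_shift_le {A d s : ℝ} (hA : 1 ≤ A) (hd : 0 ≤ d) (hs : 1 ≤ s) :
    A ^ (-(d * s)) * A⁻¹ ≤ A ^ (-(d + 1)) := by
  rw [← Real.rpow_neg_one A, ← Real.rpow_add (zero_lt_one.trans_le hA)]
  exact Real.rpow_le_rpow_of_exponent_le hA (by nlinarith)

lemma shift_combine_le {A d s L ρ X : ℝ} (hA : 1 ≤ A) (hd : 0 ≤ d) (hs : 1 ≤ s)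
    (hL : 0 ≤ L) (hρ : 0 ≤ ρ) (hX : 0 ≤ X) :
    A ^ (-(d * s)) * (L * (ρ / A)) ≤ (X + L * ρ) * A ^ (-(d + 1)) := by
  calc A ^ (-(d * s)) * (L * (ρ / A)) = L * ρ * (A ^ (-(d * s)) * A⁻¹) := by ring
    _ ≤ L * ρ * A ^ (-(d + 1)) :=
      mul_le_mul_of_nonneg_left (rpow_shift_le hA hd hs) (mul_nonneg hL hρ)
    _ ≤ _ := mul_le_mul_of_nonneg_right (le_add_of_nonneg_left hX)
      (Real.rpow_nonneg (zero_le_one.trans hA) _)

lemma eps_bound {ε₀ L S : ℝ} (hε₀ : 0 < ε₀) (hL : 0 ≤ L) (hS : 0 ≤ S) :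
    0 < min ε₀ (1 / (2 * (L + 1))) / (S + 1) ∧
    min ε₀ (1 / (2 * (L + 1))) / (S + 1) * S ≤ min ε₀ (1 / (2 * (L + 1))) := by
  have h : 0 < min ε₀ (1 / (2 * (L + 1))) := lt_min hε₀ (by positivity)
  refine ⟨div_pos h (by linarith), ?_⟩
  rw [div_mul_eq_mul_div, div_le_iff₀ (by linarith)]
  nlinarith

lemma weightG_shift_le {L ε s : ℝ}
    (hL : ∀ a b : mixedSpace K, ‖a‖ = 1 → ‖a - b‖ ≤ ε →
      |weightG K s a - weightG K s b| ≤ L * ‖a - b‖)
    (a r : mixedSpace K) (ha : 0 < ‖a‖) (hr : ‖r‖ ≤ ε * ‖a‖) :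
    |weightG K s (a + r) - weightG K s a| ≤
      ‖a‖ ^ (-((dK : ℝ) * s)) * (L * (‖r‖ / ‖a‖)) := by
  have hna : ‖‖a‖⁻¹ • a‖ = 1 := by
    rw [_root_.norm_smul, norm_inv, norm_norm, inv_mul_cancel₀ ha.ne']
  have hdist : ‖‖a‖⁻¹ • a - ‖a‖⁻¹ • (a + r)‖ = ‖r‖ / ‖a‖ := by
    rw [← smul_sub, sub_add_cancel_left, smul_neg, norm_neg, _root_.norm_smul, norm_inv, norm_norm,
      inv_mul_eq_div]
  have h := hL _ _ hna (by rw [hdist, div_le_iff₀ ha]; exact hr)
  rw [hdist, abs_sub_comm, weightG_smul s (inv_pos.mpr ha), weightG_smul s (inv_pos.mpr ha),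
    ← mul_sub, abs_mul, abs_of_nonneg (Real.rpow_nonneg (by positivity) _)] at h
  have h2 : ‖a‖⁻¹ ^ (-((dK : ℝ) * s)) * ‖a‖ ^ (-((dK : ℝ) * s)) = 1 := by
    rw [← Real.mul_rpow (inv_nonneg.mpr ha.le) ha.le, inv_mul_cancel₀ ha.ne', Real.one_rpow]
  calc |weightG K s (a + r) - weightG K s a|
      = ‖a‖ ^ (-((dK : ℝ) * s)) *
          (‖a‖⁻¹ ^ (-((dK : ℝ) * s)) * |weightG K s (a + r) - weightG K s a|) := by
        rw [← mul_assoc, mul_comm (‖a‖ ^ _) (‖a‖⁻¹ ^ _), h2, one_mul]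
    _ ≤ _ := mul_le_mul_of_nonneg_left h (Real.rpow_nonneg ha.le _)

/-- Translation changes the weight by a summable amount, uniformly in `s`. -/
lemma exists_shift_bound (r : 𝓞 K) : ∃ B : 𝓞 K → ℝ, Summable B ∧ ∀ s : ℝ, 1 ≤ s → s ≤ 2 →
    ∀ x, |wgt s (x + r) - wgt s x| ≤ B x := by
  obtain ⟨C, hC0, hC⟩ := exists_wgt_le (K := K)
  obtain ⟨L, ε, hε, hL0, hL⟩ := exists_lipschitz_sphere (K := K)
  set ρ := ‖mixedEmbedding K (r : K)‖ with hρ
  set R := ρ / ε + 1 with hR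
  have hR1 : 1 ≤ R := by
    rw [hR]; linarith [show 0 ≤ ρ / ε by positivity]
  refine ⟨fun x => (2 * C * R ^ ((dK : ℝ) + 1) + L * ρ) *
    ‖mixedEmbedding K (x : K)‖ ^ (-((dK : ℝ) + 1)) + if x = 0 then C else 0, ?_, ?_⟩
  · refine ((summable_norm_embed (by linarith)).mul_left _).add ?_
    exact summable_of_ne_finset_zero (s := {(0 : 𝓞 K)}) fun x hx => by simp_all
  intro s hs1 hs2 x
  have hd0 : (0 : ℝ) ≤ dK := Nat.cast_nonneg _
  have hd : (1 : ℝ) ≤ dK := Nat.one_le_cast.mpr finrank_pos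
  rcases eq_or_ne x 0 with rfl | hx
  · simp only [if_pos, wgt_zero, sub_zero, zero_add, abs_of_nonneg (wgt_nonneg _ _)]
    refine ((hC s hs1 hs2 r).2).trans (le_add_of_nonneg_left ?_)
    positivity
  simp only [if_neg hx, add_zero]
  set a := mixedEmbedding K (x : K) with ha
  have ha1 : 1 ≤ ‖a‖ := one_le_norm_embed hx
  have ha0 : 0 < ‖a‖ := by linarith
  rcases le_total ‖a‖ R with h | h
  · refine le_trans ?_ (mul_le_mul_of_nonneg_right (le_add_of_nonneg_right (by positivity))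
      (by positivity))
    refine le_trans (abs_sub_le_iff.mpr ⟨?_, ?_⟩) (?_ : 2 * C ≤ _)
    · linarith [(hC s hs1 hs2 (x + r)).2, wgt_nonneg s x]
    · linarith [(hC s hs1 hs2 x).2, wgt_nonneg s (x + r)]
    · rw [mul_assoc]
      refine le_mul_of_one_le_right (by positivity) ?_
      rw [Real.rpow_neg ha0.le, ← div_eq_mul_inv, one_le_div (by positivity)]
      exact Real.rpow_le_rpow ha0.le h (by linarith)
  · have hr : ‖mixedEmbedding K (r : K)‖ ≤ ε * ‖a‖ := by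
      rw [← hρ]
      have : ρ / ε ≤ ‖a‖ := by rw [hR] at h; linarith
      rw [div_le_iff₀ hε] at this; linarith
    have hk := weightG_shift_le (hL s hs1 hs2) a (mixedEmbedding K (r : K)) ha0 hr
    have hmap : mixedEmbedding K ((x + r : 𝓞 K) : K) = a + mixedEmbedding K (r : K) := by
      rw [ha, ← map_add]; rfl
    rw [wgt, wgt, hmap, ← ha]
    refine hk.trans (shift_combine_le ha1 hd0 hs1 hL0 (norm_nonneg _) ?_)
    exact mul_nonneg (mul_nonneg two_pos.le hC0) (Real.rpow_nonneg (zero_le_one.trans hR1) _)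

lemma summable_wgt_ideal {s : ℝ} (hs : 1 < s) (hs2 : s ≤ 2) (J : Ideal (𝓞 K)) :
    Summable fun x : J => wgt s (x : 𝓞 K) :=
  (summable_wgt hs hs2).comp_injective Subtype.val_injective

lemma latticeSum_nonneg (s : ℝ) (J : Ideal (𝓞 K)) : 0 ≤ latticeSum s J :=
  tsum_nonneg fun _ => wgt_nonneg _ _

lemma latticeSum_top (s : ℝ) : latticeSum s (⊤ : Ideal (𝓞 K)) = ∑' x : 𝓞 K, wgt s x :=
  Equiv.tsum_eq (Equiv.subtypeUnivEquiv fun _ => Submodule.mem_top) (fun x => wgt s x)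

/-- **Index comparison**: `[𝓞 K : J] · S(J) = S(𝓞 K) + O(1)`. -/
lemma exists_index_bound (J : Ideal (𝓞 K)) (hJ : J ≠ ⊥) : ∃ C, ∀ s : ℝ, 1 < s → s ≤ 2 →
    |(Ideal.absNorm J : ℝ) * latticeSum s J - latticeSum s (⊤ : Ideal (𝓞 K))| ≤ C := by
  have : Finite (𝓞 K ⧸ J) := Ring.HasFiniteQuotients.finiteQuotient hJ
  have : Fintype (𝓞 K ⧸ J) := Fintype.ofFinite _
  set out : 𝓞 K ⧸ J → 𝓞 K := Function.surjInv Ideal.Quotient.mk_surjective
  have hout : ∀ q, Ideal.Quotient.mk J (out q) = q := Function.surjInv_eq _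
  choose B hBsum hB using fun q => exists_shift_bound (out q)
  refine ⟨∑ q, ∑' j : J, B q (j : 𝓞 K), fun s hs hs2 => ?_⟩
  let e : (Σ _ : 𝓞 K ⧸ J, J) ≃ 𝓞 K :=
    { toFun := fun qj => (qj.2 : 𝓞 K) + out qj.1
      invFun := fun x => ⟨Ideal.Quotient.mk J x, ⟨x - out (Ideal.Quotient.mk J x), by
        rw [← Ideal.Quotient.eq, hout]⟩⟩
      left_inv := fun ⟨q, j⟩ => by
        have hq : Ideal.Quotient.mk J ((j : 𝓞 K) + out q) = q := by
          rw [map_add, Ideal.Quotient.eq_zero_iff_mem.mpr j.2, zero_add, hout]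
        refine Sigma.ext hq (heq_of_eq (Subtype.ext ?_))
        simp [hq]
      right_inv := fun x => by simp }
  have hsum : Summable fun qj : (Σ _ : 𝓞 K ⧸ J, J) => wgt s ((qj.2 : 𝓞 K) + out qj.1) :=
    (e.summable_iff (f := fun x => wgt s x)).mpr (summable_wgt hs hs2)
  have htop : latticeSum s (⊤ : Ideal (𝓞 K)) = ∑ q, ∑' j : J, wgt s ((j : 𝓞 K) + out q) := by
    rw [latticeSum_top, ← e.tsum_eq, ← tsum_fintype (L := SummationFilter.unconditional _)]
    exact hsum.tsum_sigma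
  have hcard : (Ideal.absNorm J : ℝ) * latticeSum s J = ∑ _q : 𝓞 K ⧸ J, latticeSum s J := by
    rw [Finset.sum_const, nsmul_eq_mul, Finset.card_univ, ← Nat.card_eq_fintype_card,
      Ideal.absNorm_apply, Submodule.cardQuot_apply]
  rw [htop, hcard, ← Finset.sum_sub_distrib]
  refine (Finset.abs_sum_le_sum_abs _ _).trans (Finset.sum_le_sum fun q _ => ?_)
  have h1 := summable_wgt_ideal hs hs2 J
  have h2 : Summable fun j : J => wgt s ((j : 𝓞 K) + out q) := hsum.comp_injective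
    (i := fun j : J => (⟨q, j⟩ : Σ _ : 𝓞 K ⧸ J, J)) fun a b h => by simpa using h
  have h3 : Summable fun j : J => B q (j : 𝓞 K) := (hBsum q).comp_injective Subtype.val_injective
  rw [latticeSum, ← h1.tsum_sub h2, ← Real.norm_eq_abs]
  refine tsum_of_norm_bounded h3.hasSum fun j => ?_
  rw [Real.norm_eq_abs, abs_sub_comm]
  exact hB q s hs.le hs2 _

/-- `S(𝓞 K) = O(1 / (s - 1))`. -/
lemma exists_latticeSum_top_le : ∃ C, ∀ s : ℝ, 1 < s → s ≤ 2 →
    latticeSum s (⊤ : Ideal (𝓞 K)) ≤ C / (s - 1) := by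
  have hJ : Ideal.span {(2 : 𝓞 K)} ≠ ⊥ := by simp
  obtain ⟨C, hC⟩ := exists_index_bound _ hJ
  have hC0 : 0 ≤ C := (abs_nonneg _).trans (hC 2 one_lt_two le_rfl)
  set d : ℝ := (dK : ℝ) with hd
  have hd1 : 1 ≤ d := Nat.one_le_cast.mpr finrank_pos
  set k : ℝ := d * Real.log 2 with hk
  have hk0 : 0 < k := by positivity
  refine ⟨C * Real.exp k / k, fun s hs hs2 => ?_⟩
  have hnorm : (Ideal.absNorm (Ideal.span {(2 : 𝓞 K)}) : ℝ) = (2 : ℝ) ^ d := by
    rw [show (2 : 𝓞 K) = algebraMap ℤ (𝓞 K) 2 by simp, Ideal.absNorm_span_singleton,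
      Algebra.norm_algebraMap, RingOfIntegers.rank, hd, Real.rpow_natCast]
    simp
  let e : 𝓞 K ≃ (Ideal.span {(2 : 𝓞 K)} : Ideal (𝓞 K)) :=
    Equiv.ofBijective (fun x => ⟨2 * x, Ideal.mem_span_singleton.mpr ⟨x, rfl⟩⟩)
      ⟨fun a b h => mul_left_cancel₀ two_ne_zero (congrArg Subtype.val h), fun ⟨y, hy⟩ => by
        obtain ⟨x, rfl⟩ := Ideal.mem_span_singleton.mp hy
        exact ⟨x, rfl⟩⟩
  have hscale : latticeSum s (Ideal.span {(2 : 𝓞 K)}) =
      (2 : ℝ) ^ (-(d * s)) * latticeSum s (⊤ : Ideal (𝓞 K)) := by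
    rw [latticeSum, ← e.tsum_eq, latticeSum_top, ← tsum_mul_left]
    refine tsum_congr fun x => ?_
    show wgt s (2 * x) = _
    simp only [wgt, two_mul, map_add]
    rw [← two_smul ℝ (mixedEmbedding K (x : K)), weightG_smul s two_pos]
  have h := hC s hs hs2
  rw [hnorm, hscale, ← mul_assoc, ← Real.rpow_add two_pos] at h
  set T := latticeSum s (⊤ : Ideal (𝓞 K))
  have hT0 : 0 ≤ T := latticeSum_nonneg _ _
  set u := k * (s - 1) with hu
  have hexp : (2 : ℝ) ^ (d + -(d * s)) = Real.exp (-u) := by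
    rw [Real.rpow_def_of_pos two_pos, hu, hk]; ring_nf
  rw [hexp] at h
  have hu0 : 0 < u := by positivity
  have huk : u ≤ k := by rw [hu]; nlinarith
  -- `1 - exp (-u) ≥ u exp (-u)`
  have h1 : u * Real.exp (-u) ≤ 1 - Real.exp (-u) := by
    have := Real.add_one_le_exp u
    have h2 : Real.exp u * Real.exp (-u) = 1 := by rw [← Real.exp_add]; simp
    nlinarith [Real.exp_pos (-u)]
  have h3 : T * (1 - Real.exp (-u)) ≤ C := by linarith [(abs_le.mp h).1]
  have h4 : T * (u * Real.exp (-k)) ≤ C := by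
    refine le_trans (mul_le_mul_of_nonneg_left (le_trans ?_ h1) hT0) h3
    exact mul_le_mul_of_nonneg_left (Real.exp_le_exp.mpr (by linarith)) hu0.le
  rw [hu, Real.exp_neg] at h4
  rw [div_div, le_div_iff₀ (mul_pos hk0 (by linarith))]
  have h5 : T * (k * (s - 1)) * (Real.exp k)⁻¹ ≤ C := by linarith
  rwa [← div_eq_mul_inv, div_le_iff₀ (Real.exp_pos k)] at h5

lemma le_sum_rpow_telescope {u : ℝ} (hu : 0 < u) (N : ℕ) :
    1 - ((N : ℝ) + 1) ^ (-u) ≤ u * ∑ n ∈ Finset.range N, ((n : ℝ) + 1) ^ (-(1 + u)) := by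
  induction N with
  | zero => simp
  | succ N ih =>
    rw [Finset.sum_range_succ, mul_add]
    have hN : (0 : ℝ) < (N : ℝ) + 1 := by positivity
    have hN2 : (0 : ℝ) < (N : ℝ) + 1 + 1 := by positivity
    have key : ((N : ℝ) + 1) ^ (-u) - ((N : ℝ) + 1 + 1) ^ (-u) ≤
        u * ((N : ℝ) + 1) ^ (-(1 + u)) := by
      set m := (N : ℝ) + 1
      have h1 : (m + 1) ^ (-u) = m ^ (-u) * Real.exp (-u * Real.log ((m + 1) / m)) := by
        rw [Real.rpow_def_of_pos hN2, Real.rpow_def_of_pos hN, ← Real.exp_add,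
          Real.log_div hN2.ne' hN.ne']
        ring_nf
      have h2 : Real.log ((m + 1) / m) ≤ 1 / m := by
        refine (Real.log_le_sub_one_of_pos (by positivity)).trans (le_of_eq ?_)
        field_simp; ring
      have h3 : 1 - u * (1 / m) ≤ Real.exp (-u * Real.log ((m + 1) / m)) := by
        refine le_trans ?_ (Real.add_one_le_exp _)
        nlinarith
      rw [h1, show -(1 + u) = -u + -1 by ring, Real.rpow_add hN, Real.rpow_neg_one]
      have := Real.rpow_nonneg hN.le (-u)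
      rw [one_div] at h3
      nlinarith
    push_cast
    linarith

lemma count_lower {ε d s : ℝ} (D N : ℕ) (hε : 0 < ε) (hd : 0 < d) (hD : (D : ℝ) + 1 = d)
    (hs : 1 < s) (hN : ((N : ℝ) + 1) ^ (-(d * (s - 1))) ≤ 1 / 2) :
    ε ^ D / (4 * d) / (s - 1) ≤ ∑ n ∈ Finset.range N,
      (((⌊ε * ((n : ℝ) + 1)⌋₊ + 1) ^ D : ℕ) : ℝ) * (((n : ℝ) + 1) ^ (-(d * s)) / 2) := by
  have hu0 : 0 < d * (s - 1) := mul_pos hd (by linarith)
  have hs1 : s - 1 ≠ 0 := by linarith
  have hd0 : d ≠ 0 := hd.ne'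
  calc ε ^ D / (4 * d) / (s - 1)
      = ε ^ D / 2 * ((1 / 2) / (d * (s - 1))) := by field_simp; ring
    _ ≤ ε ^ D / 2 * ∑ n ∈ Finset.range N, ((n : ℝ) + 1) ^ (-(1 + d * (s - 1))) := by
        refine mul_le_mul_of_nonneg_left ?_ (by positivity)
        rw [div_le_iff₀' hu0]
        linarith [le_sum_rpow_telescope hu0 N]
    _ ≤ _ := by
        rw [Finset.mul_sum]
        refine Finset.sum_le_sum fun n _ => ?_
        have hm : (0 : ℝ) < (n : ℝ) + 1 := by positivity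
        push_cast
        generalize (n : ℝ) + 1 = m at hm ⊢
        have hpow : (ε * m) ^ D ≤ ((⌊ε * m⌋₊ : ℝ) + 1) ^ D :=
          pow_le_pow_left₀ (by positivity) (Nat.lt_floor_add_one _).le _
        refine le_trans (le_of_eq ?_) (mul_le_mul_of_nonneg_right hpow (by positivity))
        rw [mul_pow, show -(1 + d * (s - 1)) = (D : ℝ) + -(d * s) by linarith, Real.rpow_add hm,
          Real.rpow_natCast]
        ring

/-- `S(𝓞 K) ≫ 1 / (s - 1)`. -/
lemma exists_le_latticeSum_top : ∃ c, 0 < c ∧ ∀ s : ℝ, 1 < s → s ≤ 2 →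
    c / (s - 1) ≤ latticeSum s (⊤ : Ideal (𝓞 K)) := by
  obtain ⟨L, ε₀, hε₀, hL0, hL⟩ := exists_lipschitz_sphere (K := K)
  let b := RingOfIntegers.basis K
  obtain ⟨i₀, hi₀⟩ : ∃ i, b.repr 1 i ≠ 0 := by
    by_contra! h
    exact one_ne_zero (b.repr.map_eq_zero_iff.mp (Finsupp.ext h))
  set ι := {i // i ≠ i₀} with hι
  set D := Fintype.card ι with hD
  have hcard : (D : ℝ) + 1 = (dK : ℝ) := by
    have h : Fintype.card (Module.Free.ChooseBasisIndex ℤ (𝓞 K)) = dK := by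
      rw [← Module.finrank_eq_card_basis b, RingOfIntegers.rank]
    have h2 : D + 1 = dK := by
      have := Fintype.card_pos_iff.mpr ⟨i₀⟩
      have hc : D = Fintype.card (Module.Free.ChooseBasisIndex ℤ (𝓞 K)) - 1 := by
        simp only [hD, hι]
        rw [← Nat.card_eq_fintype_card, Nat.card_eq_fintype_card]
        simp [Fintype.card_subtype_compl]
      omega
    exact_mod_cast h2
  set S : ℝ := ∑ i : ι, ‖mixedEmbedding K ((b i.1 : 𝓞 K) : K)‖ with hS
  have hS0 : 0 ≤ S := by positivity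
  set ε : ℝ := min ε₀ (1 / (2 * (L + 1))) / (S + 1) with hεdef
  have hε : 0 < ε := (eps_bound hε₀ hL0 hS0).1
  have h11 : ∀ s : ℝ, weightG K s (1 : mixedSpace K) = 1 := fun s => by
    simp [weightG, phi_zero]
  have hone : ‖(1 : mixedSpace K)‖ = 1 := by
    rw [norm_eq_sup'_normAtPlace]
    refine le_antisymm (Finset.sup'_le _ _ fun w _ => by simp) ?_
    obtain ⟨w⟩ := (inferInstance : Nonempty (InfinitePlace K))
    exact le_trans (by simp) (Finset.le_sup' (fun w => normAtPlace w (1 : mixedSpace K))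
      (Finset.mem_univ w))
  let pt : (Σ _ : ℕ, ι → ℕ) → 𝓞 K := fun nk =>
    ((nk.1 + 1 : ℕ) : 𝓞 K) + ∑ i : ι, (nk.2 i : 𝓞 K) * b i.1
  have hrepr : ∀ nk j, b.repr (pt nk) j = ((nk.1 + 1 : ℕ) : ℤ) * b.repr 1 j +
      ∑ i : ι, if i.1 = j then (nk.2 i : ℤ) else 0 := fun nk j => by
    have e : pt nk = ((nk.1 + 1 : ℕ) : ℤ) • (1 : 𝓞 K) +
        ∑ i : ι, ((nk.2 i : ℕ) : ℤ) • b i.1 := by simp [pt]
    rw [e]
    simp only [map_add, map_sum, map_smul, Finsupp.add_apply, Finsupp.coe_smul, Pi.smul_apply,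
      Finsupp.finsetSum_apply, Basis.repr_self, Finsupp.single_apply, smul_eq_mul, mul_ite,
      mul_one, mul_zero]
  have hinj : Function.Injective pt := by
    rintro ⟨n, k⟩ ⟨n', k'⟩ h
    have hz : ∀ m : ι → ℕ, (∑ i : ι, if i.1 = i₀ then (m i : ℤ) else 0) = 0 := fun m =>
      Finset.sum_eq_zero fun i _ => if_neg i.2
    have h0 := congrArg (fun x => b.repr x i₀) h
    simp only [hrepr, hz, add_zero] at h0
    have hn : n = n' := by
      have := mul_right_cancel₀ hi₀ h0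
      omega
    subst hn
    congr 1
    funext i
    have h1 := congrArg (fun x => b.repr x i.1) h
    have hs1 : ∀ m : ι → ℕ, (∑ x : ι, if x.1 = i.1 then (m x : ℤ) else 0) = m i := fun m => by
      rw [Finset.sum_eq_single i (fun x _ hx => if_neg fun h => hx (Subtype.ext h))
        (fun h => absurd (Finset.mem_univ i) h), if_pos rfl]
    simp only [hrepr, hs1] at h1
    exact Nat.cast_inj.mp (add_left_cancel h1)
  refine ⟨ε ^ D / (4 * (dK : ℝ)), div_pos (pow_pos hε _)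
    (mul_pos four_pos (Nat.cast_pos.mpr finrank_pos)), fun s hs hs2 => ?_⟩
  set d : ℝ := (dK : ℝ)
  have hd1 : 1 ≤ d := Nat.one_le_cast.mpr finrank_pos
  set u := d * (s - 1) with hu
  have hu0 : 0 < u := by positivity
  obtain ⟨N, hN⟩ : ∃ N : ℕ, ((N : ℝ) + 1) ^ (-u) ≤ 1 / 2 := by
    obtain ⟨N, hN⟩ := exists_nat_ge ((2 : ℝ) ^ u⁻¹)
    refine ⟨N, ?_⟩
    rw [Real.rpow_neg (by positivity), one_div]
    refine inv_anti₀ two_pos ?_
    calc (2 : ℝ) = ((2 : ℝ) ^ u⁻¹) ^ u := by rw [Real.rpow_inv_rpow two_pos.le hu0.ne']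
      _ ≤ ((N : ℝ) + 1) ^ u := Real.rpow_le_rpow (by positivity) (by linarith) hu0.le
  let F : Finset (Σ _ : ℕ, ι → ℕ) := (Finset.range N).sigma fun n =>
    Fintype.piFinset fun _ : ι => Finset.range (⌊ε * ((n : ℝ) + 1)⌋₊ + 1)
  have hlow : ∀ nk ∈ F, ((nk.1 : ℝ) + 1) ^ (-(d * s)) / 2 ≤ wgt s (pt nk) := by
    rintro ⟨n, k⟩ hnk
    simp only [F, Finset.mem_sigma, Fintype.mem_piFinset, Finset.mem_range] at hnk
    have hm : (0 : ℝ) < (n : ℝ) + 1 := by positivity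
    set m : ℝ := (n : ℝ) + 1
    set v : mixedSpace K := ∑ i : ι, ((k i : ℝ) / m) • mixedEmbedding K ((b i.1 : 𝓞 K) : K)
    have hpt : mixedEmbedding K ((pt ⟨n, k⟩ : 𝓞 K) : K) = m • ((1 : mixedSpace K) + v) := by
      have hnat : ∀ (c : ℕ) (y : mixedSpace K), (c : mixedSpace K) * y = (c : ℝ) • y := fun c y => by
        rw [Algebra.smul_def, map_natCast]
      have h1 : ∀ i : ι, m • (((k i : ℝ) / m) • mixedEmbedding K ((b i.1 : 𝓞 K) : K)) =
          ((k i : ℕ) : mixedSpace K) * mixedEmbedding K ((b i.1 : 𝓞 K) : K) := fun i => by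
        rw [smul_smul, mul_div_cancel₀ _ hm.ne', hnat]
      rw [smul_add, Finset.smul_sum, Finset.sum_congr rfl fun i _ => h1 i,
        show m = ((n + 1 : ℕ) : ℝ) by simp [m], ← hnat, mul_one]
      show ((mixedEmbedding K).comp (algebraMap (𝓞 K) K)) _ = _
      simp only [pt, map_add, map_sum, map_mul, map_natCast]
      rfl
    have hv : ‖v‖ ≤ ε * S := by
      refine (norm_sum_le _ _).trans ?_
      rw [hS, Finset.mul_sum]
      refine Finset.sum_le_sum fun i _ => ?_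
      rw [_root_.norm_smul, Real.norm_eq_abs, abs_of_nonneg (by positivity)]
      refine mul_le_mul_of_nonneg_right ?_ (norm_nonneg _)
      rw [div_le_iff₀ hm]
      refine (Nat.cast_le.mpr (Nat.lt_succ_iff.mp (hnk.2 i))).trans (Nat.floor_le (by positivity))
    have hεS : ε * S ≤ min ε₀ (1 / (2 * (L + 1))) := (eps_bound hε₀ hL0 hS0).2
    have h1 := hL s hs.le hs2 1 (1 + v) hone (by
      rw [sub_add_cancel_left, norm_neg]; exact (hv.trans hεS).trans (min_le_left _ _))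
    rw [h11, sub_add_cancel_left, norm_neg] at h1
    have h2 : L * ‖v‖ ≤ 1 / 2 := by
      refine (mul_le_mul_of_nonneg_left ((hv.trans hεS).trans (min_le_right _ _)) hL0).trans ?_
      rw [← mul_div_assoc, mul_one, div_le_iff₀ (by positivity)]
      linarith
    rw [wgt, hpt, weightG_smul s hm, div_eq_mul_one_div]
    exact mul_le_mul_of_nonneg_left (by linarith [(abs_le.mp h1).2]) (by positivity)
  calc ε ^ D / (4 * d) / (s - 1)
      ≤ ∑ n ∈ Finset.range N, (((⌊ε * ((n : ℝ) + 1)⌋₊ + 1) ^ D : ℕ) : ℝ) *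
          (((n : ℝ) + 1) ^ (-(d * s)) / 2) :=
        count_lower D N hε (by linarith) hcard hs (by rw [hu] at hN; exact hN)
    _ = ∑ nk ∈ F, ((nk.1 : ℝ) + 1) ^ (-(d * s)) / 2 := by
        rw [Finset.sum_sigma]
        refine Finset.sum_congr rfl fun n _ => ?_
        simp only []
        rw [Finset.sum_const, Fintype.card_piFinset, Finset.prod_const, Finset.card_univ, ← hD,
          Finset.card_range, nsmul_eq_mul]
    _ ≤ ∑ nk ∈ F, wgt s (pt nk) := Finset.sum_le_sum hlow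
    _ = ∑ x ∈ F.image pt, wgt s x := (Finset.sum_image fun a _ b _ h => hinj h).symm
    _ ≤ latticeSum s (⊤ : Ideal (𝓞 K)) := by
        rw [latticeSum_top]
        exact (summable_wgt hs hs2).sum_le_tsum _ fun x _ => wgt_nonneg _ _

end FermatLib.CFT.PartialZeta
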