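import Fermat.Agent.CFT.S14.ClassEigen
import Mathlib.FieldTheory.KummerPolynomial
import Mathlib.RingTheory.AdjoinRoot

/-!
# Residues split in the Kummer extension, and the class of a singular eigen element

A degree one prime at which `η` is a `p`-th power residue has `p` primes above it of the same norm
in `K(η ^ (1/p))`.
-/

set_option autoImplicit false

namespace FermatLib.CFT.ExtVanish

open NumberField IsDedekindDomain Ideal Finset FermatLib.CFT.PartialZeta
open scoped Classical Pointwise nonZeroDivisors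

variable {p : ℕ} [Fact p.Prime] {K : Type} [Field K] [NumberField K]
  [IsCyclotomicExtension {p} ℚ K] {ζ : K} (hζ : IsPrimitiveRoot ζ p)
  {M : Type*} [Field M] [NumberField M] [Algebra K M]

variable (K) in
/-- The prime of `K` below a prime of `M`. -/
noncomputable def underPrime (w : HeightOneSpectrum (𝓞 M)) : HeightOneSpectrum (𝓞 K) :=
  ⟨w.asIdeal.under (𝓞 K), inferInstance, under_ne_bot (𝓞 K) w.ne_bot⟩

include hζ in
/-- A residue prime has `p` primes above it with the same norm. -/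
theorem split_of_residue (hM : Module.finrank K M = p) {θ : M}
    (hθ : θ ^ p = algebraMap K M ((etaUnit hζ : 𝓞 K) : K))
    (hgal : ∀ j : ℕ, ∃ σ : M ≃ₐ[K] M, σ θ = θ * algebraMap K M (ζ ^ j))
    {v : HeightOneSpectrum (𝓞 K)} {l : ℕ} (h : DegOne p v l) {y : 𝓞 K}
    (hy : (etaUnit hζ : 𝓞 K) - y ^ p ∈ v.asIdeal) :
    ∃ W : Finset (HeightOneSpectrum (𝓞 M)), W.card = p ∧
      ∀ w ∈ W, underPrime K w = v ∧ absNorm w.asIdeal = absNorm v.asIdeal := by
  set ι := algebraMap (𝓞 K) (𝓞 M) with hι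
  have hθint : IsIntegral ℤ θ := IsIntegral.of_pow (Fact.out : p.Prime).pos
    (hθ ▸ (RingOfIntegers.isIntegral_coe _).algebraMap)
  set θi : 𝓞 M := ⟨θ, hθint⟩ with hθi
  set z := ι hζ.toInteger with hzdef
  have hz : IsPrimitiveRoot z p :=
    hζ.toInteger_isPrimitiveRoot.map_of_injective (FaithfulSMul.algebraMap_injective _ _)
  have hθp : θi ^ p = ι (etaUnit hζ : 𝓞 K) := RingOfIntegers.ext hθ
  obtain ⟨P, hP⟩ := exists_liesOver (F := M) v
  have hP' : ∀ x : 𝓞 K, ι x ∈ P.asIdeal ↔ x ∈ v.asIdeal := fun x => by rw [← hP]; rfl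
  obtain ⟨j₀, hj₀⟩ : ∃ j : ℕ, θi - z ^ j * ι y ∈ P.asIdeal := by
    have hm : θi ^ p - (ι y) ^ p ∈ P.asIdeal := by
      rw [hθp, ← map_pow, ← map_sub, hP']; exact hy
    rw [hz.pow_sub_pow_eq_prod_sub_mul _ _ (Fact.out : p.Prime).pos,
      P.isPrime.prod_mem_iff] at hm
    obtain ⟨r, hr, hrP⟩ := hm
    obtain ⟨j, -, rfl⟩ := hz.eq_pow_of_pow_eq_one
      ((Polynomial.mem_nthRootsFinset (Fact.out : p.Prime).pos _).mp hr)
    exact ⟨j, hrP⟩
  choose σ hσ using hgal
  set e : ℕ → (𝓞 M ≃+* 𝓞 M) := fun i => RingOfIntegers.mapRingEquiv (σ i).toRingEquiv with he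
  have heι : ∀ i x, e i (ι x) = ι x := fun i x => RingOfIntegers.ext ((σ i).commutes (x : K))
  have heθ : ∀ i, e i θi = θi * z ^ i := fun i => RingOfIntegers.ext (by
    show σ i θ = _
    rw [hσ i, map_pow]
    rfl)
  have hne : ∀ i, P.asIdeal.comap (e i) ≠ ⊥ := fun i h0 => P.ne_bot (by
    rw [← map_comap_of_surjective (e i) (e i).surjective P.asIdeal, h0, Ideal.map_bot])
  set Q : ℕ → HeightOneSpectrum (𝓞 M) := fun i =>
    ⟨P.asIdeal.comap (e i), inferInstance, hne i⟩ with hQ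
  have hunder : ∀ i, underPrime K (Q i) = v := fun i => HeightOneSpectrum.ext (by
    ext x
    show e i (ι x) ∈ P.asIdeal ↔ _
    rw [heι, hP'])
  have hmem : ∀ i, θi - z ^ (j₀ + i) * ι y ∈ (Q i).asIdeal := fun i => by
    show e i (θi - z ^ (j₀ + i) * ι y) ∈ P.asIdeal
    rw [map_sub, map_mul, map_pow, heθ, hzdef, heι, heι, ← hzdef, pow_add,
      show θi * z ^ i - z ^ j₀ * z ^ i * ι y = z ^ i * (θi - z ^ j₀ * ι y) by ring]
    exact P.asIdeal.mul_mem_left _ hj₀
  have hinj : Set.InjOn Q (Finset.range p) := by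
    intro i hi k hk hik
    simp only [Finset.coe_range, Set.mem_Iio] at hi hk
    by_contra hne'
    have h2 := (Q k).asIdeal.sub_mem (hmem k) (hik ▸ hmem i)
    rw [show θi - z ^ (j₀ + k) * ι y - (θi - z ^ (j₀ + i) * ι y) =
      ι ((hζ.toInteger ^ (j₀ + i) - hζ.toInteger ^ (j₀ + k)) * y) by
        rw [map_mul, map_sub, map_pow, map_pow, ← hzdef]; ring] at h2
    have h3 : (hζ.toInteger ^ (j₀ + i) - hζ.toInteger ^ (j₀ + k)) * y ∈ v.asIdeal := by
      rw [← hunder k]; exact h2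
    rcases v.isPrime.mem_or_mem h3 with h4 | h4
    · refine h.zeta_pow_sub_notMem hζ ?_ h4
      rw [Nat.cast_add, Nat.cast_add, Ne, add_right_inj, ZMod.natCast_eq_natCast_iff',
        Nat.mod_eq_of_lt hi, Nat.mod_eq_of_lt hk]
      exact hne'
    · refine v.isPrime.ne_top (eq_top_of_isUnit_mem _ ?_ (etaUnit hζ).isUnit)
      have := v.asIdeal.add_mem hy (v.asIdeal.pow_mem_of_mem h4 p (Fact.out : p.Prime).pos)
      rwa [sub_add_cancel] at this
  refine ⟨(Finset.range p).image Q, by rw [Finset.card_image_of_injOn hinj, Finset.card_range],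
    fun w hw => ?_⟩
  obtain ⟨i, hi, rfl⟩ := Finset.mem_image.mp hw
  refine ⟨hunder i, ?_⟩
  have hsame : ∀ k, absNorm (Q k).asIdeal = absNorm P.asIdeal := fun k => by
    rw [absNorm_apply, absNorm_apply, Submodule.cardQuot_apply, Submodule.cardQuot_apply]
    exact Nat.card_congr (Ideal.quotientEquiv _ _ (e k)
      (map_comap_of_surjective (e k) (e k).surjective P.asIdeal).symm).toEquiv
  have hdvd : ∏ k ∈ Finset.range p, (Q k).asIdeal ∣ v.asIdeal.map ι :=
    Finset.prod_dvd_of_isRelPrime (fun a ha b hb hab => by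
      simp only [Function.onFun]
      rw [Irreducible.isRelPrime_iff_not_dvd (Q a).irreducible, dvd_iff_le]
      exact fun hle => hab (hinj ha hb (HeightOneSpectrum.ext
        ((Q b).isMaximal.eq_of_le (Q a).isPrime.ne_top hle).symm)))
      fun k _ => dvd_iff_le.mpr (map_le_iff_le_comap.mpr (by
        show v.asIdeal ≤ (underPrime K (Q k)).asIdeal
        rw [hunder k]))
  have hn := map_dvd absNorm hdvd
  rw [hι, absNorm_algebraMap, ← IsFractionRing.finrank_eq (𝓞 K) K (𝓞 M) M, hM, map_prod,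
    Finset.prod_congr rfl fun k _ => hsame k, Finset.prod_const, Finset.card_range,
    Nat.pow_dvd_pow_iff (Fact.out : p.Prime).ne_zero, h.norm] at hn
  rw [hsame, h.norm]
  exact (Nat.dvd_prime h.prime).mp hn |>.resolve_left
    fun h1 => P.isPrime.ne_top (absNorm_eq_one_iff.mp h1)

end FermatLib.CFT.ExtVanish
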