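import Fermat.Agent.CFT.S14.AuxField
import Mathlib.RepresentationTheory.Homological.GroupCohomology.Hilbert90

/-!
# Thaine's element

For a prime `ℓ ≡ 1 mod p` there is `N ∈ K` whose divisor, modulo `p`, is supported at the primes
`u` over `ℓ`, the exponent at `u` being the discrete logarithm of `η` modulo `u`.
-/

set_option autoImplicit false

namespace FermatLib.CFT.ExtVanish

open NumberField IsDedekindDomain Ideal Polynomial
open scoped Classical Pointwise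

section Generic

variable {K F : Type*} [Field K] [NumberField K] [Field F] [NumberField F] [Algebra K F]

lemma expn_map (u : HeightOneSpectrum (𝓞 K)) (Q : HeightOneSpectrum (𝓞 F))
    (hQ : Q.asIdeal.under (𝓞 K) = u.asIdeal) {I : Ideal (𝓞 K)} (hI : I ≠ ⊥) :
    expn Q (I.map (algebraMap (𝓞 K) (𝓞 F))) =
      expn u I * expn Q (u.asIdeal.map (algebraMap (𝓞 K) (𝓞 F))) := by
  obtain ⟨R, hR⟩ := (pow_dvd_iff_le_expn u hI (expn u I)).mpr le_rfl
  have hR0 : R ≠ ⊥ := fun h => hI (by rw [hR, h, ← zero_eq_bot, mul_zero])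
  have hnd : ¬ u.asIdeal ∣ R := fun ⟨R', h⟩ => by
    have := (pow_dvd_iff_le_expn u hI (expn u I + 1)).mp ⟨R', by
      conv_lhs => rw [hR, h]
      rw [pow_succ, mul_assoc]⟩
    omega
  have hmu : u.asIdeal.map (algebraMap (𝓞 K) (𝓞 F)) ≠ ⊥ := map_ne_bot_of_ne_bot u.ne_bot
  have hmR : R.map (algebraMap (𝓞 K) (𝓞 F)) ≠ ⊥ := map_ne_bot_of_ne_bot hR0
  have h0 : expn Q (R.map (algebraMap (𝓞 K) (𝓞 F))) = 0 := by
    by_contra h
    refine hnd (dvd_iff_le.mpr ?_)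
    have hle := le_of_dvd ((dvd_iff_expn_pos Q hmR).mpr (Nat.pos_of_ne_zero h))
    rw [← hQ]
    exact map_le_iff_le_comap.mp hle
  conv_lhs => rw [hR]
  rw [Ideal.map_mul, Ideal.map_pow, expn_mul Q (pow_ne_zero _ hmu) hmR, expn_pow, h0, add_zero]

lemma exists_liesOver (u : HeightOneSpectrum (𝓞 K)) :
    ∃ Q : HeightOneSpectrum (𝓞 F), Q.asIdeal.under (𝓞 K) = u.asIdeal := by
  obtain ⟨Q, hQm, hQ⟩ := exists_maximal_ideal_liesOver_of_isIntegral (S := 𝓞 F) u.asIdeal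
  refine ⟨⟨Q, hQm.isPrime, fun h => u.ne_bot ?_⟩, hQ.over.symm⟩
  rw [hQ.over, h]
  exact comap_bot_of_injective _ (FaithfulSMul.algebraMap_injective (𝓞 K) (𝓞 F))

end Generic

variable {p : ℕ} [Fact p.Prime] {K : Type} [Field K] [NumberField K]
  [IsCyclotomicExtension {p} ℚ K] {ζ : K} (hζ : IsPrimitiveRoot ζ p)
  {F : Type} [Field F] [NumberField F] [Algebra K F]
  {ℓ : ℕ} [hl : Fact ℓ.Prime] [IsCyclotomicExtension {ℓ} K F] {z : F} (hz : IsPrimitiveRoot z ℓ)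

include hz in
lemma irreducible_cyclotomic_of_finrank (hd : Module.finrank K F = ℓ - 1) :
    Irreducible (cyclotomic ℓ K) := by
  have hint : IsIntegral K z := Algebra.IsIntegral.isIntegral z
  have hdeg : (minpoly K z).natDegree = ℓ - 1 := by
    rw [← hd, (hz.powerBasis K).finrank, IsPrimitiveRoot.powerBasis_dim]
  have hdvd : minpoly K z ∣ cyclotomic ℓ K := by
    refine minpoly.dvd _ _ ?_
    rw [aeval_def, eval₂_eq_eval_map, map_cyclotomic]
    exact hz.isRoot_cyclotomic hl.out.pos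
  rw [eq_of_monic_of_dvd_of_natDegree_le (minpoly.monic hint) (cyclotomic.monic ℓ K) hdvd
    (by rw [natDegree_cyclotomic, Nat.totient_prime hl.out, hdeg])]
  exact minpoly.irreducible hint

/-- The element `ζ ^ c - z`. -/
noncomputable def epsFactor (c : (ZMod p)ˣ) : 𝓞 F :=
  algebraMap (𝓞 K) (𝓞 F) (hζ.toInteger ^ (c : ZMod p).val) - hz.toInteger

lemma prod_smul_epsFactor (hd : Module.finrank K F = ℓ - 1) (hpl : p ∣ ℓ - 1) (c : (ZMod p)ˣ) :
    ∏ σ : Gal(F/K), σ • epsFactor hζ hz c = 1 := by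
  have : IsGalois K F := isGalois_aux hz
  refine RingOfIntegers.ext ?_
  set x : F := algebraMap K F (ζ ^ (c : ZMod p).val) with hx
  change algebraMap (𝓞 F) F _ = algebraMap (𝓞 F) F 1
  rw [map_prod, map_one]
  have hsmul : ∀ σ : Gal(F/K),
      algebraMap (𝓞 F) F (σ • epsFactor hζ hz c) = x - σ z := fun σ => by
    show σ (algebraMap (𝓞 F) F (epsFactor hζ hz c)) = _
    rw [epsFactor, map_sub, map_sub, ← IsScalarTower.algebraMap_apply,
      IsScalarTower.algebraMap_apply (𝓞 K) K F, AlgEquiv.commutes, map_pow (algebraMap (𝓞 K) K), hx]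
    rfl
  simp only [hsmul]
  have hmem : ∀ σ : Gal(F/K), σ z ∈ primitiveRoots ℓ F := fun σ =>
    (mem_primitiveRoots hl.out.pos).mpr (hz.map_of_injective σ.injective)
  have hinj : Function.Injective (fun σ : Gal(F/K) => σ z) := fun σ τ h => by
    refine AlgEquiv.coe_toAlgHom_injective ((hz.powerBasis K).algHom_ext ?_)
    rw [IsPrimitiveRoot.powerBasis_gen]
    exact h
  have himg : Finset.univ.image (fun σ : Gal(F/K) => σ z) = primitiveRoots ℓ F := by
    refine Finset.eq_of_subset_of_card_le (fun a ha => ?_) (le_of_eq ?_)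
    · obtain ⟨σ, -, rfl⟩ := Finset.mem_image.mp ha
      exact hmem σ
    · rw [Finset.card_image_of_injective _ hinj, Finset.card_univ, hz.card_primitiveRoots,
        ← Nat.card_eq_fintype_card, IsGalois.card_aut_eq_finrank, hd, Nat.totient_prime hl.out]
  have hprod : ∏ σ : Gal(F/K), (x - σ z) = (cyclotomic ℓ F).eval x := by
    rw [cyclotomic_eq_prod_X_sub_primitiveRoots hz, eval_prod, ← himg,
      Finset.prod_image fun a _ b _ h => hinj h]
    simp
  have hxp : x ^ p = 1 := by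
    rw [hx, ← map_pow, ← pow_mul, mul_comm, pow_mul, hζ.pow_eq_one, one_pow, map_one]
  have hx1 : x ≠ 1 := by
    intro h
    rw [hx, map_eq_one_iff _ (algebraMap K F).injective] at h
    have := Nat.eq_zero_of_dvd_of_lt ((hζ.pow_eq_one_iff_dvd _).mp h) (ZMod.val_lt _)
    exact c.ne_zero ((ZMod.val_eq_zero _).mp this)
  rw [hprod, cyclotomic_prime, eval_finsetSum]
  simp only [eval_pow, eval_X]
  obtain ⟨m, hm⟩ := hpl
  refine mul_right_cancel₀ (sub_ne_zero.mpr hx1) ?_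
  rw [geom_sum_mul, one_mul, show ℓ = p * m + 1 by have := hl.out.pos; omega, pow_succ, pow_mul, hxp,
    one_pow, one_mul]

lemma isUnit_epsFactor (hd : Module.finrank K F = ℓ - 1) (hpl : p ∣ ℓ - 1) (c : (ZMod p)ˣ) :
    IsUnit (epsFactor hζ hz c) := by
  refine isUnit_of_dvd_one ?_
  have h := prod_smul_epsFactor hζ hz hd hpl c
  rw [← Finset.mul_prod_erase _ _ (Finset.mem_univ (1 : Gal(F/K))), one_smul] at h
  exact ⟨_, h.symm⟩

/-- The Hilbert 90 element: `β ≠ 0` with `τ β · ∏ (ζ - z) ^ m = β · ∏ (ζ ^ c - z) ^ m`. -/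
lemma exists_beta (hd : Module.finrank K F = ℓ - 1) (hpl : p ∣ ℓ - 1)
    (τ : Gal(F/K)) (hτ : ∀ σ, σ ∈ Subgroup.zpowers τ) :
    ∃ β : 𝓞 F, β ≠ 0 ∧ (τ • β) * epsFactor hζ hz 1 ^ (∑ c : (ZMod p)ˣ, etaExp c) =
      β * ∏ c : (ZMod p)ˣ, epsFactor hζ hz c ^ etaExp c := by
  have : IsGalois K F := isGalois_aux hz
  have : IsCyclic Gal(F/K) := ⟨τ, hτ⟩
  set A : 𝓞 F := ∏ c : (ZMod p)ˣ, epsFactor hζ hz c ^ etaExp c
  set B : 𝓞 F := epsFactor hζ hz 1 ^ (∑ c : (ZMod p)ˣ, etaExp c)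
  have hAu : IsUnit A := IsUnit.prod_iff.mpr fun c _ => (isUnit_epsFactor hζ hz hd hpl c).pow _
  have hBu : IsUnit B := (isUnit_epsFactor hζ hz hd hpl 1).pow _
  have hA0 : (A : F) ≠ 0 := RingOfIntegers.coe_ne_zero_iff.mpr hAu.ne_zero
  have hB0 : (B : F) ≠ 0 := RingOfIntegers.coe_ne_zero_iff.mpr hBu.ne_zero
  have hN : ∀ c, Algebra.norm K ((epsFactor hζ hz c : 𝓞 F) : F) = 1 := fun c => by
    refine (algebraMap K F).injective ?_
    rw [Algebra.norm_eq_prod_automorphisms, map_one, ← map_one (algebraMap (𝓞 F) F),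
      ← prod_smul_epsFactor hζ hz hd hpl c, map_prod]
    rfl
  have hNAB : Algebra.norm K ((B : F) / (A : F)) = 1 := by
    have hA1 : Algebra.norm K (A : F) = 1 := by
      rw [show (A : F) = algebraMap (𝓞 F) F A from rfl, map_prod, map_prod]
      refine Finset.prod_eq_one fun c _ => ?_
      rw [map_pow, map_pow]
      exact (congrArg (· ^ etaExp c) (hN c)).trans (one_pow _)
    have hB1 : Algebra.norm K (B : F) = 1 := by
      rw [show (B : F) = algebraMap (𝓞 F) F B from rfl, map_pow, map_pow]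
      exact (congrArg (· ^ _) (hN 1)).trans (one_pow _)
    rw [div_eq_mul_inv, map_mul, Algebra.norm_inv, hA1, hB1, inv_one, mul_one]
  obtain ⟨y, hy⟩ := groupCohomology.exists_div_of_norm_eq_one hτ hNAB
  obtain ⟨n, hn, hint⟩ := ((IsFractionRing.isAlgebraic_iff ℤ ℚ F).mpr
    (Algebra.IsAlgebraic.isAlgebraic (R := ℚ) (y : F))).exists_integral_multiple
  refine ⟨⟨n • (y : F), hint⟩, fun h => ?_, RingOfIntegers.ext ?_⟩
  · have h' : n • (y : F) = 0 := congrArg Subtype.val h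
    rw [zsmul_eq_mul, mul_eq_zero, Int.cast_eq_zero] at h'
    exact h'.elim hn y.ne_zero
  · show τ (n • (y : F)) * (B : F) = n • (y : F) * (A : F)
    have hty : τ (y : F) ≠ 0 := (_root_.map_ne_zero _).mpr y.ne_zero
    rw [div_eq_div_iff hty hA0] at hy
    rw [map_zsmul, smul_mul_assoc, smul_mul_assoc, hy, mul_comm]

lemma span_smul_beta (hd : Module.finrank K F = ℓ - 1) (hpl : p ∣ ℓ - 1)
    (τ : Gal(F/K)) (hτ : ∀ σ, σ ∈ Subgroup.zpowers τ) {β : 𝓞 F}
    (hβ : (τ • β) * epsFactor hζ hz 1 ^ (∑ c : (ZMod p)ˣ, etaExp c) =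
      β * ∏ c : (ZMod p)ˣ, epsFactor hζ hz c ^ etaExp c) (σ : Gal(F/K)) :
    Ideal.span {σ • β} = Ideal.span {β} := by
  have h1 : Ideal.span {τ • β} = Ideal.span {β} := by
    have hA : IsUnit (∏ c : (ZMod p)ˣ, epsFactor hζ hz c ^ etaExp c) :=
      IsUnit.prod_iff.mpr fun c _ => (isUnit_epsFactor hζ hz hd hpl c).pow _
    rw [← span_singleton_mul_right_unit ((isUnit_epsFactor hζ hz hd hpl 1).pow
      (∑ c : (ZMod p)ˣ, etaExp c)) (τ • β), hβ, span_singleton_mul_right_unit hA]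
  have : IsGalois K F := isGalois_aux hz
  obtain ⟨n, rfl⟩ := (isOfFinOrder_of_finite τ).mem_powers_iff_mem_zpowers.mpr (hτ σ)
  induction n with
  | zero => simp
  | succ n ih =>
    show span {(τ ^ (n + 1)) • β} = _
    rw [pow_succ', mul_smul]
    calc span {τ • (τ ^ n • β)} = (span {τ ^ n • β}).map (MulSemiringAction.toRingHom Gal(F/K) (𝓞 F) τ) := by
          rw [map_span, Set.image_singleton]; rfl
      _ = (span {β}).map (MulSemiringAction.toRingHom Gal(F/K) (𝓞 F) τ) := by rw [ih]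
      _ = span {τ • β} := by rw [map_span, Set.image_singleton]; rfl
      _ = span {β} := h1

/-- The residue of `η` at a totally ramified prime is `g ^ k` if `Q ^ k ∥ β`. -/
lemma eta_residue (hpl : p ∣ ℓ - 1) (g : (ZMod ℓ)ˣ) (τ : Gal(F/K))
    (hτz : τ z = z ^ (g : ZMod ℓ).val) {u : HeightOneSpectrum (𝓞 K)} (hu : absNorm u.asIdeal = ℓ)
    (hu2 : (ℓ : 𝓞 K) ∉ u.asIdeal ^ 2)
    {Q : HeightOneSpectrum (𝓞 F)} (hQ : TotallyRamifiedAt hz u Q) {β : 𝓞 F} (hβ0 : β ≠ 0)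
    (hβ : (τ • β) * epsFactor hζ hz 1 ^ (∑ c : (ZMod p)ˣ, etaExp c) =
      β * ∏ c : (ZMod p)ˣ, epsFactor hζ hz c ^ etaExp c) :
    (etaUnit hζ : 𝓞 K) - (((g : ZMod ℓ).val ^ expn Q (span {β}) : ℕ) : 𝓞 K) ∈ u.asIdeal := by
  set k := expn Q (span {β})
  set P := Q.asIdeal with hP
  set π := piEll hz with hπdef
  set a := (g : ZMod ℓ).val
  have hl2 := hl.out.two_le
  have hπP : π ∈ P := by rw [hP, hQ.eq_sup]; exact mem_sup_right (mem_span_singleton_self _)
  have hmap : ∀ x ∈ u.asIdeal, algebraMap (𝓞 K) (𝓞 F) x ∈ P ^ (ℓ - 1) := fun x hx => by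
    rw [hP, ← hQ.map_eq]; exact mem_map_of_mem _ hx
  have hunder : P.under (𝓞 K) = u.asIdeal := by
    refine (u.isMaximal.eq_of_le (comap_ne_top _ Q.isPrime.ne_top) fun x hx => ?_).symm
    show algebraMap (𝓞 K) (𝓞 F) x ∈ P
    exact Ideal.pow_le_self (n := ℓ - 1) (by omega) (hmap x hx)
  have hπ2 : π ∉ P ^ 2 := by
    intro h
    have hlu : (ℓ : 𝓞 K) ∈ u.asIdeal := by rw [← hu]; exact absNorm_mem _
    have h1 : (π ^ (ℓ - 1)) ∈ P ^ (2 * (ℓ - 1)) := by rw [pow_mul]; exact pow_mem_pow h _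
    obtain ⟨w, hw⟩ := associated_piEll_pow hz
    have h2 : (ℓ : 𝓞 F) ∈ P ^ (2 * (ℓ - 1)) := hw ▸ (P ^ (2 * (ℓ - 1))).mul_mem_right _ h1
    -- but `ℓ` has exponent `ℓ - 1` at `P`, as `ℓ ∉ u ^ 2`
    have h3 : expn Q ((span {(ℓ : 𝓞 K)}).map (algebraMap (𝓞 K) (𝓞 F))) ≥ 2 * (ℓ - 1) := by
      rw [map_span, Set.image_singleton, map_natCast]
      exact (mem_pow_iff_le_expn Q (NeZero.natCast_ne ℓ (𝓞 F)) _).mp h2
    rw [expn_map u Q hunder (by simpa using NeZero.natCast_ne ℓ (𝓞 K)), hQ.map_eq, expn_pow,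
      expn_asIdeal, if_pos rfl, mul_one] at h3
    have h4 : 2 ≤ expn u (span {(ℓ : 𝓞 K)}) := Nat.le_of_mul_le_mul_right h3 (by omega)
    have h5 : (ℓ : 𝓞 K) ∈ u.asIdeal ^ 2 :=
      (mem_pow_iff_le_expn u (NeZero.natCast_ne ℓ (𝓞 K)) 2).mpr h4
    exact hu2 h5
  have hπ' : π ∉ P ^ (1 + 1) := hπ2
  have hlK : (ℓ : 𝓞 K) ∈ u.asIdeal := by rw [← hu]; exact absNorm_mem _
  have hlP : (ℓ : 𝓞 F) ∈ P := by
    have := Ideal.pow_le_self (n := ℓ - 1) (by omega) (hmap _ hlK)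
    rwa [map_natCast] at this
  -- the residue field is `ℤ/ℓ`
  have hres : ∀ x : 𝓞 F, ∃ n : ℕ, x - (n : 𝓞 F) ∈ P := by
    intro x
    have hc : Nat.card (𝓞 F ⧸ P) = ℓ := by
      rw [← Submodule.cardQuot_apply, ← absNorm_apply]; exact hQ.norm_eq
    have : Finite (𝓞 F ⧸ P) := Nat.finite_of_card_ne_zero (by omega)
    have : Fintype (𝓞 F ⧸ P) := Fintype.ofFinite _
    have e : ZMod ℓ ≃+* 𝓞 F ⧸ P :=
      ZMod.ringEquivOfPrime _ hl.out (by rw [← Nat.card_eq_fintype_card, hc])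
    refine ⟨(e.symm (Ideal.Quotient.mk P x)).val, ?_⟩
    rw [← Ideal.Quotient.eq, map_natCast, ← map_natCast e, ZMod.natCast_zmod_val, e.apply_symm_apply]
  -- the action of `τ` on `π` and on the residue field
  have hτπ : τ • π = π * ∑ i ∈ Finset.range a, hz.toInteger ^ i := by
    have h1 : τ • hz.toInteger = hz.toInteger ^ a := RingOfIntegers.ext hτz
    rw [hπdef, piEll, smul_sub, smul_one, h1, mul_comm, geom_sum_mul_neg]
  have hgeom : (∑ i ∈ Finset.range a, hz.toInteger ^ i) - (a : 𝓞 F) ∈ P := by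
    rw [show (a : 𝓞 F) = ∑ _i ∈ Finset.range a, (1 : 𝓞 F) by simp, ← Finset.sum_sub_distrib]
    refine Ideal.sum_mem _ fun i _ => ?_
    rw [← geom_sum_mul]
    refine P.mul_mem_left _ ?_
    rw [← neg_sub]
    exact neg_mem hπP
  have hτP : ∀ n : ℕ, ∀ x ∈ P ^ n, τ • x ∈ P ^ n := by
    have h1 : P.map (MulSemiringAction.toRingHom Gal(F/K) (𝓞 F) τ) ≤ P := by
      rw [hP, hQ.eq_sup, Ideal.map_sup, Ideal.map_map, map_span, Set.image_singleton]
      refine sup_le (le_of_eq_of_le ?_ le_sup_left) ?_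
      · congr 1
        refine RingHom.ext fun x => ?_
        show τ • algebraMap (𝓞 K) (𝓞 F) x = _
        exact RingOfIntegers.ext (τ.commutes _)
      · rw [span_singleton_le_iff_mem]
        exact mem_sup_right (mem_span_singleton.mpr
          ⟨∑ i ∈ Finset.range a, hz.toInteger ^ i, hτπ⟩)
    intro n x hx
    have h2 := mem_map_of_mem (MulSemiringAction.toRingHom Gal(F/K) (𝓞 F) τ) hx
    rw [Ideal.map_pow] at h2
    exact pow_right_mono h1 n h2
  -- write `β = π ^ k d + e`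
  have hβmem : β ∈ P ^ k := (mem_pow_iff_le_expn Q hβ0 k).mpr le_rfl
  have hπk : π ^ k ∈ P ^ k := pow_mem_pow hπP k
  have hπk' : π ^ k ∉ P ^ (k + 1) := by
    intro h
    have hπ0 : π ≠ 0 := fun h0 => hπ2 (by rw [h0]; exact zero_mem _)
    have h1 := (mem_pow_iff_le_expn Q (pow_ne_zero k hπ0) (k + 1)).mp h
    rw [← span_singleton_pow, expn_pow] at h1
    have h2 : expn Q (span {π}) < 2 := by
      by_contra h2
      exact hπ2 ((mem_pow_iff_le_expn Q hπ0 2).mpr (not_lt.mp h2))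
    have : k * expn Q (span {π}) ≤ k * 1 := Nat.mul_le_mul_left k (by omega)
    omega
  obtain ⟨d, e, he, hde⟩ := exists_mul_add_mem_pow_succ (P := P) Q.ne_bot (π ^ k) β hπk hπk' hβmem
  have hd : d ∉ P := by
    intro hd
    have h1 : β ∈ P ^ (k + 1) := by
      rw [← hde]
      exact add_mem (by rw [pow_succ]; exact mul_mem_mul hπk hd) he
    have := (mem_pow_iff_le_expn Q hβ0 (k + 1)).mp h1
    omega
  -- reduce everything modulo `P ^ (k + 1)`
  let q := Ideal.Quotient.mk (P ^ (k + 1))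
  let r := Ideal.Quotient.mk P
  have hlift : ∀ x y : 𝓞 F, r x = r y → q (π ^ k * x) = q (π ^ k * y) := fun x y h => by
    rw [Ideal.Quotient.eq] at h ⊢
    rw [← mul_sub, pow_succ]
    exact mul_mem_mul hπk h
  set Bf := epsFactor hζ hz 1 ^ (∑ c : (ZMod p)ˣ, etaExp c)
  set Af := ∏ c : (ZMod p)ˣ, epsFactor hζ hz c ^ etaExp c
  have hτd : r (τ • d) = r d := by
    obtain ⟨n, hn⟩ := hres d
    have h1 := hτP 1 _ (by rwa [pow_one])
    rw [pow_one, smul_sub, show τ • (n : 𝓞 F) = n from map_natCast (MulSemiringAction.toRingHom Gal(F/K) (𝓞 F) τ) n] at h1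
    rw [Ideal.Quotient.eq, ← sub_sub_sub_cancel_right (τ • d) d (n : 𝓞 F)]
    exact sub_mem h1 hn
  have hkey : q (π ^ k * ((a : 𝓞 F) ^ k * d * Bf)) = q (π ^ k * (d * Af)) := by
    have h1 : q β = q (π ^ k * d) := by
      rw [Ideal.Quotient.eq, ← hde, add_sub_cancel_left]; exact he
    have h2 : q (τ • β) = q (π ^ k * ((∑ i ∈ Finset.range a, hz.toInteger ^ i) ^ k * (τ • d))) := by
      rw [Ideal.Quotient.eq, ← hde, smul_add, smul_mul', smul_pow', hτπ, mul_pow, mul_assoc,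
        add_sub_cancel_left]
      exact hτP _ _ he
    have h3 := congrArg q hβ
    rw [map_mul, map_mul, h2, ← map_mul, h1, ← map_mul, mul_assoc, mul_assoc] at h3
    refine (hlift _ _ ?_).trans (h3.trans (by rw [mul_assoc]))
    rw [map_mul, map_mul, map_mul, map_mul, map_pow, map_pow, hτd, ← (Ideal.Quotient.eq.mpr hgeom :
      r (∑ i ∈ Finset.range a, hz.toInteger ^ i) = r (a : 𝓞 F))]
    simp only [r, map_pow]
    ring
  have hdiv : r ((a : 𝓞 F) ^ k * Bf) = r Af := by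
    rw [Ideal.Quotient.eq, ← mul_sub] at hkey
    have h1 := mem_prime_of_mul_mem_pow (P := P) Q.ne_bot hπk' hkey
    rw [show (a : 𝓞 F) ^ k * d * Bf - d * Af = d * ((a : 𝓞 F) ^ k * Bf - Af) by ring] at h1
    exact Ideal.Quotient.eq.mpr ((Q.isPrime.mem_or_mem h1).resolve_left hd)
  set ι := algebraMap (𝓞 K) (𝓞 F)
  have hrz : r hz.toInteger = 1 := by
    rw [← map_one r, Ideal.Quotient.eq, ← neg_sub]
    exact neg_mem hπP
  have heps : ∀ c : (ZMod p)ˣ,
      r (epsFactor hζ hz c) = r (ι ((xiUnit hζ c : 𝓞 K) * (-lam hζ))) := fun c => by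
    rw [epsFactor, map_sub, hrz, mul_neg, xiUnit_mul_lam, neg_sub, map_sub, map_one, map_sub,
      map_one]
  have hone : (xiUnit hζ 1 : 𝓞 K) = 1 := by
    rw [coe_xiUnit, Units.val_one, ZMod.val_one]
    simp
  have hlam : r (ι (-lam hζ)) ≠ 0 := by
    rw [ne_eq, Ideal.Quotient.eq_zero_iff_mem]
    intro h
    have h' : lam hζ ∈ u.asIdeal := by rw [← hunder]; exact neg_mem_iff.mp (by simpa using h)
    have hpu : (p : 𝓞 K) ∈ u.asIdeal := by
      obtain ⟨w, hw⟩ := associated_lam_pow hζ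
      rw [← hw]
      exact u.asIdeal.mul_mem_right _ (Ideal.pow_mem_of_mem _ h' _
        (by have := (Fact.out : p.Prime).two_le; omega))
    have hlp : Nat.Coprime ℓ p := by
      refine (Nat.coprime_primes hl.out Fact.out).mpr fun h => ?_
      have := Nat.le_of_dvd (by omega) hpl
      omega
    apply u.isPrime.ne_top
    rw [eq_top_iff_one, ← Nat.cast_one, ← hlp.gcd_eq_one]
    have := congrArg (Int.cast : ℤ → 𝓞 K) (Nat.gcd_eq_gcd_ab ℓ p)
    push_cast at this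
    rw [this]
    exact add_mem (u.asIdeal.mul_mem_right _ hlK) (u.asIdeal.mul_mem_right _ hpu)
  have hrA : r Af = r (ι (etaUnit hζ : 𝓞 K)) *
      r (ι (-lam hζ)) ^ (∑ c : (ZMod p)ˣ, etaExp c) := by
    simp only [Af, map_prod, map_pow, heps, map_mul, mul_pow, Finset.prod_mul_distrib,
      Finset.prod_pow_eq_pow_sum, etaUnit, Units.coe_prod, Units.val_pow_eq_pow_val]
  have hrB : r Bf = r (ι (-lam hζ)) ^ (∑ c : (ZMod p)ˣ, etaExp c) := by
    simp only [Bf, map_pow, heps, hone, one_mul]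
  rw [map_mul, map_pow, hrA, hrB] at hdiv
  have : Nontrivial (𝓞 F ⧸ P) := Ideal.Quotient.nontrivial_iff.mpr Q.isPrime.ne_top
  have : IsDomain (𝓞 F ⧸ P) := Ideal.Quotient.isDomain P
  have hfin := mul_right_cancel₀ (pow_ne_zero _ hlam) hdiv
  rw [← hunder, under, mem_comap]
  rw [map_sub, map_natCast, Ideal.Quotient.eq.symm, Nat.cast_pow, map_pow]
  exact hfin.symm

include hz in
/-- Thaine's element, in a given model of `K(ζ_ℓ)`. -/
lemma exists_thaine_element_aux (hpl : p ∣ ℓ - 1) (u₀ : HeightOneSpectrum (𝓞 K))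
    (hu₀ : absNorm u₀.asIdeal = ℓ) (hu₀2 : (ℓ : 𝓞 K) ∉ u₀.asIdeal ^ 2) :
    ∃ g : (ZMod ℓ)ˣ, (∀ x, x ∈ Subgroup.zpowers g) ∧ ∃ N : 𝓞 K, N ≠ 0 ∧
      (∀ u : HeightOneSpectrum (𝓞 K), (ℓ : 𝓞 K) ∉ u.asIdeal → p ∣ expn u (span {N})) ∧
      ∀ u : HeightOneSpectrum (𝓞 K), absNorm u.asIdeal = ℓ → (ℓ : 𝓞 K) ∉ u.asIdeal ^ 2 →
        (etaUnit hζ : 𝓞 K) - (((g : ZMod ℓ).val ^ expn u (span {N}) : ℕ) : 𝓞 K) ∈ u.asIdeal := by
  obtain ⟨Q₀, hQ₀⟩ := exists_totallyRamified hz u₀ hu₀ hu₀2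
  have hd := hQ₀.finrank_eq
  have : IsGalois K F := isGalois_aux hz
  have hirr := irreducible_cyclotomic_of_finrank hz hd
  obtain ⟨g, hg⟩ := IsCyclic.exists_generator (α := (ZMod ℓ)ˣ)
  set e := IsCyclotomicExtension.autEquivPow F hirr with he
  set τ := e.symm g with hτdef
  have hτ : ∀ σ, σ ∈ Subgroup.zpowers τ := fun σ => by
    obtain ⟨n, hn⟩ := hg (e σ)
    exact ⟨n, by
      show τ ^ n = σ
      rw [hτdef, ← map_zpow, show g ^ n = e σ from hn, MulEquiv.symm_apply_apply]⟩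
  have hτz : τ z = z ^ (g : ZMod ℓ).val := by
    have h1 : e τ = g := by rw [hτdef, MulEquiv.apply_symm_apply]
    obtain ⟨i, hi, rfl⟩ := (IsCyclotomicExtension.zeta_spec ℓ K F).eq_pow_of_pow_eq_one hz.pow_eq_one
    rw [map_pow, pow_right_comm, ← h1, he, IsCyclotomicExtension.autEquivPow_apply,
      OneHom.toFun_eq_coe, MonoidHom.toOneHom_coe, IsPrimitiveRoot.autToPow_spec]
  obtain ⟨β, hβ0, hβ⟩ := exists_beta hζ hz hd hpl τ hτ
  set N := RingOfIntegers.norm K β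
  have hN : algebraMap (𝓞 K) (𝓞 F) N = ∏ σ : Gal(F/K), σ • β := by
    refine RingOfIntegers.ext ?_
    change algebraMap (𝓞 F) F _ = algebraMap (𝓞 F) F _
    rw [map_prod, ← IsScalarTower.algebraMap_apply, IsScalarTower.algebraMap_apply (𝓞 K) K F]
    exact Algebra.norm_eq_prod_automorphisms K _
  have hspan : (span {N}).map (algebraMap (𝓞 K) (𝓞 F)) = span {β} ^ (ℓ - 1) := by
    rw [map_span, Set.image_singleton, hN, ← prod_span_singleton,
      Finset.prod_congr rfl fun σ _ => span_smul_beta hζ hz hd hpl τ hτ hβ σ, Finset.prod_const,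
      Finset.card_univ, ← Nat.card_eq_fintype_card, IsGalois.card_aut_eq_finrank, hd]
  have hN0 : N ≠ 0 := fun h => by
    rw [h, map_span, Set.image_singleton, map_zero, span_singleton_zero] at hspan
    exact hβ0 (span_singleton_eq_bot.mp (eq_zero_of_pow_eq_zero hspan.symm))
  have hspanN : span {N} ≠ ⊥ := by simpa using hN0
  have hexp : ∀ (u : HeightOneSpectrum (𝓞 K)) (Q : HeightOneSpectrum (𝓞 F)),
      Q.asIdeal.under (𝓞 K) = u.asIdeal →
      expn u (span {N}) * expn Q (u.asIdeal.map (algebraMap (𝓞 K) (𝓞 F))) =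
        (ℓ - 1) * expn Q (span {β}) := fun u Q hQ => by
    rw [← expn_map u Q hQ hspanN, hspan, expn_pow]
  refine ⟨g, hg, N, hN0, fun u hu => ?_, fun u hu hu2 => ?_⟩
  · obtain ⟨Q, hQ⟩ := exists_liesOver (F := F) u
    have h := hexp u Q hQ
    rw [expn_map_eq_one hz u hu Q hQ, mul_one] at h
    rw [h]
    exact dvd_mul_of_dvd_left hpl _
  · obtain ⟨Q, hQ⟩ := exists_totallyRamified hz u hu hu2
    have hunder : Q.asIdeal.under (𝓞 K) = u.asIdeal := by
      refine (u.isMaximal.eq_of_le (comap_ne_top _ Q.isPrime.ne_top) fun x hx => ?_).symm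
      show algebraMap (𝓞 K) (𝓞 F) x ∈ Q.asIdeal
      refine Ideal.pow_le_self (n := ℓ - 1) (by have := hl.out.two_le; omega) ?_
      rw [← hQ.map_eq]
      exact mem_map_of_mem _ hx
    have h := hexp u Q hunder
    rw [hQ.map_eq, expn_pow, expn_asIdeal, if_pos rfl, mul_one, mul_comm (ℓ - 1)] at h
    rw [Nat.mul_right_cancel (by have := hl.out.two_le; omega) h]
    exact eta_residue hζ hz hpl g τ hτz hu hu2 hQ hβ0 hβ

/-- Thaine's element. -/
theorem exists_thaine_element {l : ℕ} (hℓ : l.Prime) (hpl : p ∣ l - 1) (u₀ : HeightOneSpectrum (𝓞 K))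
    (hu₀ : absNorm u₀.asIdeal = l) (hu₀2 : (l : 𝓞 K) ∉ u₀.asIdeal ^ 2) :
    ∃ g : (ZMod l)ˣ, (∀ x, x ∈ Subgroup.zpowers g) ∧ ∃ N : 𝓞 K, N ≠ 0 ∧
      (∀ u : HeightOneSpectrum (𝓞 K), (l : 𝓞 K) ∉ u.asIdeal → p ∣ expn u (span {N})) ∧
      ∀ u : HeightOneSpectrum (𝓞 K), absNorm u.asIdeal = l → (l : 𝓞 K) ∉ u.asIdeal ^ 2 →
        (etaUnit hζ : 𝓞 K) - (((g : ZMod l).val ^ expn u (span {N}) : ℕ) : 𝓞 K) ∈ u.asIdeal := by
  have : Fact l.Prime := ⟨hℓ⟩
  have : NeZero (l : K) := ⟨Nat.cast_ne_zero.mpr hℓ.ne_zero⟩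
  have : NumberField (CyclotomicField l K) :=
    IsCyclotomicExtension.numberField {l} K (CyclotomicField l K)
  exact exists_thaine_element_aux hζ (IsCyclotomicExtension.zeta_spec l K (CyclotomicField l K))
    hpl u₀ hu₀ hu₀2

end FermatLib.CFT.ExtVanish
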