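import Fermat.Agent.CFT.S14.ClassZeta
import Fermat.Agent.CFT.S14.CycloLocal
import Mathlib.NumberTheory.NumberField.Cyclotomic.Embeddings
import Mathlib.NumberTheory.NumberField.InfinitePlace.Ramification
import Mathlib.LinearAlgebra.Trace

/-!
# The `ω²`-eigenspace of units modulo `p`-th powers has dimension at most one

The integral matrices of the Galois action on units modulo torsion have the traces of the
augmentation representation; hence the projector onto an eigenspace modulo `p` has trace `1`.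
-/

set_option autoImplicit false

namespace FermatLib.CFT.ExtVanish

open NumberField NumberField.InfinitePlace NumberField.Units
  NumberField.Units.dirichletUnitTheorem Module Finset FermatLib.CFT.PartialZeta
open scoped Classical

variable (p : ℕ) [Fact p.Prime] (K : Type*) [Field K] [NumberField K]
  [IsCyclotomicExtension {p} ℚ K]

/-- The Galois automorphism `ζ ↦ ζ ^ c`. -/
noncomputable def sig (c : (ZMod p)ˣ) : Gal(K/ℚ) :=
  (IsCyclotomicExtension.Rat.galEquivZMod p K).symm c

lemma sig_mul (c d : (ZMod p)ˣ) : sig p K (c * d) = sig p K c * sig p K d := map_mul _ c d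

lemma sig_one : sig p K 1 = 1 := map_one _

variable {p K}

lemma sig_apply_zeta {ζ : K} (hζ : IsPrimitiveRoot ζ p) (c : (ZMod p)ˣ) :
    sig p K c ζ = ζ ^ (c : ZMod p).val := by
  rw [IsCyclotomicExtension.Rat.galEquivZMod_apply_of_pow_eq p K _ hζ.pow_eq_one, sig,
    MulEquiv.apply_symm_apply]

lemma sig_symm_apply_zeta {ζ : K} (hζ : IsPrimitiveRoot ζ p) (c : (ZMod p)ˣ) :
    (sig p K c).symm ζ = ζ ^ ((c⁻¹ : (ZMod p)ˣ) : ZMod p).val := by
  rw [← sig_apply_zeta hζ, AlgEquiv.symm_apply_eq, ← AlgEquiv.mul_apply, ← sig_mul, mul_inv_cancel,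
    sig_one, AlgEquiv.one_apply]

variable (p K)

/-- The Galois action on units. -/
noncomputable def galUnit (c : (ZMod p)ˣ) : (𝓞 K)ˣ →* (𝓞 K)ˣ :=
  Units.map (MulSemiringAction.toRingHom Gal(K/ℚ) (𝓞 K) (sig p K c)).toMonoidHom

lemma coe_galUnit (c : (ZMod p)ˣ) (u : (𝓞 K)ˣ) :
    (galUnit p K c u : 𝓞 K) = sig p K c • (u : 𝓞 K) := rfl

lemma galUnit_mul (c d : (ZMod p)ˣ) (u : (𝓞 K)ˣ) :
    galUnit p K (c * d) u = galUnit p K c (galUnit p K d u) :=
  Units.ext (by rw [coe_galUnit, coe_galUnit, coe_galUnit, sig_mul, mul_smul])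

variable {p K}

/-- Integral exponents of a unit with respect to the fundamental system. -/
noncomputable def expoRaw (u : (𝓞 K)ˣ) : Fin (rank K) → ℤ :=
  (exist_unique_eq_mul_prod K u).exists.choose.2

omit [IsCyclotomicExtension {p} ℚ K] in
lemma exists_eq_torsion_mul_expoRaw (u : (𝓞 K)ˣ) : ∃ t : torsion K,
    u = (t : (𝓞 K)ˣ) * ∏ i, fundSystem K i ^ expoRaw u i :=
  ⟨_, (exist_unique_eq_mul_prod K u).exists.choose_spec⟩

omit [IsCyclotomicExtension {p} ℚ K] in
lemma expoRaw_eq {u : (𝓞 K)ˣ} (t : torsion K) (e : Fin (rank K) → ℤ)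
    (h : u = (t : (𝓞 K)ˣ) * ∏ i, fundSystem K i ^ e i) : expoRaw u = e :=
  congrArg Prod.snd ((exist_unique_eq_mul_prod K u).unique
    (exist_unique_eq_mul_prod K u).exists.choose_spec (y₂ := (t, e)) h)

/-- `expoRaw` as an additive map. -/
noncomputable def expoZ : Additive (𝓞 K)ˣ →+ (Fin (rank K) → ℤ) :=
  AddMonoidHom.mk' (fun u => expoRaw u.toMul) fun u v => by
    obtain ⟨t, ht⟩ := exists_eq_torsion_mul_expoRaw u.toMul
    obtain ⟨t', ht'⟩ := exists_eq_torsion_mul_expoRaw v.toMul
    refine expoRaw_eq (t * t') _ ?_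
    rw [toMul_add]
    conv_lhs => rw [ht, ht']
    rw [Subgroup.coe_mul, mul_mul_mul_comm, ← Finset.prod_mul_distrib]
    simp only [Pi.add_apply, zpow_add]

lemma exists_eq_torsion_mul_prod (u : (𝓞 K)ˣ) : ∃ t : torsion K,
    u = (t : (𝓞 K)ˣ) * ∏ i, fundSystem K i ^ expoZ (Additive.ofMul u) i :=
  exists_eq_torsion_mul_expoRaw u

lemma expoZ_mul_prod (t : torsion K) (e : Fin (rank K) → ℤ) :
    expoZ (Additive.ofMul ((t : (𝓞 K)ˣ) * ∏ i, fundSystem K i ^ e i)) = e :=
  expoRaw_eq t e rfl

lemma logEmbedding_eq_sum (u : (𝓞 K)ˣ) :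
    logEmbedding K (Additive.ofMul u) =
      ∑ i, (expoZ (Additive.ofMul u) i : ℝ) • unitBasis K i := by
  obtain ⟨t, ht⟩ := exists_eq_torsion_mul_prod u
  conv_lhs => rw [ht, logMap_fundUnits]

/-- A full vector of the log space. -/
noncomputable def extLog : logSpace K →ₗ[ℝ] (InfinitePlace K → ℝ) where
  toFun t v := if h : v = w₀ then -∑ w, t w else t ⟨v, h⟩
  map_add' t t' := by
    ext v
    by_cases h : v = w₀ <;> simp [h, Finset.sum_add_distrib, add_comm]
  map_smul' r t := by
    ext v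
    by_cases h : v = w₀ <;> simp [h, Finset.mul_sum]

variable (p K) in
/-- The Galois action on the log space. -/
noncomputable def pMap (c : (ZMod p)ˣ) : logSpace K →ₗ[ℝ] logSpace K where
  toFun t w := extLog t ((sig p K c)⁻¹ • w.1)
  map_add' t t' := by ext w; simp [map_add]
  map_smul' r t := by ext w; simp [map_smul]

lemma extLog_logEmbedding (u : (𝓞 K)ˣ) (v : InfinitePlace K) :
    extLog (logEmbedding K (Additive.ofMul u)) v = mult v * Real.log (v (u : K)) := by
  show (if h : v = w₀ then _ else _) = _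
  split_ifs with h
  · subst h
    rw [sum_logEmbedding_component]
    ring
  · rfl

lemma mult_eq_two (hp : 2 < p) (v : InfinitePlace K) : mult v = 2 := by
  have := IsCyclotomicExtension.Rat.isTotallyComplex (n := p) K hp
  exact mult_isComplex ⟨v, IsTotallyComplex.isComplex v⟩

lemma pMap_logEmbedding (hp : 2 < p) (c : (ZMod p)ˣ) (u : (𝓞 K)ˣ) :
    pMap p K c (logEmbedding K (Additive.ofMul u)) =
      logEmbedding K (Additive.ofMul (galUnit p K c u)) := by
  ext w
  show extLog _ _ = _
  rw [extLog_logEmbedding, logEmbedding_component, mult_eq_two hp, mult_eq_two hp]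
  congr 2

variable (p K) in
/-- The integral matrix of the Galois action. -/
noncomputable def galMatrix (c : (ZMod p)ˣ) : Matrix (Fin (rank K)) (Fin (rank K)) ℤ :=
  Matrix.of fun i j => expoZ (Additive.ofMul (galUnit p K c (fundSystem K j))) i

lemma trace_galMatrix (hp : 2 < p) (c : (ZMod p)ˣ) :
    ((galMatrix p K c).trace : ℝ) = LinearMap.trace ℝ _ (pMap p K c) := by
  rw [LinearMap.trace_eq_matrix_trace ℝ (unitBasis K)]
  simp only [Matrix.trace, Int.cast_sum, Matrix.diag_apply]
  refine Finset.sum_congr rfl fun i _ => ?_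
  rw [LinearMap.toMatrix_apply, unitBasis_apply, pMap_logEmbedding hp, logEmbedding_eq_sum,
    Basis.repr_sum_self]
  rfl

lemma galUnit_torsion {t : (𝓞 K)ˣ} (ht : t ∈ torsion K) (c : (ZMod p)ˣ) :
    galUnit p K c t ∈ torsion K :=
  (CommGroup.mem_torsion _).mpr
    (MonoidHom.isOfFinOrder (galUnit p K c) ((CommGroup.mem_torsion _).mp ht))

lemma expoZ_torsion {t : (𝓞 K)ˣ} (ht : t ∈ torsion K) : expoZ (Additive.ofMul t) = 0 := by
  simpa using expoZ_mul_prod ⟨t, ht⟩ 0

/-- Exponents of the fundamental units modulo `p`. -/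
noncomputable def expo (u : (𝓞 K)ˣ) : Fin (rank K) → ZMod p :=
  fun i => (expoZ (Additive.ofMul u) i : ZMod p)

omit [IsCyclotomicExtension {p} ℚ K] in
lemma expo_mul (u v : (𝓞 K)ˣ) : (expo (u * v) : Fin (rank K) → ZMod p) = expo u + expo v := by
  funext i
  simp only [expo, ofMul_mul, map_add, Pi.add_apply, Int.cast_add]

omit [IsCyclotomicExtension {p} ℚ K] in
lemma expo_pow (u : (𝓞 K)ˣ) (n : ℕ) :
    (expo (u ^ n) : Fin (rank K) → ZMod p) = (n : ZMod p) • expo u := by
  funext i
  simp only [expo, ofMul_pow, map_nsmul, Pi.smul_apply, smul_eq_mul, nsmul_eq_mul, Int.cast_mul,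
    Int.cast_natCast]

lemma expo_galUnit (c : (ZMod p)ˣ) (u : (𝓞 K)ˣ) :
    (expo (galUnit p K c u) : Fin (rank K) → ZMod p) =
      ((galMatrix p K c).map (Int.castRingHom (ZMod p))).mulVec (expo u) := by
  obtain ⟨t, ht⟩ := exists_eq_torsion_mul_prod u
  funext i
  show ((expoZ (Additive.ofMul (galUnit p K c u)) i : ℤ) : ZMod p) = _
  conv_lhs => rw [ht, map_mul, map_prod, ofMul_mul, ofMul_prod, map_add,
    expoZ_torsion (galUnit_torsion t.2 c), map_sum, zero_add]
  simp only [map_zpow, ofMul_zpow, map_zsmul, Finset.sum_apply, Pi.smul_apply, smul_eq_mul,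
    Int.cast_sum, Int.cast_mul, Matrix.mulVec, dotProduct, Matrix.map_apply, galMatrix,
    Matrix.of_apply, eq_intCast, expo]
  exact Finset.sum_congr rfl fun j _ => mul_comm _ _

omit [IsCyclotomicExtension {p} ℚ K] in
lemma exists_expo_eq (v : Fin (rank K) → ZMod p) : ∃ u : (𝓞 K)ˣ, expo u = v := by
  refine ⟨∏ i, fundSystem K i ^ ((v i).val : ℤ), ?_⟩
  funext i
  have h := expoZ_mul_prod (K := K) 1 fun i => ((v i).val : ℤ)
  rw [OneMemClass.coe_one, one_mul] at h
  show ((expoZ (Additive.ofMul (∏ i, fundSystem K i ^ ((v i).val : ℤ))) i : ℤ) : ZMod p) = v i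
  rw [h]
  push_cast
  exact ZMod.natCast_zmod_val _

lemma eq_or_eq_neg_of_smul_place {ζ : K} (hζ : IsPrimitiveRoot ζ p) {c : (ZMod p)ˣ}
    {w : InfinitePlace K} (h : sig p K c • w = w) : c = 1 ∨ c = -1 := by
  have hn : ‖w.embedding ζ‖ = 1 :=
    Complex.norm_eq_one_of_pow_eq_one (by rw [← map_pow, hζ.pow_eq_one, map_one])
      (Fact.out : p.Prime).ne_zero
  have hprim : IsPrimitiveRoot (w.embedding ζ) p := hζ.map_of_injective w.embedding.injective
  rw [← mk_embedding w, smul_mk, mk_eq_iff] at h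
  rcases h with h | h
  · have h1 := RingHom.congr_fun h ζ
    rw [RingHom.comp_apply, RingHom.coe_coe, sig_symm_apply_zeta hζ, map_pow] at h1
    conv_rhs at h1 => rw [← pow_one (w.embedding ζ)]
    have h2 := hprim.pow_inj (ZMod.val_lt _) (Fact.out : p.Prime).one_lt h1
    left
    refine inv_eq_one.mp (Units.ext ?_)
    rw [← ZMod.natCast_zmod_val ((c⁻¹ : (ZMod p)ˣ) : ZMod p), h2, Nat.cast_one, Units.val_one]
  · have h1 := RingHom.congr_fun h ζ
    simp only [ComplexEmbedding.conjugate_coe_eq, RingHom.comp_apply, RingHom.coe_coe,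
      sig_symm_apply_zeta hζ, map_pow] at h1
    rw [← Complex.inv_eq_conj hn, inv_pow,
      ← mul_eq_one_iff_inv_eq₀ (pow_ne_zero _ (hprim.ne_zero (Fact.out : p.Prime).ne_zero)),
      ← pow_succ] at h1
    have h2 := hprim.pow_eq_one_iff_dvd _ |>.mp h1
    rw [← ZMod.natCast_eq_zero_iff, Nat.cast_add, Nat.cast_one, ZMod.natCast_zmod_val] at h2
    right
    rw [← inv_inj, inv_neg, inv_one]
    exact Units.ext (by rw [Units.val_neg, Units.val_one]; linear_combination h2)

lemma smul_place_of_neg_one {ζ : K} (hζ : IsPrimitiveRoot ζ p) (w : InfinitePlace K) :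
    sig p K (-1) • w = w := by
  have hn : ‖w.embedding ζ‖ = 1 :=
    Complex.norm_eq_one_of_pow_eq_one (by rw [← map_pow, hζ.pow_eq_one, map_one])
      (Fact.out : p.Prime).ne_zero
  conv_lhs => rw [← mk_embedding w, smul_mk]
  conv_rhs => rw [← mk_embedding w]
  refine mk_eq_iff.mpr (Or.inr ?_)
  have key : ComplexEmbedding.conjugate (w.embedding.comp ((sig p K (-1)).symm : K →+* K)) ζ =
      w.embedding ζ := by
    rw [ComplexEmbedding.conjugate_coe_eq, RingHom.comp_apply, RingHom.coe_coe,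
      sig_symm_apply_zeta hζ, map_pow, map_pow, ← Complex.inv_eq_conj hn, inv_pow, inv_neg, inv_one,
      ← mul_eq_one_iff_inv_eq₀ (pow_ne_zero _
        ((hζ.map_of_injective w.embedding.injective).ne_zero (Fact.out : p.Prime).ne_zero)),
      ← pow_succ, (hζ.map_of_injective w.embedding.injective).pow_eq_one_iff_dvd,
      ← ZMod.natCast_eq_zero_iff, Nat.cast_add, Nat.cast_one, ZMod.natCast_zmod_val]
    simp
  have : (ComplexEmbedding.conjugate
      (w.embedding.comp ((sig p K (-1)).symm : K →+* K))).toRatAlgHom = w.embedding.toRatAlgHom :=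
    (hζ.powerBasis ℚ).algHom_ext (by simpa using key)
  exact RingHom.ext fun x => DFunLike.congr_fun this x

lemma trace_pMap {ζ : K} (hζ : IsPrimitiveRoot ζ p) (c : (ZMod p)ˣ) :
    LinearMap.trace ℝ _ (pMap p K c) =
      if c = 1 ∨ c = -1 then (rank K : ℝ) else -1 := by
  split_ifs with hc
  · have hid : pMap p K c = LinearMap.id := by
      refine LinearMap.ext fun t => funext fun w => ?_
      show extLog t ((sig p K c)⁻¹ • w.1) = t w
      have hfix : (sig p K c)⁻¹ • w.1 = w.1 := by
        rw [inv_smul_eq_iff]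
        rcases hc with rfl | rfl
        · rw [sig_one, one_smul]
        · exact (smul_place_of_neg_one hζ w.1).symm
      rw [hfix]
      exact dif_neg w.2
    rw [hid, LinearMap.trace_id, Module.finrank_fintype_fun_eq_card]
    congr 1
    rw [Units.rank, Fintype.card_subtype_compl, Fintype.card_subtype_eq]
  · rw [LinearMap.trace_eq_matrix_trace ℝ (Pi.basisFun ℝ _)]
    simp only [Matrix.trace, Matrix.diag_apply, LinearMap.toMatrix_apply, Pi.basisFun_repr,
      Pi.basisFun_apply]
    have hne : ∀ v : InfinitePlace K, (sig p K c)⁻¹ • v ≠ v := fun v h => by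
      rw [inv_smul_eq_iff] at h
      exact hc (eq_or_eq_neg_of_smul_place hζ h.symm)
    set i₀ : {w : InfinitePlace K // w ≠ w₀} := ⟨sig p K c • w₀, fun h =>
      hc (eq_or_eq_neg_of_smul_place hζ h)⟩
    rw [Finset.sum_eq_single i₀]
    · show extLog _ ((sig p K c)⁻¹ • (sig p K c • w₀)) = -1
      rw [inv_smul_smul]
      show (if h : (w₀ : InfinitePlace K) = w₀ then _ else _) = _
      rw [dif_pos rfl, Finset.sum_pi_single']
      simp
    · intro i _ hi
      have hne0 : (sig p K c)⁻¹ • i.1 ≠ w₀ := fun h => hi (Subtype.ext (by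
        rw [inv_smul_eq_iff] at h; exact h))
      show (if h : (sig p K c)⁻¹ • i.1 = w₀ then _ else _) = _
      rw [dif_neg hne0, Pi.single_eq_of_ne]
      exact fun h => hne i.1 (congrArg Subtype.val h)
    · exact fun h => absurd (Finset.mem_univ _) h

lemma two_mul_rank_add_two (hp : 2 < p) : 2 * rank K + 2 = p - 1 := by
  have h1 := IsCyclotomicExtension.Rat.nrComplexPlaces_eq_totient_div_two p (K := K)
  have h2 := IsCyclotomicExtension.Rat.nrRealPlaces_eq_zero (n := p) K hp
  rw [Nat.totient_prime (Fact.out : p.Prime)] at h1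
  have h3 := card_eq_nrRealPlaces_add_nrComplexPlaces (K := K)
  obtain ⟨k, hk⟩ := (Fact.out : p.Prime).odd_of_ne_two (by omega)
  rw [Units.rank]
  omega

variable (p K) in
/-- The projector onto the `c ↦ c²` eigenspace. -/
noncomputable def eigProj : (Fin (rank K) → ZMod p) →ₗ[ZMod p] (Fin (rank K) → ZMod p) :=
  -∑ c : (ZMod p)ˣ, ((((c⁻¹ : (ZMod p)ˣ) : ZMod p)) ^ 2) •
    Matrix.mulVecLin ((galMatrix p K c).map (Int.castRingHom (ZMod p)))

lemma eigProj_eigen (hp : 5 ≤ p) {v : Fin (rank K) → ZMod p}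
    (hv : ∀ c : (ZMod p)ˣ,
      ((galMatrix p K c).map (Int.castRingHom (ZMod p))).mulVec v = ((c : ZMod p) ^ 2) • v) :
    eigProj p K v = v := by
  simp only [eigProj, LinearMap.neg_apply, LinearMap.sum_apply, LinearMap.smul_apply,
    Matrix.mulVecLin_apply, hv, smul_smul, ← mul_pow]
  have h1 : ∀ c : (ZMod p)ˣ, (((c⁻¹ : (ZMod p)ˣ) : ZMod p) * (c : ZMod p)) ^ 2 = 1 := fun c => by
    rw [← Units.val_mul, inv_mul_cancel, Units.val_one, one_pow]
  simp only [h1, one_smul, Finset.sum_const, Finset.card_univ, ZMod.card_units_eq_totient,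
    Nat.totient_prime (Fact.out : p.Prime), ← Nat.cast_smul_eq_nsmul (ZMod p)]
  rw [Nat.cast_sub (by omega : 1 ≤ p), ZMod.natCast_self, Nat.cast_one, zero_sub]
  simp

lemma galMatrix_mulVec_mul (c d : (ZMod p)ˣ) (v : Fin (rank K) → ZMod p) :
    ((galMatrix p K (c * d)).map (Int.castRingHom (ZMod p))).mulVec v =
      ((galMatrix p K c).map (Int.castRingHom (ZMod p))).mulVec
        (((galMatrix p K d).map (Int.castRingHom (ZMod p))).mulVec v) := by
  obtain ⟨u, rfl⟩ := exists_expo_eq v
  rw [← expo_galUnit, ← expo_galUnit, ← expo_galUnit, galUnit_mul]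

lemma eigProj_mem (d : (ZMod p)ˣ) (v : Fin (rank K) → ZMod p) :
    ((galMatrix p K d).map (Int.castRingHom (ZMod p))).mulVec (eigProj p K v) =
      ((d : ZMod p) ^ 2) • eigProj p K v := by
  simp only [eigProj, LinearMap.neg_apply, LinearMap.sum_apply, LinearMap.smul_apply,
    Matrix.mulVecLin_apply, Matrix.mulVec_neg, Matrix.mulVec_sum, Matrix.mulVec_smul,
    ← galMatrix_mulVec_mul, smul_neg, Finset.smul_sum, smul_smul]
  congr 1
  refine Fintype.sum_equiv (Equiv.mulLeft d) _ _ fun c => ?_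
  rw [Equiv.coe_mulLeft, ← mul_pow, mul_inv_rev, Units.val_mul, mul_comm (d : ZMod p),
    mul_assoc, ← Units.val_mul d⁻¹ d, inv_mul_cancel, Units.val_one, mul_one]

/-- Two eigenvectors of the exponent representation are proportional. -/
theorem eigen_expo_proportional (hp : 5 ≤ p) {ζ : K} (hζ : IsPrimitiveRoot ζ p)
    {a b : Fin (rank K) → ZMod p}
    (ha : ∀ c : (ZMod p)ˣ,
      ((galMatrix p K c).map (Int.castRingHom (ZMod p))).mulVec a = ((c : ZMod p) ^ 2) • a)
    (hb : ∀ c : (ZMod p)ˣ,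
      ((galMatrix p K c).map (Int.castRingHom (ZMod p))).mulVec b = ((c : ZMod p) ^ 2) • b)
    (ha0 : a ≠ 0) : ∃ j : ZMod p, b = j • a := by
  have hproj : LinearMap.IsProj (eigProj p K).range (eigProj p K) := by
    refine ⟨fun v => LinearMap.mem_range_self _ v, ?_⟩
    rintro _ ⟨v, rfl⟩
    exact eigProj_eigen hp fun c => eigProj_mem c v
  have htr : LinearMap.trace (ZMod p) _ (eigProj p K) = 1 := by
    have hT : ∀ c : (ZMod p)ˣ, LinearMap.trace (ZMod p) _
        (Matrix.mulVecLin ((galMatrix p K c).map (Int.castRingHom (ZMod p)))) =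
        if c = 1 ∨ c = -1 then (rank K : ZMod p) else -1 := fun c => by
      have h := (trace_galMatrix (by omega) c).trans (trace_pMap hζ c)
      rw [← Matrix.toLin'_apply', Matrix.trace_toLin'_eq, ← AddMonoidHom.map_trace
        (Int.castRingHom (ZMod p))]
      split_ifs at h ⊢ with hc
      · have h' : (galMatrix p K c).trace = (rank K : ℤ) := by exact_mod_cast h
        simp [h']
      · have h' : (galMatrix p K c).trace = (-1 : ℤ) := by exact_mod_cast h
        simp [h']
    simp only [eigProj, map_neg, map_sum, map_smul, hT, smul_eq_mul]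
    have hne : (1 : (ZMod p)ˣ) ≠ -1 := fun h => by
      have h1 : ((2 : ℕ) : ZMod p) = 0 := by
        have h0 := congrArg (fun u : (ZMod p)ˣ => (u : ZMod p)) h
        simp at h0
        push_cast
        linear_combination h0
      have := Nat.le_of_dvd two_pos ((ZMod.natCast_eq_zero_iff 2 p).mp h1)
      omega
    have e : ∀ c : (ZMod p)ˣ, ((c⁻¹ : (ZMod p)ˣ) : ZMod p) ^ 2 *
        (if c = 1 ∨ c = -1 then (rank K : ZMod p) else -1) =
        -(((c⁻¹ : (ZMod p)ˣ) : ZMod p) ^ 2) + (if c = 1 then (rank K : ZMod p) + 1 else 0) +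
          (if c = -1 then (rank K : ZMod p) + 1 else 0) := by
      intro c
      by_cases h1 : c = 1
      · subst h1
        simp only [true_or, if_true, inv_one, Units.val_one, one_pow, one_mul, if_neg hne]
        ring
      · by_cases h2 : c = -1
        · subst h2
          simp only [or_true, if_true, inv_neg, inv_one, Units.val_neg, Units.val_one, neg_sq,
            one_pow, one_mul, if_neg hne.symm]
          ring
        · simp only [h1, h2, or_self, if_false, mul_neg, mul_one, add_zero]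
    rw [Finset.sum_congr rfl fun c _ => e c, Finset.sum_add_distrib, Finset.sum_add_distrib,
      Finset.sum_neg_distrib, sum_inv_pow_eq_zero (fun hd => by
        have := Nat.le_of_dvd two_pos hd; omega), Finset.sum_ite_eq', Finset.sum_ite_eq']
    have h := congrArg (Nat.cast : ℕ → ZMod p) (two_mul_rank_add_two (p := p) (K := K) (by omega))
    rw [Nat.cast_sub (by omega : 1 ≤ p)] at h
    push_cast [ZMod.natCast_self] at h
    simp only [Finset.mem_univ, if_true]
    linear_combination -h
  rw [hproj.trace] at htr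
  have hle : finrank (ZMod p) (eigProj p K).range ≤ rank K :=
    (Submodule.finrank_le _).trans_eq (Module.finrank_fin_fun (ZMod p))
  have hlt : rank K < p := by have := two_mul_rank_add_two (p := p) (K := K) (by omega); omega
  have h1 : finrank (ZMod p) (eigProj p K).range = 1 := by
    rw [← Nat.cast_one, ZMod.natCast_eq_natCast_iff', Nat.mod_eq_of_lt (by omega),
      Nat.mod_eq_of_lt (by omega)] at htr
    exact htr
  obtain ⟨j, hj⟩ := exists_smul_eq_of_finrank_eq_one h1
    (x := ⟨a, a, eigProj_eigen hp ha⟩) (fun h => ha0 (congrArg Subtype.val h))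
    ⟨b, b, eigProj_eigen hp hb⟩
  exact ⟨j, (congrArg Subtype.val hj).symm⟩

end FermatLib.CFT.ExtVanish
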