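import Mathlib.NumberTheory.NumberField.CanonicalEmbedding.FundamentalCone
import Mathlib.Algebra.Module.ZLattice.Summable
import Mathlib.Tactic

/-!
# A weight function on the mixed space of a number field

`weightG K s` is homogeneous of degree `-d s`, its sum over an orbit of units is
`#torsion * |N x| ^ (-s)`, and it is Lipschitz on the unit sphere uniformly in `s ∈ [1, 2]`.
-/

set_option autoImplicit false

namespace FermatLib.CFT.PartialZeta

open NumberField NumberField.InfinitePlace NumberField.Units NumberField.mixedEmbedding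
  NumberField.Units.dirichletUnitTheorem Module Finset

open scoped Classical

/-- The piecewise linear tent function. -/
noncomputable def tent (y : ℝ) : ℝ := max 0 (1 - |y|)

lemma tent_nonneg (y : ℝ) : 0 ≤ tent y := le_max_left _ _

lemma tent_le_one (y : ℝ) : tent y ≤ 1 := max_le zero_le_one (by linarith [abs_nonneg y])

lemma abs_tent_sub_le (a b : ℝ) : |tent a - tent b| ≤ |a - b| := by
  have h1 : |tent a - tent b| ≤ |(1 - |a|) - (1 - |b|)| := by
    simp only [tent]
    rcases le_total (1 - |a|) 0 with h | h <;> rcases le_total (1 - |b|) 0 with h' | h'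
    all_goals
      simp only [max_eq_left, max_eq_right, h, h', abs_le]
      constructor <;>
        linarith [le_abs_self ((1 - |a|) - (1 - |b|)), neg_abs_le ((1 - |a|) - (1 - |b|))]
  refine h1.trans ?_
  rw [show (1 - |a|) - (1 - |b|) = |b| - |a| by ring, abs_sub_comm a b]
  exact abs_abs_sub_abs_le_abs_sub b a

lemma abs_lt_one_of_tent_ne_zero {y : ℝ} (h : tent y ≠ 0) : |y| < 1 := by
  by_contra h'
  exact h (max_eq_left (by linarith [not_lt.mp h']))

lemma tent_add_int_eq_zero (y : ℝ) (n : ℤ) (h : n ∉ ({-⌊y⌋, -⌊y⌋ - 1} : Finset ℤ)) :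
    tent (y + n) = 0 := by
  by_contra h'
  have h1 := abs_lt.mp (abs_lt_one_of_tent_ne_zero h')
  have h2 := Int.floor_le y
  have h3 := Int.lt_floor_add_one y
  have h4 : ((n + ⌊y⌋ : ℤ) : ℝ) < (1 : ℤ) := by push_cast; linarith
  have h5 : ((-2 : ℤ) : ℝ) < (n + ⌊y⌋ : ℤ) := by push_cast; linarith
  have h4' := Int.cast_lt.mp h4
  have h5' := Int.cast_lt.mp h5
  simp only [Finset.mem_insert, Finset.mem_singleton, not_or] at h
  omega

lemma sum_tent (y : ℝ) : ∑ n ∈ ({-⌊y⌋, -⌊y⌋ - 1} : Finset ℤ), tent (y + n) = 1 := by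
  rw [Finset.sum_pair (by omega)]
  have h2 := Int.fract_nonneg y
  have h3 := Int.fract_lt_one y
  rw [show y + ((-⌊y⌋ : ℤ) : ℝ) = Int.fract y by rw [Int.fract]; push_cast; ring,
    show y + ((-⌊y⌋ - 1 : ℤ) : ℝ) = Int.fract y - 1 by rw [Int.fract]; push_cast; ring]
  simp only [tent]
  rw [abs_of_nonneg h2, abs_of_nonpos (by linarith), max_eq_right (by linarith),
    max_eq_right (by linarith)]
  ring

lemma abs_prod_sub_prod_le {ι : Type*} (s : Finset ι) (f g : ι → ℝ)
    (hf : ∀ i, 0 ≤ f i ∧ f i ≤ 1) (hg : ∀ i, 0 ≤ g i ∧ g i ≤ 1) :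
    |∏ i ∈ s, f i - ∏ i ∈ s, g i| ≤ ∑ i ∈ s, |f i - g i| := by
  classical
  induction s using Finset.induction_on with
  | empty => simp
  | insert a t ha ih =>
    rw [Finset.prod_insert ha, Finset.prod_insert ha, Finset.sum_insert ha]
    have hP0 : 0 ≤ ∏ i ∈ t, f i := Finset.prod_nonneg fun i _ => (hf i).1
    have hP1 : ∏ i ∈ t, f i ≤ 1 := Finset.prod_le_one (fun i _ => (hf i).1) fun i _ => (hf i).2
    rw [show f a * ∏ i ∈ t, f i - g a * ∏ i ∈ t, g i =
      (f a - g a) * ∏ i ∈ t, f i + g a * (∏ i ∈ t, f i - ∏ i ∈ t, g i) by ring]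
    refine (abs_add_le _ _).trans (add_le_add ?_ ?_)
    · rw [abs_mul, abs_of_nonneg hP0]
      exact mul_le_of_le_one_right (abs_nonneg _) hP1
    · rw [abs_mul, abs_of_nonneg (hg a).1]
      exact (mul_le_of_le_one_left (abs_nonneg _) (hg a).2).trans ih

variable (K : Type*) [Field K] [NumberField K]

open scoped Classical in
/-- The real basis of the log space given by a basis of the unit lattice. -/
noncomputable def unitBasis : Basis (Fin (rank K)) ℝ (logSpace K) :=
  (basisUnitLattice K).ofZLatticeBasis ℝ (unitLattice K)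

open scoped Classical in
lemma unitBasis_apply (i : Fin (rank K)) :
    unitBasis K i = logEmbedding K (Additive.ofMul (fundSystem K i)) := by
  rw [logEmbedding_fundSystem]
  exact Basis.ofZLatticeBasis_apply ℝ _ _ i

/-- The partition of unity of the log space attached to the unit lattice. -/
noncomputable def phi (t : logSpace K) : ℝ := ∏ i, tent ((unitBasis K).repr t i)

lemma phi_nonneg (t : logSpace K) : 0 ≤ phi K t := Finset.prod_nonneg fun _ _ => tent_nonneg _

lemma phi_le_one (t : logSpace K) : phi K t ≤ 1 :=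
  Finset.prod_le_one (fun _ _ => tent_nonneg _) fun _ _ => tent_le_one _

lemma phi_zero : phi K 0 = 1 := by
  simp [phi, tent]

open scoped Classical in
lemma exists_phi_lipschitz : ∃ C, 0 ≤ C ∧ ∀ a b : logSpace K,
    |phi K a - phi K b| ≤ C * ‖a - b‖ := by
  set L : logSpace K →L[ℝ] (Fin (rank K) → ℝ) :=
    LinearMap.toContinuousLinearMap ((unitBasis K).equivFun : logSpace K →ₗ[ℝ] _)
  refine ⟨(rank K : ℝ) * ‖L‖, by positivity, fun a b => ?_⟩
  refine (abs_prod_sub_prod_le _ _ _ (fun i => ⟨tent_nonneg _, tent_le_one _⟩)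
    fun i => ⟨tent_nonneg _, tent_le_one _⟩).trans ?_
  have h : ∀ i, |tent ((unitBasis K).repr a i) - tent ((unitBasis K).repr b i)| ≤
      ‖L‖ * ‖a - b‖ := fun i => by
    refine (abs_tent_sub_le _ _).trans ?_
    have h1 : (unitBasis K).repr a i - (unitBasis K).repr b i = L (a - b) i := by
      simp [L, Basis.equivFun_apply]
    rw [h1, ← Real.norm_eq_abs]
    exact (norm_le_pi_norm _ i).trans (L.le_opNorm _)
  refine (Finset.sum_le_sum fun i _ => h i).trans ?_
  simp [mul_assoc]

open scoped Classical in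
lemma exists_norm_le_of_phi_ne_zero : ∃ R, 0 ≤ R ∧ ∀ t : logSpace K, phi K t ≠ 0 → ‖t‖ ≤ R := by
  refine ⟨∑ i, ‖unitBasis K i‖, by positivity, fun t ht => ?_⟩
  conv_lhs => rw [← (unitBasis K).sum_repr t]
  refine (norm_sum_le _ _).trans (Finset.sum_le_sum fun i _ => ?_)
  rw [_root_.norm_smul, Real.norm_eq_abs]
  refine mul_le_of_le_one_left (norm_nonneg _) (abs_lt_one_of_tent_ne_zero ?_).le
  exact Finset.prod_ne_zero_iff.mp ht i (Finset.mem_univ i)

/-- The weight function. -/
noncomputable def weightG (s : ℝ) (x : mixedSpace K) : ℝ :=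
  if mixedEmbedding.norm x = 0 then 0 else
    phi K (logMap x) * mixedEmbedding.norm x ^ (-s)

variable {K}

lemma weightG_nonneg (s : ℝ) (x : mixedSpace K) : 0 ≤ weightG K s x := by
  rw [weightG]
  split_ifs
  · exact le_rfl
  · exact mul_nonneg (phi_nonneg K _) (Real.rpow_nonneg (mixedEmbedding.norm_nonneg _) _)

lemma weightG_smul (s : ℝ) {c : ℝ} (hc : 0 < c) (x : mixedSpace K) :
    weightG K s (c • x) = c ^ (-((finrank ℚ K : ℝ) * s)) * weightG K s x := by
  simp only [weightG, mixedEmbedding.norm_smul, abs_of_pos hc]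
  by_cases h : mixedEmbedding.norm x = 0
  · simp [h]
  · rw [if_neg (mul_ne_zero (pow_ne_zero _ hc.ne') h), if_neg h, logMap_real_smul h hc.ne',
      Real.mul_rpow (by positivity) (mixedEmbedding.norm_nonneg _), ← Real.rpow_natCast_mul hc.le,
      mul_neg]
    ring

lemma abs_normAtPlace_sub_le (w : InfinitePlace K) (a b : mixedSpace K) :
    |normAtPlace w a - normAtPlace w b| ≤ ‖a - b‖ := by
  have h1 := normAtPlace_add_le w (a - b) b
  have h2 := normAtPlace_add_le w (b - a) a
  rw [sub_add_cancel] at h1 h2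
  have h3 : normAtPlace w (b - a) = normAtPlace w (a - b) := by
    rw [← neg_sub, normAtPlace_neg]
  have h4 : normAtPlace w (a - b) ≤ ‖a - b‖ := by
    rw [norm_eq_sup'_normAtPlace]
    exact Finset.le_sup' (fun w => normAtPlace w (a - b)) (Finset.mem_univ w)
  rw [abs_le]
  constructor <;> linarith

lemma normAtPlace_le_norm (w : InfinitePlace K) (x : mixedSpace K) : normAtPlace w x ≤ ‖x‖ := by
  rw [norm_eq_sup'_normAtPlace]
  exact Finset.le_sup' (fun w => normAtPlace w x) (Finset.mem_univ w)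

lemma exists_normAtPlace_eq_norm (x : mixedSpace K) : ∃ w, normAtPlace w x = ‖x‖ := by
  obtain ⟨w, -, hw⟩ := Finset.exists_mem_eq_sup' Finset.univ_nonempty
    fun w => normAtPlace w x
  exact ⟨w, by rw [norm_eq_sup'_normAtPlace, hw]⟩

lemma log_norm_eq (x : mixedSpace K) (hx : mixedEmbedding.norm x ≠ 0) :
    Real.log (mixedEmbedding.norm x) = ∑ w, (mult w : ℝ) * Real.log (normAtPlace w x) := by
  rw [mixedEmbedding.norm_apply, Real.log_prod fun w _ =>
    pow_ne_zero _ (mixedEmbedding.norm_ne_zero_iff.mp hx w)]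
  simp [Real.log_pow]

open scoped Classical in
/-- On the support of the weight all places have comparable absolute values. -/
lemma exists_delta : ∃ δ, 0 < δ ∧ δ ≤ 1 ∧ ∀ x : mixedSpace K, mixedEmbedding.norm x ≠ 0 →
    phi K (logMap x) ≠ 0 → ∀ w, δ * ‖x‖ ≤ normAtPlace w x := by
  obtain ⟨R, hR0, hR⟩ := exists_norm_le_of_phi_ne_zero K
  set R' : ℝ := (Fintype.card {w : InfinitePlace K // w ≠ w₀} + 1 : ℝ) * R with hR'
  refine ⟨Real.exp (-(2 * R')), Real.exp_pos _,
    Real.exp_le_one_iff.mpr (by rw [neg_nonpos]; positivity), fun x hx hphi w => ?_⟩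
  set L : ℝ := Real.log (mixedEmbedding.norm x) * (finrank ℚ K : ℝ)⁻¹
  have ht : ∀ v : {w : InfinitePlace K // w ≠ w₀},
      |(mult v.1 : ℝ) * (Real.log (normAtPlace v.1 x) - L)| ≤ R := fun v => by
    have := (norm_le_pi_norm (logMap x) v).trans (hR _ hphi)
    rwa [Real.norm_eq_abs, logMap_apply] at this
  have hm : ∀ v : InfinitePlace K, (1 : ℝ) ≤ mult v := fun v => mod_cast mult_pos
  have hsum : ∑ v : InfinitePlace K, (mult v : ℝ) * (Real.log (normAtPlace v x) - L) = 0 := by
    simp only [mul_sub, Finset.sum_sub_distrib, ← log_norm_eq x hx, ← Finset.sum_mul,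
      ← Nat.cast_sum, sum_mult_eq]
    simp only [L]
    field_simp [(Nat.cast_ne_zero (R := ℝ)).mpr (finrank_pos (R := ℚ) (M := K)).ne']
    ring
  have hall : ∀ v, |Real.log (normAtPlace v x) - L| ≤ R' := by
    intro v
    have h1 : |Real.log (normAtPlace v x) - L| ≤
        |(mult v : ℝ) * (Real.log (normAtPlace v x) - L)| := by
      rw [abs_mul, Nat.abs_cast]
      exact le_mul_of_one_le_left (abs_nonneg _) (hm v)
    refine h1.trans ?_
    by_cases hv : v = w₀
    · subst hv
      rw [← Finset.add_sum_erase _ _ (Finset.mem_univ w₀)] at hsum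
      rw [eq_neg_of_add_eq_zero_left hsum, abs_neg]
      refine (Finset.abs_sum_le_sum_abs _ _).trans ?_
      rw [Finset.sum_subtype (Finset.univ.erase w₀) (p := (· ≠ w₀)) (by simp)]
      refine (Finset.sum_le_sum fun v _ => ht v).trans ?_
      rw [Finset.sum_const, Finset.card_univ, nsmul_eq_mul, hR']
      nlinarith
    · refine (ht ⟨v, hv⟩).trans ?_
      rw [hR']
      have := (Fintype.card {w : InfinitePlace K // w ≠ w₀}).cast_nonneg (α := ℝ)
      nlinarith
  obtain ⟨v, hv⟩ := exists_normAtPlace_eq_norm x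
  have hpos : ∀ v, 0 < normAtPlace v x := fun v =>
    lt_of_le_of_ne (normAtPlace_nonneg _ _) (Ne.symm (mixedEmbedding.norm_ne_zero_iff.mp hx v))
  rw [← hv, ← Real.exp_log (hpos v), ← Real.exp_log (hpos w), ← Real.exp_add]
  exact Real.exp_le_exp.mpr (by linarith [abs_le.mp (hall v), abs_le.mp (hall w)])

/-- `weightG` is Lipschitz near the unit sphere, uniformly in `s ∈ [1, 2]`. -/
lemma exists_lipschitz_sphere : ∃ C ε₀, 0 < ε₀ ∧ 0 ≤ C ∧ ∀ s : ℝ, 1 ≤ s → s ≤ 2 →
    ∀ a b : mixedSpace K, ‖a‖ = 1 → ‖a - b‖ ≤ ε₀ →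
      |weightG K s a - weightG K s b| ≤ C * ‖a - b‖ := by
  classical
  obtain ⟨δ, hδ0, hδ1, hδ⟩ := exists_delta (K := K)
  obtain ⟨Cφ, hCφ0, hCφ⟩ := exists_phi_lipschitz K
  set d : ℝ := (finrank ℚ K : ℝ) with hd
  have hd1 : 1 ≤ d := Nat.one_le_cast.mpr (finrank_pos (R := ℚ) (M := K))
  set M : ℝ := 4 / δ with hMdef
  have hM : 4 ≤ M := by rw [hMdef, le_div_iff₀ hδ0]; linarith
  set E : ℝ := Real.exp (2 * d * Real.log M) with hE
  refine ⟨Cφ * (4 * M * d) * E + E * (2 * d * M), δ / 4, by positivity, by positivity, ?_⟩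
  intro s hs1 hs2 a b ha hab
  by_cases hz : weightG K s a = 0 ∧ weightG K s b = 0
  · simp only [hz.1, hz.2, sub_self, abs_zero]; positivity
  -- all places of `a` and `b` lie in `[1/M, M]`
  have hbn : 1 - δ / 4 ≤ ‖b‖ ∧ ‖b‖ ≤ 1 + δ / 4 := by
    constructor <;> linarith [norm_sub_norm_le a b, norm_sub_norm_le b a, norm_sub_rev a b]
  have hlow : ∀ w, δ / 2 ≤ normAtPlace w a := by
    intro w
    rcases not_and_or.mp hz with h | h
    · rw [weightG] at h
      split_ifs at h with h0
      · exact absurd rfl h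
      · have := hδ a h0 (left_ne_zero_of_mul h) w
        rw [ha, mul_one] at this
        linarith
    · rw [weightG] at h
      split_ifs at h with h0
      · exact absurd rfl h
      · have h1 := hδ b h0 (left_ne_zero_of_mul h) w
        have h2 := abs_le.mp (abs_normAtPlace_sub_le w a b)
        nlinarith
  have hA : ∀ w, 1 / M ≤ normAtPlace w a ∧ normAtPlace w a ≤ M := fun w => by
    refine ⟨?_, by linarith [normAtPlace_le_norm w a]⟩
    rw [hMdef, one_div_div]; linarith [hlow w]
  have hB : ∀ w, 1 / M ≤ normAtPlace w b ∧ normAtPlace w b ≤ M := fun w => by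
    have := abs_le.mp (abs_normAtPlace_sub_le w a b)
    refine ⟨?_, by linarith [normAtPlace_le_norm w b]⟩
    rw [hMdef, one_div_div]; linarith [hlow w]
  have hMinv : (0 : ℝ) < 1 / M := by positivity
  have hlogle : ∀ {u : ℝ}, 1 / M ≤ u → u ≤ M → |Real.log u| ≤ Real.log M := by
    intro u h1 h2
    rw [abs_le]
    refine ⟨?_, Real.log_le_log (hMinv.trans_le h1) h2⟩
    have := Real.log_le_log hMinv h1
    rw [one_div, Real.log_inv] at this
    exact this
  have hlogdiff : ∀ {u v : ℝ}, 1 / M ≤ u → 1 / M ≤ v →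
      |Real.log u - Real.log v| ≤ M * |u - v| := by
    intro u v h1 h2
    have key : ∀ {u v : ℝ}, 1 / M ≤ u → 1 / M ≤ v →
        Real.log u - Real.log v ≤ M * |u - v| := by
      intro u v h1 h2
      have hu := hMinv.trans_le h1
      have hv := hMinv.trans_le h2
      rw [← Real.log_div hu.ne' hv.ne']
      refine (Real.log_le_sub_one_of_pos (by positivity)).trans ?_
      have hv' : 1 / v ≤ M := by
        rw [div_le_iff₀ hv]; rw [div_le_iff₀ (by positivity)] at h2; linarith
      calc u / v - 1 = (1 / v) * (u - v) := by field_simp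
        _ ≤ (1 / v) * |u - v| := mul_le_mul_of_nonneg_left (le_abs_self _) (by positivity)
        _ ≤ M * |u - v| := mul_le_mul_of_nonneg_right hv' (abs_nonneg _)
    rw [abs_le]
    exact ⟨by linarith [key h2 h1, show M * |v - u| = M * |u - v| by rw [abs_sub_comm v u]],
      key h1 h2⟩
  set e : ℝ := ‖a - b‖
  have hne : ∀ {x : mixedSpace K}, (∀ w, 1 / M ≤ normAtPlace w x) →
      mixedEmbedding.norm x ≠ 0 := fun h =>
    mixedEmbedding.norm_ne_zero_iff.mpr fun w => (hMinv.trans_le (h w)).ne'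
  have hna := hne fun w => (hA w).1
  have hnb := hne fun w => (hB w).1
  set la := Real.log (mixedEmbedding.norm a)
  set lb := Real.log (mixedEmbedding.norm b)
  have hsm : ∑ w : InfinitePlace K, (mult w : ℝ) = d := by
    rw [hd, ← sum_mult_eq, Nat.cast_sum]
  have hL : |la - lb| ≤ d * (M * e) := by
    simp only [la, lb, log_norm_eq _ hna, log_norm_eq _ hnb, ← Finset.sum_sub_distrib, ← mul_sub]
    refine (Finset.abs_sum_le_sum_abs _ _).trans ?_
    rw [← hsm, Finset.sum_mul]
    refine Finset.sum_le_sum fun w _ => ?_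
    rw [abs_mul, Nat.abs_cast]
    refine mul_le_mul_of_nonneg_left ((hlogdiff (hA w).1 (hB w).1).trans ?_) (by positivity)
    exact mul_le_mul_of_nonneg_left (abs_normAtPlace_sub_le w a b) (by positivity)
  have hlb : |lb| ≤ d * Real.log M := by
    simp only [lb, log_norm_eq _ hnb]
    refine (Finset.abs_sum_le_sum_abs _ _).trans ?_
    rw [← hsm, Finset.sum_mul]
    refine Finset.sum_le_sum fun w _ => ?_
    rw [abs_mul, Nat.abs_cast]
    exact mul_le_mul_of_nonneg_left (hlogle (hB w).1 (hB w).2) (by positivity)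
  have hla : |la| ≤ d * Real.log M := by
    simp only [la, log_norm_eq _ hna]
    refine (Finset.abs_sum_le_sum_abs _ _).trans ?_
    rw [← hsm, Finset.sum_mul]
    refine Finset.sum_le_sum fun w _ => ?_
    rw [abs_mul, Nat.abs_cast]
    exact mul_le_mul_of_nonneg_left (hlogle (hA w).1 (hA w).2) (by positivity)
  have hlogMap : ‖logMap a - logMap b‖ ≤ 4 * M * d * e := by
    refine (pi_norm_le_iff_of_nonneg (by positivity)).mpr fun w => ?_
    rw [Pi.sub_apply, Real.norm_eq_abs, logMap_apply, logMap_apply, ← mul_sub, abs_mul,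
      Nat.abs_cast]
    have hm2 : (mult w.1 : ℝ) ≤ 2 := by
      simp only [mult]; split_ifs <;> norm_num
    have h1 := (hlogdiff (hA w.1).1 (hB w.1).1).trans
      (mul_le_mul_of_nonneg_left (abs_normAtPlace_sub_le w.1 a b) (by positivity))
    have h2 : |Real.log (normAtPlace w.1 a) - la * d⁻¹ -
        (Real.log (normAtPlace w.1 b) - lb * d⁻¹)| ≤ 2 * (M * e) := by
      rw [show Real.log (normAtPlace w.1 a) - la * d⁻¹ -
        (Real.log (normAtPlace w.1 b) - lb * d⁻¹) =
        (Real.log (normAtPlace w.1 a) - Real.log (normAtPlace w.1 b)) - (la - lb) * d⁻¹ by ring]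
      refine (abs_sub _ _).trans ?_
      rw [two_mul, abs_mul, abs_of_pos (by positivity : (0 : ℝ) < d⁻¹), ← div_eq_mul_inv]
      refine add_le_add h1 ?_
      rw [div_le_iff₀ (by positivity)]; linarith
    refine (mul_le_mul hm2 h2 (abs_nonneg _) (by norm_num)).trans ?_
    have : 0 ≤ M * e := by positivity
    nlinarith
  have hpow : ∀ {x : mixedSpace K}, mixedEmbedding.norm x ≠ 0 →
      mixedEmbedding.norm x ^ (-s) = Real.exp (-s * Real.log (mixedEmbedding.norm x)) := fun h => by
    rw [Real.rpow_def_of_pos (lt_of_le_of_ne (mixedEmbedding.norm_nonneg _) (Ne.symm h)), mul_comm]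
  simp only [weightG, if_neg hna, if_neg hnb, hpow hna, hpow hnb]
  set ua := -s * la
  set ub := -s * lb
  have hu : ∀ {l : ℝ}, |l| ≤ d * Real.log M → Real.exp (-s * l) ≤ E := fun {l} hl => by
    refine Real.exp_le_exp.mpr ?_
    have h0 : 0 ≤ |l| := abs_nonneg l
    calc -s * l ≤ |-s * l| := le_abs_self _
      _ = s * |l| := by rw [abs_mul, abs_neg, abs_of_pos (by linarith)]
      _ ≤ 2 * (d * Real.log M) := mul_le_mul hs2 hl h0 (by norm_num)
      _ = _ := by ring
  have hexp : |Real.exp ua - Real.exp ub| ≤ E * (2 * d * M) * e := by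
    have key : ∀ {p q : ℝ}, Real.exp p ≤ E → Real.exp p - Real.exp q ≤ E * |p - q| := by
      intro p q hp
      have h1 := Real.add_one_le_exp (q - p)
      calc Real.exp p - Real.exp q = Real.exp p * (1 - Real.exp (q - p)) := by
            rw [Real.exp_sub]; field_simp
        _ ≤ Real.exp p * |p - q| := by
            refine mul_le_mul_of_nonneg_left ?_ (Real.exp_pos _).le
            linarith [le_abs_self (p - q)]
        _ ≤ _ := mul_le_mul_of_nonneg_right hp (abs_nonneg _)
    have h3 : |ua - ub| ≤ 2 * d * M * e := by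
      rw [show ua - ub = -s * (la - lb) by simp only [ua, ub]; ring, abs_mul, abs_neg,
        abs_of_pos (by linarith : (0 : ℝ) < s)]
      calc s * |la - lb| ≤ 2 * (d * (M * e)) := mul_le_mul hs2 hL (abs_nonneg _) (by norm_num)
        _ = _ := by ring
    have hE0 : 0 ≤ E := by positivity
    have hb1 := key (hu hla) (q := ub)
    have hb2 := key (hu hlb) (q := ua)
    rw [abs_sub_comm ub ua] at hb2
    rw [abs_le]
    constructor <;> nlinarith [abs_nonneg (ua - ub)]
  rw [show phi K (logMap a) * Real.exp ua - phi K (logMap b) * Real.exp ub =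
    (phi K (logMap a) - phi K (logMap b)) * Real.exp ua +
      phi K (logMap b) * (Real.exp ua - Real.exp ub) by ring]
  refine (abs_add_le _ _).trans ?_
  rw [abs_mul, abs_mul, Real.abs_exp, abs_of_nonneg (phi_nonneg K _)]
  have h1 : |phi K (logMap a) - phi K (logMap b)| ≤ Cφ * (4 * M * d * e) :=
    (hCφ _ _).trans (mul_le_mul_of_nonneg_left hlogMap hCφ0)
  calc _ ≤ Cφ * (4 * M * d * e) * E + 1 * (E * (2 * d * M) * e) :=
        add_le_add (mul_le_mul h1 (hu hla) (Real.exp_pos _).le (by positivity))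
          (mul_le_mul (phi_le_one K _) hexp (abs_nonneg _) zero_le_one)
    _ = _ := by ring

/-- The weight is bounded by a multiple of `‖x‖ ^ (-d s)`. -/
lemma exists_weightG_le : ∃ C, 0 ≤ C ∧ ∀ s : ℝ, 1 ≤ s → s ≤ 2 → ∀ x : mixedSpace K, x ≠ 0 →
    weightG K s x ≤ C * ‖x‖ ^ (-((finrank ℚ K : ℝ) * s)) := by
  obtain ⟨δ, hδ0, hδ1, hδ⟩ := exists_delta (K := K)
  refine ⟨δ ^ (-((finrank ℚ K : ℝ) * 2)), by positivity, fun s hs1 hs2 x hx => ?_⟩
  have hxn : 0 < ‖x‖ := norm_pos_iff.mpr hx
  rw [weightG]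
  split_ifs with h0
  · positivity
  · by_cases hphi : phi K (logMap x) = 0
    · rw [hphi, zero_mul]; positivity
    have h1 : (δ * ‖x‖) ^ finrank ℚ K ≤ mixedEmbedding.norm x := by
      rw [mixedEmbedding.norm_apply, ← sum_mult_eq, ← Finset.prod_pow_eq_pow_sum]
      exact Finset.prod_le_prod (fun w _ => by positivity)
        fun w _ => pow_le_pow_left₀ (by positivity) (hδ x h0 hphi w) _
    have h2 : mixedEmbedding.norm x ^ (-s) ≤ ((δ * ‖x‖) ^ finrank ℚ K) ^ (-s) :=
      Real.rpow_le_rpow_of_nonpos (by positivity) h1 (by linarith)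
    refine (mul_le_of_le_one_left (Real.rpow_nonneg (mixedEmbedding.norm_nonneg _) _)
      (phi_le_one K _)).trans (h2.trans ?_)
    rw [← Real.rpow_natCast_mul (by positivity), mul_neg, Real.mul_rpow hδ0.le hxn.le]
    refine mul_le_mul_of_nonneg_right ?_ (by positivity)
    exact Real.rpow_le_rpow_of_exponent_ge hδ0 hδ1 (by nlinarith)

end FermatLib.CFT.PartialZeta
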